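import Mathlib
import Fermat.Agent.CFT.Analytic.NormIndex

/-!
# Density of the primes in a pair of inverse classes (analytic core of Chebotarev up to inversion)

Let `K` be a number field, `𝔪 ≠ ⊥` an ideal of `𝓞 K` and `φ` a surjective homomorphism from the
ideals prime to `𝔪` onto a finite abelian group `A`, trivial on the principal ideals `(α)` with
`α ≡ 1 mod 𝔪` totally positive.  If the primes in the kernel of `φ` have lower Dirichlet density
at least `1 / |A|` (hypothesis `hLB`), then for every `a : A`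

  `∑_v ([φ v = a] + [φ v = a⁻¹]) N(v)^(-s) = (2 / |A|) log (1 / (s - 1)) + O(1)` on `(1, 2]`.

Only the real parts of the prime sums of the ray class characters are controlled (by the
boundedness of `L(s, χ)` on `(1, 2]`, `NormIndex.re_prime_sum_le_const`); this is why the
statement is about the pair `{a, a⁻¹}`.
-/

set_option autoImplicit false
set_option linter.unusedSectionVars false

namespace Fermat.Agent.Lib.Chebotarev.PairDensity

open NumberField IsDedekindDomain Fermat.Agent.CFT.Analytic.RayZeta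
  Fermat.Agent.CFT.Analytic.RayClass Fermat.Agent.CFT.Analytic.RayL
  Fermat.Agent.CFT.Analytic.NormIndex Fermat.Agent.S14.Analytic

open scoped Classical

noncomputable section

variable {K : Type*} [Field K] [NumberField K]
variable {A : Type*} [CommGroup A] [Finite A]

/-- Indicator of the primes, prime to `𝔪`, whose class under `φ` is `a`. -/
def ind {𝔪 : Ideal (𝓞 K)} (φ : coprimeSubmonoid K 𝔪 →* A) (a : A)
    (v : HeightOneSpectrum (𝓞 K)) : ℝ :=
  if h : v.asIdeal ∈ coprimeSubmonoid K 𝔪 then (if φ ⟨v.asIdeal, h⟩ = a then 1 else 0) else 0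

lemma ind_of_mem {𝔪 : Ideal (𝓞 K)} (φ : coprimeSubmonoid K 𝔪 →* A) (a : A)
    {v : HeightOneSpectrum (𝓞 K)} (h : v.asIdeal ∈ coprimeSubmonoid K 𝔪) :
    ind φ a v = if φ ⟨v.asIdeal, h⟩ = a then 1 else 0 := by
  unfold ind
  rw [dif_pos h]

lemma ind_of_not_mem {𝔪 : Ideal (𝓞 K)} (φ : coprimeSubmonoid K 𝔪 →* A) (a : A)
    {v : HeightOneSpectrum (𝓞 K)} (h : v.asIdeal ∉ coprimeSubmonoid K 𝔪) : ind φ a v = 0 := by
  unfold ind
  rw [dif_neg h]

lemma ind_nonneg {𝔪 : Ideal (𝓞 K)} (φ : coprimeSubmonoid K 𝔪 →* A) (a : A)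
    (v : HeightOneSpectrum (𝓞 K)) : 0 ≤ ind φ a v := by
  unfold ind
  split_ifs <;> norm_num

lemma ind_le_one {𝔪 : Ideal (𝓞 K)} (φ : coprimeSubmonoid K 𝔪 →* A) (a : A)
    (v : HeightOneSpectrum (𝓞 K)) : ind φ a v ≤ 1 := by
  unfold ind
  split_ifs <;> norm_num

/-- Orthogonality of characters, real form for a pair of inverse elements. -/
lemma sum_re_mul_re [Fintype (A →* ℂˣ)] (a x : A) :
    ∑ ψ : A →* ℂˣ, 2 * ((ψ a : ℂˣ) : ℂ).re * ((ψ x : ℂˣ) : ℂ).re =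
      (Nat.card A : ℝ) * ((if x = a then 1 else 0) + (if x = a⁻¹ then 1 else 0)) := by
  have h1 : ∀ ψ : A →* ℂˣ, 2 * ((ψ a : ℂˣ) : ℂ).re * ((ψ x : ℂˣ) : ℂ).re =
      ((ψ (a * x) : ℂˣ) : ℂ).re + ((ψ (a⁻¹ * x) : ℂˣ) : ℂ).re := by
    intro ψ
    have hinv : ((ψ a⁻¹ : ℂˣ) : ℂ) = (starRingEnd ℂ) ((ψ a : ℂˣ) : ℂ) := by
      rw [map_inv, Units.val_inv_eq_inv_val, Complex.inv_eq_conj (norm_char ψ a)]
    rw [map_mul, map_mul, Units.val_mul, Units.val_mul, hinv, Complex.mul_re, Complex.mul_re,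
      Complex.conj_re, Complex.conj_im]
    ring
  rw [Finset.sum_congr rfl fun ψ _ => h1 ψ, Finset.sum_add_distrib, ← Complex.re_sum,
    ← Complex.re_sum, sum_char_eq, sum_char_eq]
  have e1 : (a * x = 1) ↔ (x = a⁻¹) := by
    constructor
    · intro h; exact eq_inv_of_mul_eq_one_right h
    · intro h; rw [h, mul_inv_cancel]
  have e2 : (a⁻¹ * x = 1) ↔ (x = a) := by
    constructor
    · intro h
      have := eq_inv_of_mul_eq_one_right h
      rw [inv_inv] at this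
      exact this
    · intro h; rw [h, inv_mul_cancel]
  rw [if_congr e1 rfl rfl, if_congr e2 rfl rfl, apply_ite Complex.re, apply_ite Complex.re,
    Complex.natCast_re, Complex.zero_re]
  by_cases hx1 : x = a⁻¹
  · by_cases hx2 : x = a
    · rw [if_pos hx1, if_pos hx2, if_pos hx1, if_pos hx2]; ring
    · rw [if_pos hx1, if_neg hx2, if_pos hx1, if_neg hx2]; ring
  · by_cases hx2 : x = a
    · rw [if_neg hx1, if_pos hx2, if_neg hx1, if_pos hx2]; ring
    · rw [if_neg hx1, if_neg hx2, if_neg hx1, if_neg hx2]; ring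

/-- The primes not prime to `𝔪` form a finite set. -/
lemma finite_not_coprime {𝔪 : Ideal (𝓞 K)} (h𝔪 : 𝔪 ≠ ⊥) :
    {v : HeightOneSpectrum (𝓞 K) | v.asIdeal ∉ coprimeSubmonoid K 𝔪}.Finite := by
  refine (Ideal.finite_factors h𝔪).subset ?_
  intro v hv
  rw [Set.mem_ofPred_eq]
  rw [Set.mem_ofPred_eq, mem_coprimeSubmonoid] at hv
  have hcop : ¬ IsCoprime v.asIdeal 𝔪 := fun h => hv ⟨v.ne_bot, h⟩
  rw [Ideal.isCoprime_iff_sup_eq] at hcop
  have hmax := v.isMaximal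
  have heq : v.asIdeal = v.asIdeal ⊔ 𝔪 := hmax.eq_of_le hcop le_sup_left
  have hle : 𝔪 ≤ v.asIdeal := heq ▸ le_sup_right
  exact Ideal.dvd_iff_le.mpr hle

/-- **Pair density.** -/
theorem pair_density {𝔪 : Ideal (𝓞 K)} (h𝔪 : 𝔪 ≠ ⊥) (φ : coprimeSubmonoid K 𝔪 →* A)
    (hsurj : Function.Surjective φ)
    (hray : ∀ (α : 𝓞 K) (hα : RayOne K 𝔪 α),
      φ ⟨Ideal.span {α}, span_mem_coprimeSubmonoid K hα⟩ = 1)
    (hLB : ∃ C : ℝ, ∀ s : ℝ, 1 < s → s ≤ 2 →
      Real.log (1 / (s - 1)) / (Nat.card A : ℝ) - C ≤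
        ∑' v : HeightOneSpectrum (𝓞 K), ind φ 1 v * PrimeSums.term K s v.asIdeal)
    (a : A) :
    ∃ C : ℝ, ∀ s : ℝ, 1 < s → s ≤ 2 →
      |(∑' v : HeightOneSpectrum (𝓞 K),
          (ind φ a v + ind φ a⁻¹ v) * PrimeSums.term K s v.asIdeal) -
        2 / (Nat.card A : ℝ) * Real.log (1 / (s - 1))| ≤ C := by
  have : Finite (A →* ℂˣ) := finite_char A
  let _ : Fintype (A →* ℂˣ) := Fintype.ofFinite _
  have hcardpos : (0 : ℝ) < (Nat.card A : ℝ) := by exact_mod_cast Nat.card_pos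
  obtain ⟨C0, hC0⟩ := re_prime_sum_le_log K
  obtain ⟨CP, hCP⟩ := PrimeSums.prime_sum_bound K
  obtain ⟨CL, hCL⟩ := hLB
  have hnorm : ∀ (ψ : A →* ℂˣ) (I : coprimeSubmonoid K 𝔪), ‖chiOf φ ψ I‖ ≤ 1 := fun ψ I =>
    (norm_char ψ (φ I)).le
  have hconst : ∀ ψ : A →* ℂˣ, ψ ≠ 1 → ∃ C : ℝ, ∀ s : ℝ, 1 < s → s ≤ 2 →
      (∑' v : HeightOneSpectrum (𝓞 K), rayFun (chiOf φ ψ) s v.asIdeal).re ≤ C := by
    intro ψ hψ
    refine re_prime_sum_le_const h𝔪 (chiOf φ ψ) (hnorm ψ) ?_ ?_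
    · intro α hα
      rw [chiOf_apply, hray α hα, map_one, Units.val_one]
    · by_contra hcon
      simp only [not_exists, not_not] at hcon
      apply hψ
      ext b
      obtain ⟨I, rfl⟩ := hsurj b
      have := hcon I
      rw [chiOf_apply] at this
      rw [this, MonoidHom.one_apply, Units.val_one]
  choose! Cψ hCψ using hconst
  -- the finite set of bad primes
  have hbadfin := finite_not_coprime (K := K) h𝔪
  set nb : ℝ := (hbadfin.toFinset.card : ℝ) with hnb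
  -- the bound for the nontrivial characters
  set Bd : ℝ := (Nat.card A : ℝ) * |CL| + |C0| + ∑ ψ : A →* ℂˣ, |Cψ ψ| with hBd
  have hBd0 : 0 ≤ Bd := by
    have h1 : 0 ≤ ∑ ψ : A →* ℂˣ, |Cψ ψ| := Finset.sum_nonneg fun ψ _ => abs_nonneg _
    have h2 : 0 ≤ (Nat.card A : ℝ) * |CL| := mul_nonneg hcardpos.le (abs_nonneg _)
    have h3 := abs_nonneg C0
    rw [hBd]; linarith
  refine ⟨2 / (Nat.card A : ℝ) *
    ((|CP| + nb + |C0|) + (Fintype.card (A →* ℂˣ) : ℝ) * Bd), fun s hs1 hs2 => ?_⟩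
  set lam : ℝ := Real.log (1 / (s - 1)) with hlam
  set g : (A →* ℂˣ) → HeightOneSpectrum (𝓞 K) → ℝ :=
    fun ψ v => (rayFun (chiOf φ ψ) s v.asIdeal).re with hg_def
  have hinj : Function.Injective (fun v : HeightOneSpectrum (𝓞 K) => v.asIdeal) :=
    fun v w h => HeightOneSpectrum.ext h
  have hsumC : ∀ ψ : A →* ℂˣ,
      Summable fun v : HeightOneSpectrum (𝓞 K) => rayFun (chiOf φ ψ) s v.asIdeal := fun ψ =>
    ((summable_norm_rayFun (chiOf φ ψ) (hnorm ψ) hs1).comp_injective hinj).of_norm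
  have hg : ∀ ψ : A →* ℂˣ, Summable (g ψ) := fun ψ => Complex.reCLM.summable (hsumC ψ)
  have hre : ∀ ψ : A →* ℂˣ,
      (∑' v : HeightOneSpectrum (𝓞 K), rayFun (chiOf φ ψ) s v.asIdeal).re = ∑' v, g ψ v :=
    fun ψ => Complex.re_tsum (hsumC ψ)
  set Gs : (A →* ℂˣ) → ℝ := fun ψ => ∑' v, g ψ v with hGs
  have hprimes : Summable fun v : HeightOneSpectrum (𝓞 K) => PrimeSums.term K s v.asIdeal :=
    PrimeSums.summable_primes K hs1
  -- pointwise orthogonality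
  have hpt : ∀ (b : A) (v : HeightOneSpectrum (𝓞 K)),
      ∑ ψ : A →* ℂˣ, 2 * ((ψ b : ℂˣ) : ℂ).re * g ψ v =
        (Nat.card A : ℝ) * ((ind φ b v + ind φ b⁻¹ v) * PrimeSums.term K s v.asIdeal) := by
    intro b v
    by_cases h : v.asIdeal ∈ coprimeSubmonoid K 𝔪
    · have h1 : ∀ ψ : A →* ℂˣ, g ψ v =
          ((ψ (φ ⟨v.asIdeal, h⟩) : ℂˣ) : ℂ).re * PrimeSums.term K s v.asIdeal := by
        intro ψ
        simp only [hg_def]
        rw [rayFun_of_mem _ s h, chiOf_apply, Complex.re_mul_ofReal]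
        rfl
      have h2 : ∀ ψ : A →* ℂˣ, 2 * ((ψ b : ℂˣ) : ℂ).re * g ψ v =
          (2 * ((ψ b : ℂˣ) : ℂ).re * ((ψ (φ ⟨v.asIdeal, h⟩) : ℂˣ) : ℂ).re) *
            PrimeSums.term K s v.asIdeal := by
        intro ψ; rw [h1 ψ]; ring
      rw [Finset.sum_congr rfl fun ψ _ => h2 ψ, ← Finset.sum_mul, sum_re_mul_re,
        ind_of_mem φ b h, ind_of_mem φ b⁻¹ h]
      ring
    · have h1 : ∀ ψ : A →* ℂˣ, g ψ v = 0 := by
        intro ψ
        simp only [hg_def]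
        rw [rayFun_of_not_mem _ s h]
        simp
      rw [ind_of_not_mem φ b h, ind_of_not_mem φ b⁻¹ h]
      simp [h1]
  -- summed orthogonality
  have hsum_ind : ∀ b : A, Summable fun v : HeightOneSpectrum (𝓞 K) =>
      (ind φ b v + ind φ b⁻¹ v) * PrimeSums.term K s v.asIdeal := by
    intro b
    refine Summable.of_nonneg_of_le (fun v => mul_nonneg (add_nonneg (ind_nonneg φ b v)
      (ind_nonneg φ b⁻¹ v)) (PrimeSums.term_nonneg K s _)) (fun v => ?_) (hprimes.mul_left 2)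
    have h1 := ind_le_one φ b v
    have h2 := ind_le_one φ b⁻¹ v
    exact mul_le_mul_of_nonneg_right (by linarith) (PrimeSums.term_nonneg K s _)
  have horth : ∀ b : A, ∑ ψ : A →* ℂˣ, 2 * ((ψ b : ℂˣ) : ℂ).re * Gs ψ =
      (Nat.card A : ℝ) *
        ∑' v : HeightOneSpectrum (𝓞 K),
          (ind φ b v + ind φ b⁻¹ v) * PrimeSums.term K s v.asIdeal := by
    intro b
    have h1 : ∀ ψ : A →* ℂˣ, 2 * ((ψ b : ℂˣ) : ℂ).re * Gs ψ =
        ∑' v, 2 * ((ψ b : ℂˣ) : ℂ).re * g ψ v := fun ψ => (tsum_mul_left).symm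
    rw [Finset.sum_congr rfl fun ψ _ => h1 ψ,
      ← Summable.tsum_finsetSum (fun ψ _ => (hg ψ).mul_left _), ← tsum_mul_left]
    exact tsum_congr fun v => hpt b v
  -- the trivial character
  have hG1 : |Gs 1 - lam| ≤ |CP| + nb + |C0| := by
    have hup : Gs 1 ≤ lam + C0 := by
      have := hC0 (chiOf φ 1) (hnorm 1) s hs1 hs2
      rw [hre 1] at this
      exact this
    have hg1 : ∀ v : HeightOneSpectrum (𝓞 K), g 1 v =
        (if v.asIdeal ∈ coprimeSubmonoid K 𝔪 then PrimeSums.term K s v.asIdeal else 0) := by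
      intro v
      simp only [hg_def]
      by_cases h : v.asIdeal ∈ coprimeSubmonoid K 𝔪
      · rw [rayFun_of_mem _ s h, chiOf_apply, if_pos h, MonoidHom.one_apply, Units.val_one,
          one_mul, Complex.ofReal_re]
        rfl
      · rw [rayFun_of_not_mem _ s h, if_neg h]
        simp
    have hdiff : ∑' v : HeightOneSpectrum (𝓞 K), PrimeSums.term K s v.asIdeal - Gs 1 =
        ∑ v ∈ hbadfin.toFinset, PrimeSums.term K s v.asIdeal := by
      rw [hGs]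
      simp only []
      rw [← Summable.tsum_sub hprimes (hg 1)]
      rw [tsum_eq_sum (s := hbadfin.toFinset)]
      · refine Finset.sum_congr rfl fun v hv => ?_
        have hv' : v.asIdeal ∉ coprimeSubmonoid K 𝔪 := by
          simpa using hv
        rw [hg1 v, if_neg hv', sub_zero]
      · intro v hv
        have hv' : v.asIdeal ∈ coprimeSubmonoid K 𝔪 := by
          by_contra hcon
          exact hv (by simpa using hcon)
        rw [hg1 v, if_pos hv', sub_self]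
    have hbad_le : ∑ v ∈ hbadfin.toFinset, PrimeSums.term K s v.asIdeal ≤ nb := by
      have : ∀ v ∈ hbadfin.toFinset, PrimeSums.term K s v.asIdeal ≤ 1 := fun v _ =>
        (PrimeSums.pterm_le_half K v hs1.le).trans (by norm_num)
      calc ∑ v ∈ hbadfin.toFinset, PrimeSums.term K s v.asIdeal
          ≤ ∑ _v ∈ hbadfin.toFinset, (1 : ℝ) := Finset.sum_le_sum this
        _ = nb := by rw [Finset.sum_const, nsmul_eq_mul, mul_one]
    have hbad_nn : 0 ≤ ∑ v ∈ hbadfin.toFinset, PrimeSums.term K s v.asIdeal :=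
      Finset.sum_nonneg fun v _ => PrimeSums.term_nonneg K s _
    have hP := abs_le.mp (hCP s hs1 hs2)
    have hP1 : ∑' v : HeightOneSpectrum (𝓞 K), PrimeSums.term K s v.asIdeal - lam ≤ |CP| :=
      hP.2.trans (le_abs_self _)
    have hP2 : -|CP| ≤ ∑' v : HeightOneSpectrum (𝓞 K), PrimeSums.term K s v.asIdeal - lam :=
      (neg_le_neg (le_abs_self CP)).trans hP.1
    have hC0a := le_abs_self C0
    have hC0b := abs_nonneg C0
    have hnb0 : 0 ≤ nb := Nat.cast_nonneg _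
    rw [abs_le]
    constructor <;> linarith
  -- the nontrivial characters are bounded
  have hup : ∀ ψ : A →* ℂˣ, ψ ≠ 1 → Gs ψ ≤ |Cψ ψ| := by
    intro ψ hψ
    have := hCψ ψ hψ s hs1 hs2
    rw [hre ψ] at this
    exact this.trans (le_abs_self _)
  have hsumall : lam - (Nat.card A : ℝ) * |CL| ≤ ∑ ψ : A →* ℂˣ, Gs ψ := by
    have h1 := horth 1
    have h2 : ∀ ψ : A →* ℂˣ, 2 * ((ψ (1 : A) : ℂˣ) : ℂ).re * Gs ψ = 2 * Gs ψ := by
      intro ψ
      rw [map_one, Units.val_one, Complex.one_re, mul_one]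
    rw [Finset.sum_congr rfl fun ψ _ => h2 ψ, ← Finset.mul_sum] at h1
    have h3 : ∀ v : HeightOneSpectrum (𝓞 K),
        (ind φ (1 : A) v + ind φ (1 : A)⁻¹ v) * PrimeSums.term K s v.asIdeal =
          2 * (ind φ 1 v * PrimeSums.term K s v.asIdeal) := by
      intro v; rw [inv_one]; ring
    rw [tsum_congr h3, tsum_mul_left] at h1
    have h4 := hCL s hs1 hs2
    have h5 : ∑ ψ : A →* ℂˣ, Gs ψ = (Nat.card A : ℝ) *
        ∑' v : HeightOneSpectrum (𝓞 K), ind φ 1 v * PrimeSums.term K s v.asIdeal := by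
      linarith
    rw [h5]
    have h6 : (Nat.card A : ℝ) * (lam / (Nat.card A : ℝ) - CL) ≤ (Nat.card A : ℝ) *
        ∑' v : HeightOneSpectrum (𝓞 K), ind φ 1 v * PrimeSums.term K s v.asIdeal :=
      mul_le_mul_of_nonneg_left h4 hcardpos.le
    have h7 : (Nat.card A : ℝ) * (lam / (Nat.card A : ℝ) - CL) =
        lam - (Nat.card A : ℝ) * CL := by
      field_simp
    have h8 : (Nat.card A : ℝ) * CL ≤ (Nat.card A : ℝ) * |CL| :=
      mul_le_mul_of_nonneg_left (le_abs_self _) hcardpos.le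
    linarith
  have hlow : ∀ ψ : A →* ℂˣ, ψ ≠ 1 → -Bd ≤ Gs ψ := by
    intro ψ hψ
    have h1 : ∑ ψ' : A →* ℂˣ, Gs ψ' =
        Gs ψ + Gs 1 + ∑ ψ' ∈ (Finset.univ.erase ψ).erase 1, Gs ψ' := by
      rw [← Finset.add_sum_erase Finset.univ _ (Finset.mem_univ ψ),
        ← Finset.add_sum_erase (Finset.univ.erase ψ) _
          (Finset.mem_erase.mpr ⟨Ne.symm hψ, Finset.mem_univ _⟩)]
      ring
    have h2 : ∑ ψ' ∈ (Finset.univ.erase ψ).erase 1, Gs ψ' ≤
        ∑ ψ' : A →* ℂˣ, |Cψ ψ'| := by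
      calc ∑ ψ' ∈ (Finset.univ.erase ψ).erase 1, Gs ψ'
          ≤ ∑ ψ' ∈ (Finset.univ.erase ψ).erase 1, |Cψ ψ'| :=
            Finset.sum_le_sum fun ψ' hψ' => hup ψ' (Finset.mem_erase.mp hψ').1
        _ ≤ ∑ ψ' : A →* ℂˣ, |Cψ ψ'| :=
            Finset.sum_le_sum_of_subset_of_nonneg (Finset.subset_univ _)
              fun _ _ _ => abs_nonneg _
    have h3 : Gs 1 ≤ lam + |C0| := by
      have := hC0 (chiOf φ 1) (hnorm 1) s hs1 hs2
      rw [hre 1] at this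
      exact this.trans (by linarith [le_abs_self C0])
    rw [hBd]
    linarith
  have habs : ∀ ψ : A →* ℂˣ, ψ ≠ 1 → |Gs ψ| ≤ Bd := by
    intro ψ hψ
    rw [abs_le]
    refine ⟨hlow ψ hψ, (hup ψ hψ).trans ?_⟩
    rw [hBd]
    have h1 : |Cψ ψ| ≤ ∑ ψ' : A →* ℂˣ, |Cψ ψ'| :=
      Finset.single_le_sum (f := fun ψ' : A →* ℂˣ => |Cψ ψ'|) (fun _ _ => abs_nonneg _)
        (Finset.mem_univ ψ)
    have h2 : 0 ≤ (Nat.card A : ℝ) * |CL| := mul_nonneg hcardpos.le (abs_nonneg _)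
    have h3 := abs_nonneg C0
    linarith
  -- conclusion
  have hmain := horth a
  set S : ℝ := ∑' v : HeightOneSpectrum (𝓞 K),
    (ind φ a v + ind φ a⁻¹ v) * PrimeSums.term K s v.asIdeal with hS
  have hsplit : ∑ ψ : A →* ℂˣ, 2 * ((ψ a : ℂˣ) : ℂ).re * Gs ψ =
      2 * Gs 1 + ∑ ψ ∈ Finset.univ.erase (1 : A →* ℂˣ), 2 * ((ψ a : ℂˣ) : ℂ).re * Gs ψ := by
    rw [← Finset.add_sum_erase Finset.univ _ (Finset.mem_univ (1 : A →* ℂˣ))]
    rw [MonoidHom.one_apply, Units.val_one, Complex.one_re, mul_one]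
  have hrest : |∑ ψ ∈ Finset.univ.erase (1 : A →* ℂˣ), 2 * ((ψ a : ℂˣ) : ℂ).re * Gs ψ| ≤
      2 * ((Fintype.card (A →* ℂˣ) : ℝ) * Bd) := by
    refine (Finset.abs_sum_le_sum_abs _ _).trans ?_
    have h1 : ∀ ψ ∈ Finset.univ.erase (1 : A →* ℂˣ),
        |2 * ((ψ a : ℂˣ) : ℂ).re * Gs ψ| ≤ 2 * Bd := by
      intro ψ hψ
      have hre1 : |((ψ a : ℂˣ) : ℂ).re| ≤ 1 :=
        (Complex.abs_re_le_norm _).trans (norm_char ψ a).le
      rw [abs_mul, abs_mul, abs_two]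
      have h2 := habs ψ (Finset.mem_erase.mp hψ).1
      have h3 : |((ψ a : ℂˣ) : ℂ).re| * |Gs ψ| ≤ 1 * Bd :=
        mul_le_mul hre1 h2 (abs_nonneg _) zero_le_one
      nlinarith [abs_nonneg (((ψ a : ℂˣ) : ℂ).re), abs_nonneg (Gs ψ)]
    calc ∑ ψ ∈ Finset.univ.erase (1 : A →* ℂˣ), |2 * ((ψ a : ℂˣ) : ℂ).re * Gs ψ|
        ≤ ∑ _ψ ∈ Finset.univ.erase (1 : A →* ℂˣ), 2 * Bd := Finset.sum_le_sum h1
      _ = ((Finset.univ.erase (1 : A →* ℂˣ)).card : ℝ) * (2 * Bd) := by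
          rw [Finset.sum_const, nsmul_eq_mul]
      _ ≤ (Fintype.card (A →* ℂˣ) : ℝ) * (2 * Bd) := by
          refine mul_le_mul_of_nonneg_right ?_ (by linarith)
          exact_mod_cast Finset.card_le_univ _
      _ = 2 * ((Fintype.card (A →* ℂˣ) : ℝ) * Bd) := by ring
  have hfinal : S - 2 / (Nat.card A : ℝ) * lam =
      2 / (Nat.card A : ℝ) * ((Gs 1 - lam) +
        (∑ ψ ∈ Finset.univ.erase (1 : A →* ℂˣ), 2 * ((ψ a : ℂˣ) : ℂ).re * Gs ψ) / 2) := by
    have h1 : (Nat.card A : ℝ) * S =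
        2 * Gs 1 + ∑ ψ ∈ Finset.univ.erase (1 : A →* ℂˣ), 2 * ((ψ a : ℂˣ) : ℂ).re * Gs ψ := by
      rw [← hmain, hsplit]
    have hne : (Nat.card A : ℝ) ≠ 0 := hcardpos.ne'
    field_simp
    linarith
  rw [hfinal, abs_mul, abs_of_pos (div_pos two_pos hcardpos)]
  refine mul_le_mul_of_nonneg_left ?_ (div_pos two_pos hcardpos).le
  refine (abs_add_le _ _).trans ?_
  have h1 : |(∑ ψ ∈ Finset.univ.erase (1 : A →* ℂˣ), 2 * ((ψ a : ℂˣ) : ℂ).re * Gs ψ) / 2| ≤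
      (Fintype.card (A →* ℂˣ) : ℝ) * Bd := by
    rw [abs_div, abs_two]
    linarith
  linarith

end

end Fermat.Agent.Lib.Chebotarev.PairDensity
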