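import Mathlib
import Fermat.Agent.Lib.FrobDensity.Lift

/-!
# Frobenius elements of a finite Galois extension of `ℚ` (brick (G1) of Chebotarev)

`L/ℚ` a finite Galois extension, `G = Gal(L/ℚ)`, `ℓ` a rational prime, `P` a prime of `𝓞 L` above
`ℓ`.  `IsFrob σ P ℓ` says `σ x ≡ x ^ ℓ (mod P)` on `𝓞 L`.  Existence, uniqueness at good primes,
the decomposition group, conjugation, roots of unity.
-/

set_option autoImplicit false
set_option linter.unusedSectionVars false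

open scoped NumberField Pointwise
open IsDedekindDomain

namespace Fermat.Agent.Lib.Chebotarev

open Fermat.Agent.Lib.FrobDensity

variable {L : Type*} [Field L] [NumberField L]

/-- `σ` is a Frobenius element at the prime `P` of `𝓞 L` above `ℓ`. -/
def IsFrob (σ : L ≃ₐ[ℚ] L) (P : Ideal (𝓞 L)) (ℓ : ℕ) : Prop :=
  ∀ b : 𝓞 L, σ • b - b ^ ℓ ∈ P

lemma card_quot_ratIdeal (ℓ : ℕ) : Nat.card (ℤ ⧸ ratIdeal ℓ) = ℓ := by
  rw [Nat.card_congr (Int.quotientSpanNatEquivZMod ℓ).toEquiv, Nat.card_zmod]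

lemma under_eq_ratIdeal {ℓ : ℕ} {P : Ideal (𝓞 L)} (hP : P ∈ (ratIdeal ℓ).primesOver (𝓞 L)) :
    P.under ℤ = ratIdeal ℓ := by
  have := hP.2
  exact (Ideal.over_def P (ratIdeal ℓ)).symm

lemma isFrob_iff_isArithFrobAt {ℓ : ℕ} {P : Ideal (𝓞 L)}
    (hP : P ∈ (ratIdeal ℓ).primesOver (𝓞 L)) (σ : L ≃ₐ[ℚ] L) :
    IsFrob σ P ℓ ↔ IsArithFrobAt ℤ σ P := by
  unfold IsFrob IsArithFrobAt AlgHom.IsArithFrobAt
  rw [under_eq_ratIdeal hP, card_quot_ratIdeal]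
  rfl

lemma ne_bot_of_mem_primesOver {ℓ : ℕ} (hℓ : ℓ.Prime) {P : Ideal (𝓞 L)}
    (hP : P ∈ (ratIdeal ℓ).primesOver (𝓞 L)) : P ≠ ⊥ := by
  intro h
  have h2 : (ℓ : ℤ) ∈ ratIdeal ℓ := Ideal.mem_span_singleton_self _
  rw [← under_eq_ratIdeal hP, Ideal.under_def, Ideal.mem_comap, h, Ideal.mem_bot] at h2
  have h3 : ((ℓ : ℕ) : 𝓞 L) = 0 := by simpa using h2
  exact hℓ.ne_zero (by exact_mod_cast h3)

variable [IsGalois ℚ L]

/-- Frobenius elements exist at every prime above `ℓ`. -/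
theorem exists_isFrob {ℓ : ℕ} (hℓ : ℓ.Prime) {P : Ideal (𝓞 L)}
    (hP : P ∈ (ratIdeal ℓ).primesOver (𝓞 L)) : ∃ σ : L ≃ₐ[ℚ] L, IsFrob σ P ℓ := by
  have := hP.1
  have hfin : Finite (𝓞 L ⧸ P) :=
    Ideal.finiteQuotientOfFreeOfNeBot P (ne_bot_of_mem_primesOver hℓ hP)
  have hinv : Algebra.IsInvariant ℤ (𝓞 L) (L ≃ₐ[ℚ] L) := IsGaloisGroup.isInvariant
  obtain ⟨σ, hσ⟩ := IsArithFrobAt.exists_of_isInvariant ℤ (L ≃ₐ[ℚ] L) P
  exact ⟨σ, (isFrob_iff_isArithFrobAt hP σ).mpr hσ⟩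

/-- A Frobenius element stabilises its prime. -/
theorem IsFrob.smul_eq {ℓ : ℕ} {P : Ideal (𝓞 L)} {σ : L ≃ₐ[ℚ] L}
    (h : IsFrob σ P ℓ) (hP : P ∈ (ratIdeal ℓ).primesOver (𝓞 L)) : σ • P = P := by
  have := hP.1
  exact MulAction.mem_stabilizer_iff.mp
    (IsArithFrobAt.mem_stabilizer ((isFrob_iff_isArithFrobAt hP σ).mp h))

/-- At a good prime the Frobenius element is unique. -/
theorem IsFrob.unique {ℓ : ℕ} (hℓ : Good L ℓ) {P : Ideal (𝓞 L)}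
    (hP : P ∈ (ratIdeal ℓ).primesOver (𝓞 L)) {σ σ' : L ≃ₐ[ℚ] L}
    (h : IsFrob σ P ℓ) (h' : IsFrob σ' P ℓ) : σ = σ' := by
  have h1 := IsArithFrobAt.mul_inv_mem_inertia ((isFrob_iff_isArithFrobAt hP σ).mp h)
    ((isFrob_iff_isArithFrobAt hP σ').mp h')
  rw [hℓ.2 P hP, Subgroup.mem_bot] at h1
  exact mul_inv_eq_one.mp h1

/-- At a good prime the Frobenius element generates the decomposition group. -/
theorem IsFrob.zpowers_eq_stabilizer {ℓ : ℕ} (hℓ : Good L ℓ) {P : Ideal (𝓞 L)}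
    (hP : P ∈ (ratIdeal ℓ).primesOver (𝓞 L)) {σ : L ≃ₐ[ℚ] L} (h : IsFrob σ P ℓ) :
    Subgroup.zpowers σ = MulAction.stabilizer (L ≃ₐ[ℚ] L) P := by
  have := hP.1
  have := hP.2
  exact zpowers_eq_stabilizer_of_frob hℓ.1 P (hℓ.2 P hP) σ (h.smul_eq hP) h

/-- At a good prime the order of the Frobenius element is the residue degree. -/
theorem IsFrob.orderOf_eq {ℓ : ℕ} (hℓ : Good L ℓ) {P : Ideal (𝓞 L)}
    (hP : P ∈ (ratIdeal ℓ).primesOver (𝓞 L)) {σ : L ≃ₐ[ℚ] L} (h : IsFrob σ P ℓ) :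
    orderOf σ = decompCard L ℓ := by
  rw [← Nat.card_zpowers, h.zpowers_eq_stabilizer hℓ hP, card_stabilizer_eq_decompCard hℓ P hP]

omit [IsGalois ℚ L] in
/-- Conjugation of Frobenius elements. -/
theorem IsFrob.conj {ℓ : ℕ} {P : Ideal (𝓞 L)} {σ : L ≃ₐ[ℚ] L} (h : IsFrob σ P ℓ)
    (τ : L ≃ₐ[ℚ] L) : IsFrob (τ * σ * τ⁻¹) (τ • P) ℓ := by
  intro b
  have h1 := h (τ⁻¹ • b)
  have h2 : (τ * σ * τ⁻¹) • b - b ^ ℓ = τ • (σ • (τ⁻¹ • b) - (τ⁻¹ • b) ^ ℓ) := by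
    rw [smul_sub, smul_pow', smul_inv_smul, mul_smul, mul_smul]
  rw [h2]
  exact Ideal.smul_mem_pointwise_smul τ _ P h1

omit [IsGalois ℚ L] in
lemma smul_mem_primesOver {ℓ : ℕ} {P : Ideal (𝓞 L)}
    (hP : P ∈ (ratIdeal ℓ).primesOver (𝓞 L)) (τ : L ≃ₐ[ℚ] L) :
    τ • P ∈ (ratIdeal ℓ).primesOver (𝓞 L) := by
  have := hP.1
  have := hP.2
  exact ⟨inferInstance, inferInstance⟩

/-- A choice of Frobenius element at `P` (`1` if there is none). -/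
noncomputable def frobOf (ℓ : ℕ) (P : Ideal (𝓞 L)) : L ≃ₐ[ℚ] L :=
  open Classical in if h : ∃ σ : L ≃ₐ[ℚ] L, IsFrob σ P ℓ then h.choose else 1

theorem isFrob_frobOf {ℓ : ℕ} (hℓ : ℓ.Prime) {P : Ideal (𝓞 L)}
    (hP : P ∈ (ratIdeal ℓ).primesOver (𝓞 L)) : IsFrob (frobOf ℓ P) P ℓ := by
  have h := exists_isFrob hℓ hP
  unfold frobOf
  rw [dif_pos h]
  exact h.choose_spec

theorem frobOf_eq_iff {ℓ : ℕ} (hℓ : Good L ℓ) {P : Ideal (𝓞 L)}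
    (hP : P ∈ (ratIdeal ℓ).primesOver (𝓞 L)) (σ : L ≃ₐ[ℚ] L) :
    frobOf ℓ P = σ ↔ IsFrob σ P ℓ := by
  constructor
  · rintro rfl
    exact isFrob_frobOf hℓ.1 hP
  · intro h
    exact IsFrob.unique hℓ hP (isFrob_frobOf hℓ.1 hP) h

theorem frobOf_smul {ℓ : ℕ} (hℓ : Good L ℓ) {P : Ideal (𝓞 L)}
    (hP : P ∈ (ratIdeal ℓ).primesOver (𝓞 L)) (τ : L ≃ₐ[ℚ] L) :
    frobOf ℓ (τ • P) = τ * frobOf ℓ P * τ⁻¹ :=
  (frobOf_eq_iff hℓ (smul_mem_primesOver hP τ) _).mpr ((isFrob_frobOf hℓ.1 hP).conj τ)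

omit [IsGalois ℚ L] in
/-- A Frobenius element at `P | ℓ` raises roots of unity of order prime to `ℓ` to the `ℓ`-th
power. -/
theorem IsFrob.apply_root {ℓ : ℕ} {P : Ideal (𝓞 L)} {σ : L ≃ₐ[ℚ] L} (h : IsFrob σ P ℓ)
    (hP : P ∈ (ratIdeal ℓ).primesOver (𝓞 L)) {ζ : L} {m : ℕ} (hζ : ζ ^ m = 1)
    (hm : ¬ ℓ ∣ m) : σ ζ = ζ ^ ℓ := by
  have hm0 : m ≠ 0 := by
    rintro rfl
    exact hm (dvd_zero ℓ)
  have hint : IsIntegral ℤ ζ :=
    IsIntegral.of_pow (Nat.pos_of_ne_zero hm0) (by rw [hζ]; exact isIntegral_one)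
  let z : 𝓞 L := ⟨ζ, hint⟩
  have hz : z ^ m = 1 := by
    apply NumberField.RingOfIntegers.ext
    change ζ ^ m = 1
    exact hζ
  have hmP : ((m : ℕ) : 𝓞 L) ∉ P := by
    intro hmem
    have h1 : (m : ℤ) ∈ P.under ℤ := by
      rw [Ideal.under_def, Ideal.mem_comap]
      simpa using hmem
    rw [under_eq_ratIdeal hP, Ideal.mem_span_singleton] at h1
    exact hm (by exact_mod_cast h1)
  have hA := (isFrob_iff_isArithFrobAt hP σ).mp h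
  have h2 := AlgHom.IsArithFrobAt.apply_of_pow_eq_one hA hz hmP
  rw [under_eq_ratIdeal hP, card_quot_ratIdeal] at h2
  have h3 := congrArg (fun x : 𝓞 L => (x : L)) h2
  exact h3

section Restrict

variable (M : Type*) [Field M] [NumberField M] [IsGalois ℚ M] [Algebra M L] [IsScalarTower ℚ M L]

lemma coe_restrictNormal_smul (σ : L ≃ₐ[ℚ] L) (b : 𝓞 M) :
    algebraMap (𝓞 M) (𝓞 L) (σ.restrictNormal M • b) = σ • algebraMap (𝓞 M) (𝓞 L) b := by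
  apply NumberField.RingOfIntegers.ext
  change algebraMap M L (σ.restrictNormal M (b : M)) = σ (algebraMap M L (b : M))
  exact AlgEquiv.restrictNormal_commutes σ M (b : M)

/-- The restriction of a Frobenius element to a Galois subfield is a Frobenius element at the
prime below. -/
theorem IsFrob.restrict {ℓ : ℕ} {P : Ideal (𝓞 L)} {σ : L ≃ₐ[ℚ] L} (h : IsFrob σ P ℓ) :
    IsFrob (σ.restrictNormal M) (P.under (𝓞 M)) ℓ := by
  intro b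
  rw [Ideal.under_def, Ideal.mem_comap, map_sub, map_pow, coe_restrictNormal_smul]
  exact h _

lemma under_mem_primesOver {ℓ : ℕ} {P : Ideal (𝓞 L)}
    (hP : P ∈ (ratIdeal ℓ).primesOver (𝓞 L)) :
    P.under (𝓞 M) ∈ (ratIdeal ℓ).primesOver (𝓞 M) := by
  have := hP.1
  have := hP.2
  refine ⟨inferInstance, ⟨?_⟩⟩
  rw [Ideal.under_under, under_eq_ratIdeal hP]

/-- At a prime which is good for the subfield, the Frobenius of the prime below is the restriction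
of any Frobenius element above. -/
theorem frobOf_under {ℓ : ℕ} (hℓ : Good M ℓ) {P : Ideal (𝓞 L)}
    (hP : P ∈ (ratIdeal ℓ).primesOver (𝓞 L)) {σ : L ≃ₐ[ℚ] L} (h : IsFrob σ P ℓ) :
    frobOf ℓ (P.under (𝓞 M)) = σ.restrictNormal M :=
  (frobOf_eq_iff hℓ (under_mem_primesOver M hP) _).mpr (h.restrict M)

end Restrict

end Fermat.Agent.Lib.Chebotarev
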