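import Mathlib
import Fermat.Agent.Lib.Chebotarev.Frob

/-!
# Counting primes with a given Frobenius element (brick (G1) of Chebotarev, counting half)

`L/ℚ` finite Galois with group `G`, `ℓ` a good prime.  `frobSet τ ℓ` is the set of primes `P | ℓ`
of `L` with Frobenius element `τ`.  Then `∑ τ, ord τ * #frobSet τ ℓ = #G`, and for a
conjugation-stable set `X ⊆ G` the partial sum over `X` is `#G` or `0` according to whether the
Frobenius class of `ℓ` lies in `X` or not.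
-/

set_option autoImplicit false
set_option linter.unusedSectionVars false

open scoped NumberField Pointwise
open IsDedekindDomain

namespace Fermat.Agent.Lib.Chebotarev

open Fermat.Agent.Lib.FrobDensity

variable {L : Type*} [Field L] [NumberField L] [IsGalois ℚ L]

/-- The primes of `L` above `ℓ` whose Frobenius element is `τ`. -/
def frobSet (τ : L ≃ₐ[ℚ] L) (ℓ : ℕ) : Set (Ideal (𝓞 L)) :=
  {P | P ∈ (ratIdeal ℓ).primesOver (𝓞 L) ∧ IsFrob τ P ℓ}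

lemma frobSet_finite (τ : L ≃ₐ[ℚ] L) {ℓ : ℕ} (hℓ : ℓ.Prime) : (frobSet τ ℓ).Finite := by
  have := ratIdeal_isMaximal hℓ
  exact (IsDedekindDomain.primesOver_finite (ratIdeal ℓ) (𝓞 L)).subset fun P hP => hP.1

lemma mem_frobSet_iff {ℓ : ℕ} (hℓ : Good L ℓ) (τ : L ≃ₐ[ℚ] L) (P : Ideal (𝓞 L)) :
    P ∈ frobSet τ ℓ ↔ P ∈ (ratIdeal ℓ).primesOver (𝓞 L) ∧ frobOf ℓ P = τ := by
  constructor
  · rintro ⟨hP, h⟩
    exact ⟨hP, (frobOf_eq_iff hℓ hP τ).mpr h⟩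
  · rintro ⟨hP, h⟩
    exact ⟨hP, (frobOf_eq_iff hℓ hP τ).mp h⟩

/-- Conjugation moves `frobSet`. -/
theorem smul_mem_frobSet {ℓ : ℕ} {τ : L ≃ₐ[ℚ] L} {P : Ideal (𝓞 L)} (h : P ∈ frobSet τ ℓ)
    (g : L ≃ₐ[ℚ] L) : g • P ∈ frobSet (g * τ * g⁻¹) ℓ :=
  ⟨smul_mem_primesOver h.1 g, h.2.conj g⟩

theorem smul_mem_frobSet_iff {ℓ : ℕ} {τ : L ≃ₐ[ℚ] L} {P : Ideal (𝓞 L)} (g : L ≃ₐ[ℚ] L) :
    g • P ∈ frobSet (g * τ * g⁻¹) ℓ ↔ P ∈ frobSet τ ℓ := by
  constructor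
  · intro h
    have h2 := smul_mem_frobSet h g⁻¹
    have e : g⁻¹ * (g * τ * g⁻¹) * g⁻¹⁻¹ = τ := by group
    rwa [inv_smul_smul, e] at h2
  · intro h
    exact smul_mem_frobSet h g

/-- The number of primes with Frobenius `τ` only depends on the conjugacy class of `τ`. -/
theorem card_frobSet_conj (τ g : L ≃ₐ[ℚ] L) (ℓ : ℕ) :
    Nat.card (frobSet (g * τ * g⁻¹) ℓ) = Nat.card (frobSet τ ℓ) := by
  refine (Nat.card_congr (Equiv.ofBijective
    (fun P : frobSet τ ℓ => (⟨g • P.1, smul_mem_frobSet P.2 g⟩ : frobSet (g * τ * g⁻¹) ℓ))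
    ⟨?_, ?_⟩)).symm
  · intro P Q h
    have h2 : g • P.1 = g • Q.1 := congrArg Subtype.val h
    exact Subtype.ext (smul_left_cancel g h2)
  · intro Q
    have hQ : g • (g⁻¹ • Q.1) ∈ frobSet (g * τ * g⁻¹) ℓ := by
      rw [smul_inv_smul]
      exact Q.2
    exact ⟨⟨g⁻¹ • Q.1, (smul_mem_frobSet_iff g).mp hQ⟩, Subtype.ext (smul_inv_smul g Q.1)⟩

/-- Number of primes above a good prime times the residue degree is the degree. -/
theorem card_primesOver_mul_decompCard {ℓ : ℕ} (hℓ : Good L ℓ) :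
    Nat.card ((ratIdeal ℓ).primesOver (𝓞 L)) * decompCard L ℓ = Nat.card (L ≃ₐ[ℚ] L) := by
  have := ratIdeal_isMaximal hℓ.1
  obtain ⟨P, hP⟩ := (inferInstance : Nonempty ((ratIdeal ℓ).primesOver (𝓞 L)))
  have := hP.1
  have := hP.2
  have h := Ideal.ncard_primesOver_mul_card_inertia_mul_finrank (G := L ≃ₐ[ℚ] L) (ratIdeal ℓ) P
  rw [hℓ.2 P hP, Subgroup.card_bot, mul_one,
    ← Ideal.inertiaDegIn_eq_inertiaDeg (ratIdeal ℓ) P (L ≃ₐ[ℚ] L)] at h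
  rw [← h, decompCard, Nat.card_coe_set_eq]

/-- **Sum over all Frobenius elements**: `∑ τ, ord τ * #{P | ℓ : Frob_P = τ} = #G`. -/
theorem sum_orderOf_mul_card_frobSet [Fintype (L ≃ₐ[ℚ] L)] {ℓ : ℕ} (hℓ : Good L ℓ) :
    ∑ τ : L ≃ₐ[ℚ] L, orderOf τ * Nat.card (frobSet τ ℓ) = Nat.card (L ≃ₐ[ℚ] L) := by
  classical
  have hmax := ratIdeal_isMaximal hℓ.1
  have hfin : Finite ((ratIdeal ℓ).primesOver (𝓞 L)) :=
    (IsDedekindDomain.primesOver_finite (ratIdeal ℓ) (𝓞 L)).to_subtype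
  let _ := Fintype.ofFinite ((ratIdeal ℓ).primesOver (𝓞 L))
  let F : (ratIdeal ℓ).primesOver (𝓞 L) → (L ≃ₐ[ℚ] L) := fun P => frobOf ℓ P.1
  have hcard : ∀ τ : L ≃ₐ[ℚ] L, Nat.card (frobSet τ ℓ) = Fintype.card {P // F P = τ} := by
    intro τ
    rw [← Nat.card_eq_fintype_card]
    refine Nat.card_congr
      { toFun := fun P => ⟨⟨P.1, P.2.1⟩, ((mem_frobSet_iff hℓ τ P.1).mp P.2).2⟩
        invFun := fun P => ⟨P.1.1, (mem_frobSet_iff hℓ τ P.1.1).mpr ⟨P.1.2, P.2⟩⟩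
        left_inv := fun P => rfl
        right_inv := fun P => rfl }
  have h1 : ∑ τ : L ≃ₐ[ℚ] L, orderOf τ * Nat.card (frobSet τ ℓ) =
      ∑ τ : L ≃ₐ[ℚ] L, ∑ P : {P // F P = τ}, orderOf (F P.1) := by
    refine Finset.sum_congr rfl fun τ _ => ?_
    rw [hcard τ, Finset.sum_congr rfl (fun (P : {P // F P = τ}) _ => congrArg orderOf P.2),
      Finset.sum_const, Finset.card_univ, smul_eq_mul, mul_comm]
  rw [h1, Fintype.sum_fiberwise F (fun P => orderOf (F P)),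
    Finset.sum_congr rfl (fun (P : (ratIdeal ℓ).primesOver (𝓞 L)) _ =>
      (isFrob_frobOf hℓ.1 P.2).orderOf_eq hℓ P.2),
    Finset.sum_const, Finset.card_univ, smul_eq_mul, ← Nat.card_eq_fintype_card,
    card_primesOver_mul_decompCard hℓ]

/-- `G` acts transitively on the primes above `ℓ`. -/
theorem exists_smul_eq_of_mem_primesOver {ℓ : ℕ} {P Q : Ideal (𝓞 L)}
    (hP : P ∈ (ratIdeal ℓ).primesOver (𝓞 L)) (hQ : Q ∈ (ratIdeal ℓ).primesOver (𝓞 L)) :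
    ∃ g : L ≃ₐ[ℚ] L, Q = g • P := by
  have := hP.1
  have := hQ.1
  have hinv : Algebra.IsInvariant ℤ (𝓞 L) (L ≃ₐ[ℚ] L) := IsGaloisGroup.isInvariant
  exact Algebra.IsInvariant.exists_smul_of_under_eq ℤ (𝓞 L) (L ≃ₐ[ℚ] L) P Q
    ((under_eq_ratIdeal hP).trans (under_eq_ratIdeal hQ).symm)

/-- The Frobenius class of `ℓ` meets `X`. -/
def FrobIn (X : Set (L ≃ₐ[ℚ] L)) (ℓ : ℕ) : Prop :=
  ∃ P ∈ (ratIdeal ℓ).primesOver (𝓞 L), frobOf ℓ P ∈ X

/-- For a conjugation-stable set, "some Frobenius at `ℓ` lies in `X`" is the same as "all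
Frobenius elements at `ℓ` lie in `X`". -/
theorem frobIn_iff_forall {ℓ : ℕ} (hℓ : Good L ℓ) (X : Set (L ≃ₐ[ℚ] L))
    (hX : ∀ g τ : L ≃ₐ[ℚ] L, τ ∈ X → g * τ * g⁻¹ ∈ X) :
    FrobIn X ℓ ↔ ∀ P ∈ (ratIdeal ℓ).primesOver (𝓞 L), frobOf ℓ P ∈ X := by
  constructor
  · rintro ⟨P, hP, hPX⟩ Q hQ
    obtain ⟨g, rfl⟩ := exists_smul_eq_of_mem_primesOver hP hQ
    rw [frobOf_smul hℓ hP]
    exact hX g _ hPX
  · intro h
    have := ratIdeal_isMaximal hℓ.1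
    obtain ⟨P, hP⟩ := (inferInstance : Nonempty ((ratIdeal ℓ).primesOver (𝓞 L)))
    exact ⟨P, hP, h P hP⟩

open Classical in
/-- **Partial sum over a conjugation-stable set**: it is `#G` if the Frobenius class of `ℓ` lies
in `X` and `0` otherwise. -/
theorem sum_orderOf_mul_card_frobSet_of_stable [Fintype (L ≃ₐ[ℚ] L)] {ℓ : ℕ} (hℓ : Good L ℓ)
    (X : Set (L ≃ₐ[ℚ] L)) (hX : ∀ g τ : L ≃ₐ[ℚ] L, τ ∈ X → g * τ * g⁻¹ ∈ X) :
    ∑ τ : L ≃ₐ[ℚ] L, (if τ ∈ X then orderOf τ * Nat.card (frobSet τ ℓ) else 0) =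
      if FrobIn X ℓ then Nat.card (L ≃ₐ[ℚ] L) else 0 := by
  by_cases hF : FrobIn X ℓ
  · rw [if_pos hF, ← sum_orderOf_mul_card_frobSet hℓ]
    refine Finset.sum_congr rfl fun τ _ => ?_
    by_cases hτ : τ ∈ X
    · rw [if_pos hτ]
    · rw [if_neg hτ]
      have hempty : frobSet τ ℓ = ∅ := by
        ext P
        simp only [Set.mem_empty_iff_false, iff_false]
        intro hP
        have h1 := ((mem_frobSet_iff hℓ τ P).mp hP)
        exact hτ (h1.2 ▸ (frobIn_iff_forall hℓ X hX).mp hF P h1.1)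
      rw [hempty]
      simp
  · rw [if_neg hF]
    refine Finset.sum_eq_zero fun τ _ => ?_
    by_cases hτ : τ ∈ X
    · rw [if_pos hτ]
      have hempty : frobSet τ ℓ = ∅ := by
        ext P
        simp only [Set.mem_empty_iff_false, iff_false]
        intro hP
        have h1 := ((mem_frobSet_iff hℓ τ P).mp hP)
        exact hF ⟨P, h1.1, h1.2 ▸ hτ⟩
      rw [hempty]
      simp
    · rw [if_neg hτ]

end Fermat.Agent.Lib.Chebotarev
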