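import Mathlib
import Fermat.Agent.Lib.Chebotarev.FrobCount

/-!
# Frobenius classes in a tower `ℚ ⊆ M ⊆ L` of Galois number fields

For a prime `ℓ` good in both fields and `X₀ ⊆ Gal(M/ℚ)`, the Frobenius class of `ℓ` in `Gal(M/ℚ)`
meets `X₀` iff the Frobenius class of `ℓ` in `Gal(L/ℚ)` meets the preimage of `X₀`.
-/

set_option autoImplicit false
set_option linter.unusedSectionVars false

open scoped NumberField Pointwise
open IsDedekindDomain

namespace Fermat.Agent.Lib.Chebotarev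

open Fermat.Agent.Lib.FrobDensity

variable {L : Type*} [Field L] [NumberField L] [IsGalois ℚ L]
variable (M : Type*) [Field M] [NumberField M] [IsGalois ℚ M] [Algebra M L] [IsScalarTower ℚ M L]

/-- Every prime of `M` above `ℓ` lies below a prime of `L` above `ℓ`. -/
theorem exists_mem_primesOver_under_eq {ℓ : ℕ} {Q : Ideal (𝓞 M)}
    (hQ : Q ∈ (ratIdeal ℓ).primesOver (𝓞 M)) :
    ∃ P : Ideal (𝓞 L), P ∈ (ratIdeal ℓ).primesOver (𝓞 L) ∧ P.under (𝓞 M) = Q := by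
  have := hQ.1
  have := hQ.2
  obtain ⟨P, hP1, hP2⟩ := (inferInstance : Nonempty (Q.primesOver (𝓞 L)))
  refine ⟨P, ⟨hP1, ?_⟩, (Ideal.over_def P Q).symm⟩
  exact Ideal.LiesOver.trans P Q (ratIdeal ℓ)

/-- Frobenius classes are compatible with restriction to a Galois subfield. -/
theorem frobIn_preimage_iff {ℓ : ℕ} (hL : Good L ℓ) (hM : Good M ℓ) (X₀ : Set (M ≃ₐ[ℚ] M)) :
    FrobIn ((AlgEquiv.restrictNormalHom (F := ℚ) (K₁ := L) M) ⁻¹' X₀) ℓ ↔ FrobIn X₀ ℓ := by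
  constructor
  · rintro ⟨P, hP, hPX⟩
    refine ⟨P.under (𝓞 M), under_mem_primesOver M hP, ?_⟩
    rw [frobOf_under M hM hP (isFrob_frobOf hL.1 hP)]
    exact hPX
  · rintro ⟨Q, hQ, hQX⟩
    obtain ⟨P, hP, rfl⟩ := exists_mem_primesOver_under_eq (L := L) M hQ
    refine ⟨P, hP, ?_⟩
    rw [frobOf_under M hM hP (isFrob_frobOf hL.1 hP)] at hQX
    exact hQX

end Fermat.Agent.Lib.Chebotarev
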