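import Mathlib
import Fermat.Agent.Lib.Chebotarev.FrobTower
import Fermat.Agent.Lib.CycloCross
import Fermat.Agent.Lib.FrobDensity.DegOne
import Fermat.Agent.Lib.FrobDensity.Series

/-!
# Chebotarev's density theorem over `ℚ`, assembly (bricks (G4), (G5))

`L/ℚ` a finite Galois extension with group `G`, `X ⊆ G` stable under conjugation and inversion.
Then `∑_{ℓ good, Frob_ℓ ⊆ X} ℓ^{-s} = (|X|/|G|) log (1/(s-1)) + o(log (1/(s-1)))` on `(1, 2]`.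

The proof is Chebotarev's crossing with cyclotomic fields in class form: for `L' = L(ζ_m)` the
pair estimate `S_σ + S_{σ⁻¹} = (2 / ord σ) log + O(1)` (brick (G3), hypothesis `PairHyp`) for the
`σ` acting faithfully on `ζ_m` gives the lower bound with a factor `1 - δ`; the upper bound is the
lower bound for the complement.
-/

set_option autoImplicit false
set_option linter.unusedSectionVars false

open scoped NumberField Pointwise
open IsDedekindDomain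

namespace Fermat.Agent.Lib.Chebotarev

open Fermat.Agent.Lib.FrobDensity

universe u

section Coef

variable (L : Type u) [Field L] [NumberField L] [IsGalois ℚ L]

/-- Coefficient of `S_τ`: the number of primes of `L` above a good prime `ℓ` with Frobenius `τ`. -/
noncomputable def frobCoef (τ : L ≃ₐ[ℚ] L) (ℓ : ℕ) : ℝ :=
  open Classical in if Good L ℓ then (Nat.card (frobSet τ ℓ) : ℝ) else 0

/-- Indicator of the good primes whose Frobenius class meets `X`. -/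
noncomputable def classCoef (X : Set (L ≃ₐ[ℚ] L)) (ℓ : ℕ) : ℝ :=
  open Classical in if Good L ℓ ∧ FrobIn X ℓ then 1 else 0

/-- Indicator of the good primes. -/
noncomputable def goodCoef (ℓ : ℕ) : ℝ :=
  open Classical in if Good L ℓ then 1 else 0

lemma frobCoef_nonneg (τ : L ≃ₐ[ℚ] L) (ℓ : ℕ) : 0 ≤ frobCoef L τ ℓ := by
  unfold frobCoef
  split_ifs
  · exact Nat.cast_nonneg _
  · exact le_rfl

lemma frobCoef_le (τ : L ≃ₐ[ℚ] L) (ℓ : ℕ) :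
    frobCoef L τ ℓ ≤ (Nat.card (L ≃ₐ[ℚ] L) : ℝ) := by
  classical
  unfold frobCoef
  split_ifs with h
  · let _ := Fintype.ofFinite (L ≃ₐ[ℚ] L)
    have h1 := sum_orderOf_mul_card_frobSet h
    have h2 : orderOf τ * Nat.card (frobSet τ ℓ) ≤
        ∑ τ : L ≃ₐ[ℚ] L, orderOf τ * Nat.card (frobSet τ ℓ) :=
      Finset.single_le_sum (f := fun τ : L ≃ₐ[ℚ] L => orderOf τ * Nat.card (frobSet τ ℓ))
        (fun _ _ => Nat.zero_le _) (Finset.mem_univ τ)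
    have h3 : Nat.card (frobSet τ ℓ) ≤ orderOf τ * Nat.card (frobSet τ ℓ) :=
      Nat.le_mul_of_pos_left _ (orderOf_pos τ)
    exact_mod_cast (h3.trans h2).trans h1.le
  · exact Nat.cast_nonneg _

lemma abs_frobCoef_le (τ : L ≃ₐ[ℚ] L) (ℓ : ℕ) :
    |frobCoef L τ ℓ| ≤ (Nat.card (L ≃ₐ[ℚ] L) : ℝ) := by
  rw [abs_of_nonneg (frobCoef_nonneg L τ ℓ)]
  exact frobCoef_le L τ ℓ

lemma classCoef_nonneg (X : Set (L ≃ₐ[ℚ] L)) (ℓ : ℕ) : 0 ≤ classCoef L X ℓ := by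
  unfold classCoef
  split_ifs
  · exact zero_le_one
  · exact le_rfl

lemma classCoef_le_one (X : Set (L ≃ₐ[ℚ] L)) (ℓ : ℕ) : classCoef L X ℓ ≤ 1 := by
  unfold classCoef
  split_ifs
  · exact le_rfl
  · exact zero_le_one

lemma abs_classCoef_le (X : Set (L ≃ₐ[ℚ] L)) (ℓ : ℕ) : |classCoef L X ℓ| ≤ 1 := by
  rw [abs_of_nonneg (classCoef_nonneg L X ℓ)]
  exact classCoef_le_one L X ℓ

lemma abs_goodCoef_le (ℓ : ℕ) : |goodCoef L ℓ| ≤ 1 := by
  unfold goodCoef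
  split_ifs
  · simp
  · simp

/-- `|G| · 1[Frob_ℓ ⊆ X] = ∑_{τ ∈ X} ord τ · #{P | ℓ : Frob_P = τ}`. -/
lemma card_mul_classCoef [Fintype (L ≃ₐ[ℚ] L)] (X : Set (L ≃ₐ[ℚ] L))
    (hX : ∀ g τ : L ≃ₐ[ℚ] L, τ ∈ X → g * τ * g⁻¹ ∈ X) (ℓ : ℕ) :
    (Nat.card (L ≃ₐ[ℚ] L) : ℝ) * classCoef L X ℓ =
      ∑ τ : L ≃ₐ[ℚ] L,
        (open Classical in if τ ∈ X then (orderOf τ : ℝ) * frobCoef L τ ℓ else 0) := by
  classical
  by_cases h : Good L ℓ
  · have h1 := sum_orderOf_mul_card_frobSet_of_stable h X hX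
    have h2 := congrArg (Nat.cast : ℕ → ℝ) h1
    rw [Nat.cast_sum] at h2
    unfold classCoef frobCoef
    simp only [h, true_and, if_true]
    rw [show (∑ τ : L ≃ₐ[ℚ] L, if τ ∈ X then (orderOf τ : ℝ) * (Nat.card (frobSet τ ℓ) : ℝ) else 0)
        = ∑ τ : L ≃ₐ[ℚ] L, ((if τ ∈ X then orderOf τ * Nat.card (frobSet τ ℓ) else 0 : ℕ) : ℝ) from
      Finset.sum_congr rfl fun τ _ => by split_ifs <;> simp]
    rw [h2]
    split_ifs <;> simp
  · unfold classCoef frobCoef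
    simp [h]

/-- A conjugation-stable set and its complement partition the good primes. -/
lemma classCoef_add_compl (X : Set (L ≃ₐ[ℚ] L))
    (hX : ∀ g τ : L ≃ₐ[ℚ] L, τ ∈ X → g * τ * g⁻¹ ∈ X) (ℓ : ℕ) :
    classCoef L X ℓ + classCoef L Xᶜ ℓ = goodCoef L ℓ := by
  classical
  have hXc : ∀ g τ : L ≃ₐ[ℚ] L, τ ∈ Xᶜ → g * τ * g⁻¹ ∈ Xᶜ := by
    intro g τ hτ hmem
    apply hτ
    have h1 := hX g⁻¹ _ hmem
    have e : g⁻¹ * (g * τ * g⁻¹) * g⁻¹⁻¹ = τ := by group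
    rwa [e] at h1
  unfold classCoef goodCoef
  by_cases h : Good L ℓ
  · have hmax := ratIdeal_isMaximal h.1
    obtain ⟨P, hP⟩ := (inferInstance : Nonempty ((ratIdeal ℓ).primesOver (𝓞 L)))
    by_cases hF : FrobIn X ℓ
    · have hF' : ¬ FrobIn Xᶜ ℓ := by
        intro hc
        exact (frobIn_iff_forall h Xᶜ hXc).mp hc P hP ((frobIn_iff_forall h X hX).mp hF P hP)
      simp [h, hF, hF']
    · have hF' : FrobIn Xᶜ ℓ := ⟨P, hP, fun hmem => hF ⟨P, hP, hmem⟩⟩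
      simp [h, hF, hF']
  · simp [h]

end Coef

/-- Monotonicity of `DS` in the coefficients. -/
lemma DS_mono {c₁ c₂ : ℕ → ℝ} {B₁ B₂ : ℝ} (h₁ : ∀ n, |c₁ n| ≤ B₁) (h₂ : ∀ n, |c₂ n| ≤ B₂)
    (h : ∀ n, c₁ n ≤ c₂ n) {s : ℝ} (hs : 1 < s) : DS c₁ s ≤ DS c₂ s := by
  unfold DS
  exact Summable.tsum_le_tsum
    (fun n => mul_le_mul_of_nonneg_right (h n) (Real.rpow_nonneg (Nat.cast_nonneg n) _))
    (summable_DS h₁ hs) (summable_DS h₂ hs)

/-- Two bounded coefficient functions agreeing outside a finite set have series differing by a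
bounded amount. -/
lemma bddOn_DS_sub_of_eq_off {c₁ c₂ : ℕ → ℝ} {B₁ B₂ : ℝ} (h₁ : ∀ n, |c₁ n| ≤ B₁)
    (h₂ : ∀ n, |c₂ n| ≤ B₂) (T : Finset ℕ) (h : ∀ n, n ∉ T → c₁ n = c₂ n) :
    BddOn (fun s => DS c₁ s - DS c₂ s) := by
  refine ⟨∑ n ∈ T, |c₁ n - c₂ n|, fun s hs1 _ => ?_⟩
  beta_reduce
  rw [← DS_sub h₁ h₂ hs1]
  exact abs_DS_le_of_support T (fun n hn => by rw [h n hn, sub_self]) (by linarith)


section Good

variable (L : Type u) [Field L] [NumberField L] [IsGalois ℚ L]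

/-- Exactly one prime of the fixed field of the whole group has norm a given good prime. -/
lemma degOneCount_top {ℓ : ℕ} (hℓ : Good L ℓ) :
    degOneCount (fixedF L (⊤ : Subgroup (L ≃ₐ[ℚ] L))) ℓ = 1 := by
  have h1 := key_count (⊤ : Subgroup (L ≃ₐ[ℚ] L)) hℓ
  have h2 := card_primesOver_mul_decompCard hℓ
  have h3 : primesWithin (⊤ : Subgroup (L ≃ₐ[ℚ] L)) ℓ = (ratIdeal ℓ).primesOver (𝓞 L) := by
    ext P
    exact ⟨fun h => h.1, fun h => ⟨h, le_top⟩⟩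
  rw [h3, mul_comm (decompCard L ℓ), h2, Nat.card_congr Subgroup.topEquiv.toEquiv] at h1
  have h4 : Nat.card {w : HeightOneSpectrum (𝓞 (fixedF L (⊤ : Subgroup (L ≃ₐ[ℚ] L)))) //
      Ideal.absNorm w.asIdeal = ℓ} = 1 := by
    have hpos : 0 < Nat.card (L ≃ₐ[ℚ] L) := Nat.card_pos
    exact Nat.eq_of_mul_eq_mul_left hpos (by rw [h1, mul_one])
  unfold degOneCount
  rw [if_pos hℓ.1, h4, Nat.cast_one]

/-- `∑_{ℓ good} ℓ^{-s} = log (1/(s-1)) + O(1)`. -/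
theorem bddOn_goodCoef :
    BddOn (fun s => DS (goodCoef L) s - Real.log (1 / (s - 1))) := by
  classical
  obtain ⟨T, hT⟩ := exists_finset_good L
  have hdeg : BddOn (fun s => DS (degOneCount (fixedF L (⊤ : Subgroup (L ≃ₐ[ℚ] L)))) s -
      Real.log (1 / (s - 1))) := degOne_sum_bound (fixedF L (⊤ : Subgroup (L ≃ₐ[ℚ] L)))
  have hB : ∀ n, |degOneCount (fixedF L (⊤ : Subgroup (L ≃ₐ[ℚ] L))) n| ≤
      (Module.finrank ℚ (fixedF L (⊤ : Subgroup (L ≃ₐ[ℚ] L))) : ℝ) := fun n => by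
    rw [abs_of_nonneg (degOneCount_nonneg _ n)]
    exact degOneCount_le _ n
  have hdiff := bddOn_DS_sub_of_eq_off (abs_goodCoef_le L) hB T (fun n hn => by
    by_cases hp : n.Prime
    · have hg := hT n hp hn
      rw [degOneCount_top L hg]
      unfold goodCoef
      rw [if_pos hg]
    · have hng : ¬ Good L n := fun h => hp h.1
      unfold goodCoef degOneCount
      rw [if_neg hng, if_neg hp])
  exact (hdiff.add hdeg).congr fun s _ _ => by ring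

end Good


section Lower

variable (L : Type u) [Field L] [NumberField L] [IsGalois ℚ L]

/-- The pair estimate (G3) for an element `σ`: `S_σ + S_{σ⁻¹} = (2 / ord σ) log (1/(s-1)) + O(1)`. -/
def PairEst (σ : L ≃ₐ[ℚ] L) : Prop :=
  BddOn (fun s => DS (frobCoef L σ) s + DS (frobCoef L σ⁻¹) s -
    2 / (orderOf σ : ℝ) * Real.log (1 / (s - 1)))

/-- **Lower bound from a set of elements with the pair estimate.** -/
theorem card_mul_DS_classCoef_ge (X : Set (L ≃ₐ[ℚ] L))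
    (hX : ∀ g τ : L ≃ₐ[ℚ] L, τ ∈ X → g * τ * g⁻¹ ∈ X) (Y : Finset (L ≃ₐ[ℚ] L))
    (hYX : ∀ σ ∈ Y, σ ∈ X) (hYinv : ∀ σ ∈ Y, σ⁻¹ ∈ Y) (hY : ∀ σ ∈ Y, PairEst L σ) :
    ∃ C : ℝ, ∀ s : ℝ, 1 < s → s ≤ 2 →
      (Y.card : ℝ) * Real.log (1 / (s - 1)) - C ≤
        (Nat.card (L ≃ₐ[ℚ] L) : ℝ) * DS (classCoef L X) s := by
  classical
  let _ := Fintype.ofFinite (L ≃ₐ[ℚ] L)
  set d : ℝ := (Nat.card (L ≃ₐ[ℚ] L) : ℝ) with hd
  have hd0 : 0 ≤ d := Nat.cast_nonneg _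
  -- the bounded part
  have hbdd : BddOn (fun s => ∑ σ ∈ Y, (orderOf σ : ℝ) / 2 *
      (DS (frobCoef L σ) s + DS (frobCoef L σ⁻¹) s -
        2 / (orderOf σ : ℝ) * Real.log (1 / (s - 1)))) :=
    BddOn.sum Y fun σ hσ => (hY σ hσ).const_mul _
  obtain ⟨C, hC⟩ := hbdd
  refine ⟨C, fun s hs1 hs2 => ?_⟩
  have hord : ∀ σ : L ≃ₐ[ℚ] L, |(orderOf σ : ℝ)| ≤ d := fun σ => by
    rw [abs_of_nonneg (Nat.cast_nonneg _), hd]
    exact_mod_cast Nat.le_of_dvd Nat.card_pos (orderOf_dvd_natCard σ)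
  have hterm : ∀ σ : L ≃ₐ[ℚ] L, ∀ n, |(orderOf σ : ℝ) * frobCoef L σ n| ≤ d * d := fun σ n => by
    rw [abs_mul]
    exact mul_le_mul (hord σ) (abs_frobCoef_le L σ n) (abs_nonneg _) hd0
  -- step 1: `d * D_X ≥ ∑_{σ ∈ Y} ord σ * S_σ`
  have h1 : ∑ σ ∈ Y, (orderOf σ : ℝ) * DS (frobCoef L σ) s ≤ d * DS (classCoef L X) s := by
    rw [← DS_const_mul, ← Finset.sum_congr rfl (fun σ _ => DS_const_mul (orderOf σ : ℝ)
      (frobCoef L σ) s), ← DS_sum Y (fun σ _ n => hterm σ n) hs1]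
    refine DS_mono (B₁ := Y.card * (d * d)) (B₂ := d * 1) (fun n => ?_) (fun n => ?_) (fun n => ?_)
      hs1
    · refine (Finset.abs_sum_le_sum_abs _ _).trans ?_
      rw [← nsmul_eq_mul, ← Finset.sum_const]
      exact Finset.sum_le_sum fun σ _ => hterm σ n
    · rw [abs_mul, abs_of_nonneg hd0]
      exact mul_le_mul_of_nonneg_left (abs_classCoef_le L X n) hd0
    · rw [hd, card_mul_classCoef L X hX n]
      have e1 : ∑ σ ∈ Y, (orderOf σ : ℝ) * frobCoef L σ n =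
          ∑ σ ∈ Y, (if σ ∈ X then (orderOf σ : ℝ) * frobCoef L σ n else 0) :=
        Finset.sum_congr rfl fun σ hσ => by rw [if_pos (hYX σ hσ)]
      rw [e1]
      refine Finset.sum_le_sum_of_subset_of_nonneg (Finset.subset_univ Y) fun σ _ _ => ?_
      split_ifs
      · exact mul_nonneg (Nat.cast_nonneg _) (frobCoef_nonneg L σ n)
      · exact le_rfl
  -- step 2: symmetrise
  have h2 : ∑ σ ∈ Y, (orderOf σ : ℝ) * DS (frobCoef L σ⁻¹) s =
      ∑ σ ∈ Y, (orderOf σ : ℝ) * DS (frobCoef L σ) s := by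
    refine Finset.sum_nbij' (fun σ => σ⁻¹) (fun σ => σ⁻¹) (fun σ hσ => hYinv σ hσ)
      (fun σ hσ => hYinv σ hσ) (fun σ _ => inv_inv σ) (fun σ _ => inv_inv σ) (fun σ _ => ?_)
    rw [orderOf_inv]
  have h3 : ∑ σ ∈ Y, (orderOf σ : ℝ) / 2 *
      (DS (frobCoef L σ) s + DS (frobCoef L σ⁻¹) s -
        2 / (orderOf σ : ℝ) * Real.log (1 / (s - 1))) =
      ∑ σ ∈ Y, (orderOf σ : ℝ) * DS (frobCoef L σ) s - (Y.card : ℝ) * Real.log (1 / (s - 1)) := by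
    have e : ∀ σ ∈ Y, (orderOf σ : ℝ) / 2 *
        (DS (frobCoef L σ) s + DS (frobCoef L σ⁻¹) s -
          2 / (orderOf σ : ℝ) * Real.log (1 / (s - 1))) =
        (1 / 2 : ℝ) * ((orderOf σ : ℝ) * DS (frobCoef L σ) s) +
          (1 / 2 : ℝ) * ((orderOf σ : ℝ) * DS (frobCoef L σ⁻¹) s) - Real.log (1 / (s - 1)) := by
      intro σ _
      have h0 : (orderOf σ : ℝ) ≠ 0 := Nat.cast_ne_zero.mpr (orderOf_pos σ).ne'
      field_simp
    rw [Finset.sum_congr rfl e, Finset.sum_sub_distrib, Finset.sum_add_distrib,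
      ← Finset.mul_sum, ← Finset.mul_sum, h2, Finset.sum_const, nsmul_eq_mul]
    ring
  have h4 := (abs_le.mp (hC s hs1 hs2)).1
  beta_reduce at h4
  rw [h3] at h4
  linarith

end Lower


section Crossing

lemma log_inv_nonneg {s : ℝ} (hs1 : 1 < s) (hs2 : s ≤ 2) : 0 ≤ Real.log (1 / (s - 1)) := by
  apply Real.log_nonneg
  rw [le_div_iff₀ (by linarith)]
  linarith

/-- **Crossing in a tower** `ℚ ⊆ M ⊆ L = M(ζ_m)`: lower bound for the class series of `M` from the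
pair estimates in `L`. -/
theorem classSeries_lower_tower (M : Type u) [Field M] [NumberField M] [IsGalois ℚ M]
    (L : Type u) [Field L] [NumberField L] [IsGalois ℚ L] [Algebra M L] [IsScalarTower ℚ M L]
    {m : ℕ} (hm : m.Prime) {ζ : L} (hζ : IsPrimitiveRoot ζ m) (htop : Algebra.adjoin M {ζ} = ⊤)
    {j : ℕ} (hj : 1 ≤ j) (hmod : m ≡ 1 [MOD Nat.card (M ≃ₐ[ℚ] M) ^ j]) {δ : ℝ}
    (hδ : ((Nat.card (M ≃ₐ[ℚ] M) * Nat.card (M ≃ₐ[ℚ] M) : ℕ) : ℝ) ≤ δ * 2 ^ j)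
    (hpair : ∀ σ : L ≃ₐ[ℚ] L, (∀ x ∈ Subgroup.zpowers σ, x ζ = ζ → x = 1) → PairEst L σ)
    (X : Set (M ≃ₐ[ℚ] M)) (hconj : ∀ g τ : M ≃ₐ[ℚ] M, τ ∈ X → g * τ * g⁻¹ ∈ X)
    (hinv : ∀ τ ∈ X, τ⁻¹ ∈ X) :
    ∃ C : ℝ, ∀ s : ℝ, 1 < s → s ≤ 2 →
      (1 - δ) * ((Nat.card X : ℝ) / (Nat.card (M ≃ₐ[ℚ] M) : ℝ)) * Real.log (1 / (s - 1)) - C ≤
        DS (classCoef M X) s := by
  classical
  let _ := Fintype.ofFinite (L ≃ₐ[ℚ] L)
  let _ := Fintype.ofFinite (M ≃ₐ[ℚ] M)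
  let π : (L ≃ₐ[ℚ] L) →* (M ≃ₐ[ℚ] M) := AlgEquiv.restrictNormalHom M
  have hX'conj : ∀ g τ : L ≃ₐ[ℚ] L, τ ∈ π ⁻¹' X → g * τ * g⁻¹ ∈ π ⁻¹' X := by
    intro g τ hτ
    show π (g * τ * g⁻¹) ∈ X
    rw [map_mul, map_mul, map_inv]
    exact hconj _ _ hτ
  let Y : Finset (L ≃ₐ[ℚ] L) := Finset.univ.filter
    (fun σ => π σ ∈ X ∧ ∀ x ∈ Subgroup.zpowers σ, x ζ = ζ → x = 1)
  have hYX : ∀ σ ∈ Y, σ ∈ π ⁻¹' X := fun σ hσ => (Finset.mem_filter.mp hσ).2.1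
  have hYinv : ∀ σ ∈ Y, σ⁻¹ ∈ Y := by
    intro σ hσ
    obtain ⟨-, h1, h2⟩ := Finset.mem_filter.mp hσ
    refine Finset.mem_filter.mpr ⟨Finset.mem_univ _, ?_, ?_⟩
    · rw [map_inv]
      exact hinv _ h1
    · intro x hx
      rw [Subgroup.zpowers_inv] at hx
      exact h2 x hx
  have hY : ∀ σ ∈ Y, PairEst L σ := fun σ hσ => hpair σ (Finset.mem_filter.mp hσ).2.2
  obtain ⟨C, hC⟩ := card_mul_DS_classCoef_ge L (π ⁻¹' X) hX'conj Y hYX hYinv hY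
  set dM : ℝ := (Nat.card (M ≃ₐ[ℚ] M) : ℝ) with hdM
  set dL : ℝ := (Nat.card (L ≃ₐ[ℚ] L) : ℝ) with hdL
  have hdMpos : 0 < dM := by rw [hdM]; exact_mod_cast Nat.card_pos
  have hdLpos : 0 < dL := by rw [hdL]; exact_mod_cast Nat.card_pos
  -- count `Y`
  have hcount : (1 - δ) * ((Nat.card X : ℝ) * dL / dM) ≤ (Y.card : ℝ) := by
    have hmaps : Set.MapsTo π (Y : Set (L ≃ₐ[ℚ] L))
        ((Finset.univ.filter (fun τ : M ≃ₐ[ℚ] M => τ ∈ X) : Finset (M ≃ₐ[ℚ] M)) :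
          Set (M ≃ₐ[ℚ] M)) := by
      intro σ hσ
      exact Finset.mem_coe.mpr (Finset.mem_filter.mpr ⟨Finset.mem_univ _,
        (Finset.mem_filter.mp (Finset.mem_coe.mp hσ)).2.1⟩)
    rw [Finset.card_eq_sum_card_fiberwise hmaps, Nat.cast_sum]
    have hcardX : (Nat.card X : ℝ) =
        ((Finset.univ.filter (fun τ : M ≃ₐ[ℚ] M => τ ∈ X)).card : ℝ) := by
      rw [Nat.card_eq_fintype_card, Fintype.card_subtype]
    have hfib : ∀ τ ∈ Finset.univ.filter (fun τ : M ≃ₐ[ℚ] M => τ ∈ X),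
        (1 - δ) * (dL / dM) ≤ ((Y.filter (fun σ => π σ = τ)).card : ℝ) := by
      intro τ hτ
      have hτX : τ ∈ X := (Finset.mem_filter.mp hτ).2
      have h1 := CycloCross.one_sub_mul_ncard_lifts_le (M := M) (L := L) hm hζ htop hj hmod hδ τ
      have h2 := CycloCross.ncard_lifts_mul_card (M := M) (L := L) τ
      have h3 : ({σ : L ≃ₐ[ℚ] L | σ.restrictNormal M = τ}.ncard : ℝ) = dL / dM := by
        rw [eq_div_iff hdMpos.ne', hdL, hdM]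
        exact_mod_cast h2
      have h4 : {σ : L ≃ₐ[ℚ] L | σ.restrictNormal M = τ ∧
          ∀ x ∈ Subgroup.zpowers σ, x ζ = ζ → x = 1}.ncard =
          (Y.filter (fun σ => π σ = τ)).card := by
        rw [← Set.ncard_coe_finset]
        congr 1
        ext σ
        simp only [Finset.coe_filter, Set.mem_ofPred_eq, Y, Finset.mem_filter, Finset.mem_univ,
          true_and]
        constructor
        · rintro ⟨h5, h6⟩
          have h7 : π σ = τ := h5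
          exact ⟨⟨h7 ▸ hτX, h6⟩, h7⟩
        · rintro ⟨⟨-, h6⟩, h7⟩
          exact ⟨h7, h6⟩
      rw [h3, h4] at h1
      exact h1
    calc (1 - δ) * ((Nat.card X : ℝ) * dL / dM)
        = ∑ _τ ∈ Finset.univ.filter (fun τ : M ≃ₐ[ℚ] M => τ ∈ X), (1 - δ) * (dL / dM) := by
          rw [Finset.sum_const, nsmul_eq_mul, hcardX]
          ring
      _ ≤ _ := Finset.sum_le_sum hfib
  -- transfer between the two fields
  obtain ⟨T, hT⟩ := exists_finset_good M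
  obtain ⟨T', hT'⟩ := exists_finset_good L
  obtain ⟨C₂, hC₂⟩ := bddOn_DS_sub_of_eq_off (abs_classCoef_le L (π ⁻¹' X))
    (abs_classCoef_le M X) (T ∪ T') (fun n hn => by
      rw [Finset.mem_union, not_or] at hn
      unfold classCoef
      by_cases hp : n.Prime
      · have hgM := hT n hp hn.1
        have hgL := hT' n hp hn.2
        have hiff := frobIn_preimage_iff (L := L) M hgL hgM X
        exact if_congr (and_congr ⟨fun _ => hgM, fun _ => hgL⟩ hiff) rfl rfl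
      · have h1 : ¬ (Good L n ∧ FrobIn (π ⁻¹' X) n) := fun h => hp h.1.1
        have h2 : ¬ (Good M n ∧ FrobIn X n) := fun h => hp h.1.1
        rw [if_neg h1, if_neg h2])
  refine ⟨C / dL + C₂, fun s hs1 hs2 => ?_⟩
  have hlog := log_inv_nonneg hs1 hs2
  have h1 := hC s hs1 hs2
  have h2 := (abs_le.mp (hC₂ s hs1 hs2)).2
  beta_reduce at h2
  have h3 : (1 - δ) * ((Nat.card X : ℝ) * dL / dM) * Real.log (1 / (s - 1)) ≤
      (Y.card : ℝ) * Real.log (1 / (s - 1)) := mul_le_mul_of_nonneg_right hcount hlog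
  have h4 : (1 - δ) * ((Nat.card X : ℝ) / dM) * Real.log (1 / (s - 1)) - C / dL ≤
      DS (classCoef L (π ⁻¹' X)) s := by
    rw [← sub_nonneg]
    have h5 : DS (classCoef L (π ⁻¹' X)) s -
        ((1 - δ) * ((Nat.card X : ℝ) / dM) * Real.log (1 / (s - 1)) - C / dL) =
        (dL * DS (classCoef L (π ⁻¹' X)) s -
          ((1 - δ) * ((Nat.card X : ℝ) * dL / dM) * Real.log (1 / (s - 1)) - C)) / dL := by
      field_simp
    rw [h5]
    apply div_nonneg _ hdLpos.le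
    linarith
  linarith

/-- The hypothesis (G3): the pair estimate holds for every automorphism of a Galois number field
generating a group which acts faithfully on a primitive root of unity. -/
def PairHyp : Prop :=
  ∀ (L' : Type u) [Field L'] [NumberField L'] [IsGalois ℚ L'] (m : ℕ) [NeZero m] (ζ : L'),
    IsPrimitiveRoot ζ m → ∀ σ : L' ≃ₐ[ℚ] L',
      (∀ x ∈ Subgroup.zpowers σ, x ζ = ζ → x = 1) → PairEst L' σ

/-- **Chebotarev, lower bound** (class form, up to inversion). -/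
theorem classSeries_lower (hG3 : PairHyp.{u}) (L : Type u) [Field L] [NumberField L]
    [IsGalois ℚ L] (X : Set (L ≃ₐ[ℚ] L))
    (hconj : ∀ g τ : L ≃ₐ[ℚ] L, τ ∈ X → g * τ * g⁻¹ ∈ X) (hinv : ∀ τ ∈ X, τ⁻¹ ∈ X)
    (δ : ℝ) (hδ : 0 < δ) :
    ∃ C : ℝ, ∀ s : ℝ, 1 < s → s ≤ 2 →
      (1 - δ) * ((Nat.card X : ℝ) / (Nat.card (L ≃ₐ[ℚ] L) : ℝ)) * Real.log (1 / (s - 1)) - C ≤
        DS (classCoef L X) s := by
  have hdpos : 0 < Nat.card (L ≃ₐ[ℚ] L) := Nat.card_pos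
  obtain ⟨j, hj1, hjδ⟩ := CycloCross.exists_pow_bound (Nat.card (L ≃ₐ[ℚ] L)) hδ
  obtain ⟨m, hm, -, hmod⟩ := Nat.exists_prime_gt_modEq_one (k := Nat.card (L ≃ₐ[ℚ] L) ^ j) 0
    (pow_ne_zero j hdpos.ne')
  have : NeZero m := ⟨hm.ne_zero⟩
  obtain ⟨hGal, ζ, hζ, htop⟩ := CycloCross.cyclotomicField_tower L m
  exact classSeries_lower_tower L (CyclotomicField m L) hm hζ htop hj1 hmod hjδ
    (fun σ hσ => hG3 (CyclotomicField m L) m ζ hζ σ hσ) X hconj hinv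

/-- **Chebotarev's density theorem over `ℚ`** (Dirichlet density, for sets stable under
conjugation and inversion, little-o form), from the pair estimate (G3). -/
theorem chebotarev_of_pairHyp (hG3 : PairHyp.{u}) (L : Type u) [Field L] [NumberField L]
    [IsGalois ℚ L] (X : Set (L ≃ₐ[ℚ] L))
    (hconj : ∀ g τ : L ≃ₐ[ℚ] L, τ ∈ X → g * τ * g⁻¹ ∈ X) (hinv : ∀ τ ∈ X, τ⁻¹ ∈ X)
    (ε : ℝ) (hε : 0 < ε) [DecidablePred fun ℓ : ℕ => Good L ℓ ∧ FrobIn X ℓ] :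
    ∃ C : ℝ, ∀ s : ℝ, 1 < s → s ≤ 2 →
      |DS (fun ℓ => if Good L ℓ ∧ FrobIn X ℓ then 1 else 0) s -
        (Nat.card X : ℝ) / (Nat.card (L ≃ₐ[ℚ] L) : ℝ) * Real.log (1 / (s - 1))| ≤
        ε * Real.log (1 / (s - 1)) + C := by
  have e : (fun ℓ : ℕ => if Good L ℓ ∧ FrobIn X ℓ then (1 : ℝ) else 0) = classCoef L X := by
    funext ℓ
    unfold classCoef
    by_cases h : Good L ℓ ∧ FrobIn X ℓ
    · rw [if_pos h, if_pos h]
    · rw [if_neg h, if_neg h]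
  rw [e]
  classical
  have hXc : ∀ g τ : L ≃ₐ[ℚ] L, τ ∈ Xᶜ → g * τ * g⁻¹ ∈ Xᶜ := by
    intro g τ hτ hmem
    apply hτ
    have h1 := hconj g⁻¹ _ hmem
    have e : g⁻¹ * (g * τ * g⁻¹) * g⁻¹⁻¹ = τ := by group
    rwa [e] at h1
  have hXcinv : ∀ τ ∈ Xᶜ, τ⁻¹ ∈ Xᶜ := by
    intro τ hτ hmem
    apply hτ
    have h1 := hinv _ hmem
    rwa [inv_inv] at h1
  obtain ⟨C₁, h₁⟩ := classSeries_lower hG3 L X hconj hinv ε hε
  obtain ⟨C₂, h₂⟩ := classSeries_lower hG3 L Xᶜ hXc hXcinv ε hε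
  obtain ⟨C₃, h₃⟩ := bddOn_goodCoef L
  set d : ℝ := (Nat.card (L ≃ₐ[ℚ] L) : ℝ) with hd
  have hdpos : 0 < d := by rw [hd]; exact_mod_cast Nat.card_pos
  have hcard : (Nat.card X : ℝ) + (Nat.card (Xᶜ : Set (L ≃ₐ[ℚ] L)) : ℝ) = d := by
    rw [hd, Nat.card_coe_set_eq, Nat.card_coe_set_eq]
    exact_mod_cast Set.ncard_add_ncard_compl X
  set a : ℝ := (Nat.card X : ℝ) / d with ha
  have hb : (Nat.card (Xᶜ : Set (L ≃ₐ[ℚ] L)) : ℝ) / d = 1 - a := by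
    rw [ha, eq_sub_iff_add_eq, ← add_div, add_comm, hcard, div_self hdpos.ne']
  have ha0 : 0 ≤ a := div_nonneg (Nat.cast_nonneg _) hdpos.le
  have ha1 : a ≤ 1 := by
    rw [ha, div_le_one hdpos]
    have : (0 : ℝ) ≤ (Nat.card (Xᶜ : Set (L ≃ₐ[ℚ] L)) : ℝ) := Nat.cast_nonneg _
    linarith
  refine ⟨|C₁| + |C₂| + |C₃|, fun s hs1 hs2 => ?_⟩
  have hlog := log_inv_nonneg hs1 hs2
  set lg : ℝ := Real.log (1 / (s - 1)) with hlg
  have hsum : DS (classCoef L X) s + DS (classCoef L Xᶜ) s = DS (goodCoef L) s := by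
    rw [← DS_add (abs_classCoef_le L X) (abs_classCoef_le L Xᶜ) hs1]
    congr 1
    funext ℓ
    exact classCoef_add_compl L X hconj ℓ
  have l1 := h₁ s hs1 hs2
  have l2 := h₂ s hs1 hs2
  rw [hb] at l2
  have l3 := abs_le.mp (h₃ s hs1 hs2)
  beta_reduce at l3
  have k1 := le_abs_self C₁
  have k2 := le_abs_self C₂
  have k3 := le_abs_self C₃
  have k3' := neg_abs_le C₃
  have k4 : 0 ≤ ε * a * lg := mul_nonneg (mul_nonneg hε.le ha0) hlog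
  have k5 : 0 ≤ ε * (1 - a) * lg := mul_nonneg (mul_nonneg hε.le (by linarith)) hlog
  have k6 := abs_nonneg C₁
  have k7 := abs_nonneg C₂
  have k8 := abs_nonneg C₃
  rw [abs_le]
  constructor
  · nlinarith
  · nlinarith

open Classical in
/-- **Chebotarev, lower bound**, in the literal shape of G ruling #2 (classical `if`). -/
theorem cheb_lower (M : Type u) [Field M] [NumberField M] [IsGalois ℚ M] (hG3 : PairHyp.{u})
    (X : Set (M ≃ₐ[ℚ] M)) (hconj : ∀ g τ : M ≃ₐ[ℚ] M, τ ∈ X → g * τ * g⁻¹ ∈ X)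
    (hinv : ∀ τ ∈ X, τ⁻¹ ∈ X) (ε : ℝ) (hε : 0 < ε) :
    ∃ C : ℝ, ∀ s : ℝ, 1 < s → s ≤ 2 →
      ((Nat.card X : ℝ) / (Nat.card (M ≃ₐ[ℚ] M) : ℝ) - ε) * Real.log (1 / (s - 1)) - C ≤
        DS (fun ℓ => if Good M ℓ ∧ FrobIn X ℓ then (1 : ℝ) else 0) s := by
  have e : (fun ℓ : ℕ => if Good M ℓ ∧ FrobIn X ℓ then (1 : ℝ) else 0) = classCoef M X := by
    funext ℓ
    unfold classCoef
    by_cases h : Good M ℓ ∧ FrobIn X ℓ
    · simp only [if_pos h]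
    · simp only [if_neg h]
  rw [e]
  obtain ⟨C, hC⟩ := classSeries_lower hG3 M X hconj hinv ε hε
  refine ⟨C, fun s hs1 hs2 => le_trans ?_ (hC s hs1 hs2)⟩
  have hlog := log_inv_nonneg hs1 hs2
  have hdpos : (0 : ℝ) < (Nat.card (M ≃ₐ[ℚ] M) : ℝ) := by exact_mod_cast Nat.card_pos
  have ha1 : (Nat.card X : ℝ) / (Nat.card (M ≃ₐ[ℚ] M) : ℝ) ≤ 1 := by
    rw [div_le_one hdpos]
    exact_mod_cast Nat.card_le_card_of_injective (fun x : X => (x : M ≃ₐ[ℚ] M))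
      Subtype.val_injective
  have h1 : ((Nat.card X : ℝ) / (Nat.card (M ≃ₐ[ℚ] M) : ℝ) - ε) ≤
      (1 - ε) * ((Nat.card X : ℝ) / (Nat.card (M ≃ₐ[ℚ] M) : ℝ)) := by nlinarith
  have h2 := mul_le_mul_of_nonneg_right h1 hlog
  linarith

open Classical in
/-- **Chebotarev's density theorem over `ℚ`** from the pair estimate, in the literal shape of
`LiftQbTransfer.ChebStatement` (classical `if`). -/
theorem chebStatement_of_pairHyp (hG3 : PairHyp.{u}) (L : Type u) [Field L] [NumberField L]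
    [IsGalois ℚ L] :
    ∀ X : Set (L ≃ₐ[ℚ] L), (∀ g τ : L ≃ₐ[ℚ] L, τ ∈ X → g * τ * g⁻¹ ∈ X) → (∀ τ ∈ X, τ⁻¹ ∈ X) →
      ∀ ε : ℝ, 0 < ε → ∃ C : ℝ, ∀ s : ℝ, 1 < s → s ≤ 2 →
        |DS (fun ℓ => if Good L ℓ ∧ FrobIn X ℓ then 1 else 0) s -
          (Nat.card X : ℝ) / (Nat.card (L ≃ₐ[ℚ] L) : ℝ) * Real.log (1 / (s - 1))| ≤
          ε * Real.log (1 / (s - 1)) + C :=
  fun X hconj hinv ε hε => chebotarev_of_pairHyp hG3 L X hconj hinv ε hε

end Crossing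

end Fermat.Agent.Lib.Chebotarev
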