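import Mathlib
import Fermat.Agent.S48.Dens.Basic
import Fermat.Agent.Lib.FrobDensity.Series

/-!
# Chebotarev brick (G), adapter (L): from the `DS`-form over `Qb` to `S48.Dens.ChebLower`

The transfer brick `Lib/Chebotarev/LiftQbTransfer` exits with Chebotarev's theorem for a
*surjective* homomorphism `π : Γ →* G` of finite level onto a finite group, in the vocabulary of
`Lib/FrobDensity/Series` (`DS c s = ∑' n, c n * n ^ (-s)` of the indicator of the Frobenius
primes, two-sided `ε`-estimate against `|X| / |G| * log (1 / (s - 1))`).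

The consumer `S48/Dens/Basic` wants `ChebLower`: for an arbitrary homomorphism `φ : Γ →* G` of
finite level, the finite-sum lower-density predicate `LowDens` of `FrobPrimes φ S X` with density
`|X ∩ im φ| / |im φ|`.

This file proves the implication, with the transfer exit as a hypothesis (`ChebQb`), so it does
not wait for the transfer file:

* `lowDens_of_DS_lower`: a lower bound for `DS` of an indicator function gives `LowDens`;
* `DS_indicator_congr`: `DS` only sees the values of the coefficient function (this makes the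
  adapter independent of the `Decidable` instance used in the `if`);
* `ncard_inter_range`: `|{x : im φ | x ∈ X}| = |X ∩ im φ|`;
* `chebLower_of_chebQbInd`, `chebLower_of_chebQb`: the adapter.
-/

set_option autoImplicit false

namespace Fermat.Agent.Lib.Chebotarev.ChebLowerAdapter

open Fermat.Agent.Lib.FrobDensity Fermat.Agent.S48.Dens

local notation "Qb" => AlgebraicClosure ℚ
local notation "Γ" => (AlgebraicClosure ℚ ≃ₐ[ℚ] AlgebraicClosure ℚ)

/-! ## From `DS` of an indicator to the finite-sum lower density -/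

/-- A lower bound for the Dirichlet-type series of a `0/1`-valued coefficient function supported
on the set of primes `E` gives the finite-sum lower density of `E`. -/
theorem lowDens_of_DS_lower {E : Set ℕ} {δ : ℝ} (c : ℕ → ℝ)
    (hc1 : ∀ n, n ∈ E → c n = 1) (hc0 : ∀ n, n ∉ E → c n = 0) (hE : ∀ n ∈ E, n.Prime)
    (h : ∀ ε : ℝ, 0 < ε → ∃ C : ℝ, ∀ s : ℝ, 1 < s → s ≤ 2 →
      (δ - ε) * Real.log (1 / (s - 1)) - C ≤ DS c s) : LowDens E δ := by
  classical
  intro ε hε
  obtain ⟨C, hC⟩ := h ε hε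
  refine ⟨C + 1, fun s hs hs2 => ?_⟩
  have hbd : ∀ n, |c n| ≤ 1 := by
    intro n
    by_cases hn : n ∈ E
    · rw [hc1 n hn, abs_one]
    · rw [hc0 n hn, abs_zero]
      exact zero_le_one
  have hsum : Summable fun n : ℕ => c n * (n : ℝ) ^ (-s) := summable_DS hbd hs
  have hT : ∃ T : Finset ℕ, DS c s - 1 < ∑ n ∈ T, c n * (n : ℝ) ^ (-s) := by
    by_contra hcon
    push Not at hcon
    have h1 : ∑' n : ℕ, c n * (n : ℝ) ^ (-s) ≤ DS c s - 1 := hsum.tsum_le_of_sum_le hcon
    have h2 : DS c s = ∑' n : ℕ, c n * (n : ℝ) ^ (-s) := rfl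
    linarith
  obtain ⟨T, hT⟩ := hT
  refine ⟨T.filter (· ∈ E), ?_, ?_⟩
  · intro p hp
    rw [Finset.mem_filter] at hp
    exact ⟨hE p hp.2, hp.2⟩
  · have e : ∑ n ∈ T, c n * (n : ℝ) ^ (-s) = ∑ p ∈ T.filter (· ∈ E), 1 / (p : ℝ) ^ s := by
      rw [Finset.sum_filter]
      refine Finset.sum_congr rfl fun n _ => ?_
      by_cases hn : n ∈ E
      · rw [if_pos hn, hc1 n hn, one_mul, Real.rpow_neg (Nat.cast_nonneg n), one_div]
      · rw [if_neg hn, hc0 n hn, zero_mul]
    have h3 := hC s hs hs2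
    rw [← e]
    linarith

/-- `DS` only depends on the values of the coefficient function. -/
theorem DS_congr {c c' : ℕ → ℝ} (h : ∀ n, c n = c' n) (s : ℝ) : DS c s = DS c' s := by
  have : c = c' := funext h
  rw [this]

/-! ## The image of a homomorphism of finite level -/

/-- The number of elements of the image lying in `X`, counted inside the image, is
`|X ∩ im φ|`. -/
theorem ncard_inter_range {G : Type*} [Group G] (φ : Γ →* G) (X : Set G) :
    Nat.card {x : φ.range | (x : G) ∈ X} = Set.ncard (X ∩ (φ.range : Set G)) := by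
  have h1 : Nat.card {x : φ.range | (x : G) ∈ X} = Set.ncard {x : φ.range | (x : G) ∈ X} :=
    Nat.card_coe_set_eq _
  have h2 : (Subtype.val '' {x : φ.range | (x : G) ∈ X}) = X ∩ (φ.range : Set G) := by
    ext g
    constructor
    · rintro ⟨x, hx, rfl⟩
      exact ⟨hx, x.2⟩
    · rintro ⟨hg, hr⟩
      exact ⟨⟨g, hr⟩, hg, rfl⟩
  rw [h1, ← h2, Set.ncard_image_of_injective _ Subtype.val_injective]

/-! ## The exit of the transfer brick, as a hypothesis -/

/-- The exit of `Lib/Chebotarev/LiftQbTransfer` (`chebotarev_Qb`), in instance-free form: the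
coefficient function is the indicator of `FrobPrimes π S X`. -/
def ChebQbInd : Prop :=
  ∀ (G : Type) [Group G] [Finite G] (π : Γ →* G), Function.Surjective π →
    (∃ L : IntermediateField ℚ Qb, FiniteDimensional ℚ L ∧
      ∀ σ : Γ, (∀ x ∈ L, σ x = x) → π σ = 1) →
    ∀ (S : Finset ℕ) (X : Set G), (∀ g x, x ∈ X → g * x * g⁻¹ ∈ X) → (∀ x ∈ X, x⁻¹ ∈ X) →
    ∀ ε : ℝ, 0 < ε → ∃ C : ℝ, ∀ s : ℝ, 1 < s → s ≤ 2 →
      |DS (Set.indicator (FrobPrimes π S X) (fun _ => (1 : ℝ))) s
          - (Nat.card X : ℝ) / (Nat.card G : ℝ) * Real.log (1 / (s - 1))|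
        ≤ ε * Real.log (1 / (s - 1)) + C

open Classical in
/-- The exit of `Lib/Chebotarev/LiftQbTransfer` (`chebotarev_Qb`), literal shape (classical
`if`), at `G : Type`. -/
def ChebQb : Prop :=
  ∀ (G : Type) [Group G] [Finite G] (π : Γ →* G), Function.Surjective π →
    (∃ L : IntermediateField ℚ Qb, FiniteDimensional ℚ L ∧
      ∀ σ : Γ, (∀ x ∈ L, σ x = x) → π σ = 1) →
    ∀ (S : Finset ℕ) (X : Set G), (∀ g x, x ∈ X → g * x * g⁻¹ ∈ X) → (∀ x ∈ X, x⁻¹ ∈ X) →
    ∀ ε : ℝ, 0 < ε → ∃ C : ℝ, ∀ s : ℝ, 1 < s → s ≤ 2 →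
      |DS (fun p => if p.Prime ∧ p ∉ S ∧ ∃ (A : ValuationSubring Qb) (σ : Γ),
            A.LiesOverPrime p ∧ A.IsFrobeniusAt σ p ∧ π σ ∈ X then 1 else 0) s
          - (Nat.card X : ℝ) / (Nat.card G : ℝ) * Real.log (1 / (s - 1))|
        ≤ ε * Real.log (1 / (s - 1)) + C

/-- The `if`-coefficient function (for any `Decidable` instance) is the indicator of
`FrobPrimes`. -/
theorem ite_eq_indicator {G : Type} (π : Γ → G) (S : Finset ℕ) (X : Set G) (p : ℕ)
    [d : Decidable (p.Prime ∧ p ∉ S ∧ ∃ (A : ValuationSubring Qb) (σ : Γ),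
      A.LiesOverPrime p ∧ A.IsFrobeniusAt σ p ∧ π σ ∈ X)] :
    (if p.Prime ∧ p ∉ S ∧ ∃ (A : ValuationSubring Qb) (σ : Γ),
      A.LiesOverPrime p ∧ A.IsFrobeniusAt σ p ∧ π σ ∈ X then (1 : ℝ) else 0)
      = Set.indicator (FrobPrimes π S X) (fun _ => (1 : ℝ)) p := by
  classical
  by_cases h : p.Prime ∧ p ∉ S ∧ ∃ (A : ValuationSubring Qb) (σ : Γ),
      A.LiesOverPrime p ∧ A.IsFrobeniusAt σ p ∧ π σ ∈ X
  · rw [if_pos h, Set.indicator_of_mem (show p ∈ FrobPrimes π S X from h)]
  · rw [if_neg h, Set.indicator_of_notMem (show p ∉ FrobPrimes π S X from h)]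

/-- The literal shape implies the instance-free shape. -/
theorem chebQbInd_of_chebQb (h : ChebQb) : ChebQbInd := by
  classical
  intro G _ _ π hsurj hlev S X hconj hinv ε hε
  obtain ⟨C, hC⟩ := h G π hsurj hlev S X hconj hinv ε hε
  refine ⟨C, fun s hs hs2 => ?_⟩
  have h1 := hC s hs hs2
  rwa [DS_congr (fun p => ite_eq_indicator π S X p) s] at h1

/-! ## The adapter -/

/-- **Adapter (L).** Chebotarev over `Qb` for surjections onto finite groups (two-sided
`DS`-estimate) implies the lower-density statement `ChebLower` consumed by `S48/Dens`. -/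
theorem chebLower_of_chebQbInd (h : ChebQbInd) : ChebLower := by
  classical
  intro G _ φ hfin S X hconj hinv
  have : Finite φ.range := finite_range φ hfin
  have hsurj : Function.Surjective φ.rangeRestrict := φ.rangeRestrict_surjective
  have hlev : ∃ L : IntermediateField ℚ Qb, FiniteDimensional ℚ L ∧
      ∀ σ : Γ, (∀ x ∈ L, σ x = x) → φ.rangeRestrict σ = 1 := by
    obtain ⟨L, hL, hφ⟩ := hfin
    exact ⟨L, hL, fun σ hσ => Subtype.ext (hφ σ hσ)⟩
  have hconj' : ∀ g x : φ.range, x ∈ {x : φ.range | (x : G) ∈ X} →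
      g * x * g⁻¹ ∈ {x : φ.range | (x : G) ∈ X} :=
    fun g x hx => hconj (x : G) hx (g : G) g.2
  have hinv' : ∀ x ∈ {x : φ.range | (x : G) ∈ X}, x⁻¹ ∈ {x : φ.range | (x : G) ∈ X} :=
    fun x hx => hinv (x : G) hx
  have hset : FrobPrimes φ.rangeRestrict S {x : φ.range | (x : G) ∈ X} = FrobPrimes φ S X := rfl
  have key := h φ.range φ.rangeRestrict hsurj hlev S {x : φ.range | (x : G) ∈ X} hconj' hinv'
  rw [hset, ncard_inter_range φ X] at key
  refine lowDens_of_DS_lower (Set.indicator (FrobPrimes φ S X) (fun _ => (1 : ℝ)))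
    (fun n hn => Set.indicator_of_mem hn _) (fun n hn => Set.indicator_of_notMem hn _)
    (fun n hn => hn.1) fun ε hε => ?_
  obtain ⟨C, hC⟩ := key ε hε
  refine ⟨C, fun s hs hs2 => ?_⟩
  have h1 := (abs_le.mp (hC s hs hs2)).1
  linarith

/-- **Adapter (L)**, from the literal exit shape of the transfer brick. -/
theorem chebLower_of_chebQb (h : ChebQb) : ChebLower :=
  chebLower_of_chebQbInd (chebQbInd_of_chebQb h)

end Fermat.Agent.Lib.Chebotarev.ChebLowerAdapter
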