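import Fermat.Agent.Lib.Chebotarev.LiftQbTransfer
import Fermat.Agent.S48.Dens.Basic

/-!
# Chebotarev: from the abstract statement to the consumer hypothesis `Dens.ChebLower`

`Fermat.Agent.S48.Dens.ChebLower` (the single Chebotarev input of the S48 assembly: lower
Dirichlet density, finite-sum form, of the primes with a Frobenius element mapped into a
conjugation- and inversion-stable set) follows from the abstract statement
`LiftQbTransfer.ChebStatement L` for all Galois number fields `L`.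
-/

set_option autoImplicit false

namespace Fermat.Agent.Lib.Chebotarev.ToChebLower

open Fermat.Agent.Lib.FrobDensity Fermat.Agent.Lib.Chebotarev.LiftQbTransfer
  Fermat.Agent.S48.Dens

local notation "Qb" => AlgebraicClosure ℚ
local notation "Γ" => (AlgebraicClosure ℚ ≃ₐ[ℚ] AlgebraicClosure ℚ)

/-- A convergent series with bounded coefficients is approximated from below by a finite partial
sum. -/
lemma exists_finset_le_sum {c : ℕ → ℝ} {B : ℝ} (hcB : ∀ n, |c n| ≤ B) {s : ℝ} (hs : 1 < s) :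
    ∃ T : Finset ℕ, DS c s - 1 ≤ ∑ n ∈ T, c n * (n : ℝ) ^ (-s) := by
  have h := (summable_DS hcB hs).hasSum
  have h1 : ∀ᶠ T : Finset ℕ in Filter.atTop,
      DS c s - 1 < ∑ n ∈ T, c n * (n : ℝ) ^ (-s) :=
    h.eventually (lt_mem_nhds (by unfold DS; linarith))
  obtain ⟨T, hT⟩ := h1.exists
  exact ⟨T, hT.le⟩

/-- **`ChebLower` from the abstract Chebotarev statement.** -/
theorem chebLower
    (hCheb : ∀ (L : Type) [Field L] [NumberField L] [IsGalois ℚ L], ChebStatement L) :
    ChebLower := by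
  intro G _ φ hφ S X hconj hinv ε hε
  classical
  obtain ⟨C, hC⟩ := chebotarev_Qb_range hCheb φ hφ S X (fun g hg x hx => hconj x hx g hg) hinv
    ε hε
  refine ⟨C + 1, fun s hs hs2 => ?_⟩
  have hcB : ∀ n : ℕ, |(if n.Prime ∧ n ∉ S ∧ ∃ (A : ValuationSubring Qb) (σ : Γ),
      A.LiesOverPrime n ∧ A.IsFrobeniusAt σ n ∧ φ σ ∈ X then (1 : ℝ) else 0)| ≤ 1 := by
    intro n
    split_ifs <;> simp
  obtain ⟨T, hT⟩ := exists_finset_le_sum hcB hs
  refine ⟨T.filter (fun p => p ∈ FrobPrimes φ S X), ?_, ?_⟩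
  · intro p hp
    rw [Finset.mem_filter] at hp
    exact ⟨hp.2.1, hp.2⟩
  · have e : ∑ p ∈ T.filter (fun p => p ∈ FrobPrimes φ S X), 1 / (p : ℝ) ^ s =
        ∑ n ∈ T, (if n.Prime ∧ n ∉ S ∧ ∃ (A : ValuationSubring Qb) (σ : Γ),
          A.LiesOverPrime n ∧ A.IsFrobeniusAt σ n ∧ φ σ ∈ X then (1 : ℝ) else 0) *
            (n : ℝ) ^ (-s) := by
      rw [Finset.sum_filter]
      refine Finset.sum_congr rfl fun n _ => ?_
      by_cases h : n ∈ FrobPrimes φ S X
      · have h' : n.Prime ∧ n ∉ S ∧ ∃ (A : ValuationSubring Qb) (σ : Γ),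
            A.LiesOverPrime n ∧ A.IsFrobeniusAt σ n ∧ φ σ ∈ X := h
        rw [if_pos h, if_pos h', one_mul, Real.rpow_neg (Nat.cast_nonneg n), one_div]
      · have h' : ¬ (n.Prime ∧ n ∉ S ∧ ∃ (A : ValuationSubring Qb) (σ : Γ),
            A.LiesOverPrime n ∧ A.IsFrobeniusAt σ n ∧ φ σ ∈ X) := h
        rw [if_neg h, if_neg h', zero_mul]
    rw [e]
    have h1 := (abs_le.mp (hC s hs hs2)).1
    rw [Nat.card_coe_set_eq] at h1
    linarith

end Fermat.Agent.Lib.Chebotarev.ToChebLower
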