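import Fermat.Agent.Lib.Chebotarev.CycloFrobPair
import Fermat.Agent.Lib.Chebotarev.ToChebLower

/-!
# Chebotarev over `ℚ`: the closed statements

* `chebStatement L`: Chebotarev's density theorem (Dirichlet density, up to inversion, little-o
  form) for every Galois number field `L`, in the shape `LiftQbTransfer.ChebStatement`.
* `chebLower`: the consumer statement `Fermat.Agent.S48.Dens.ChebLower` of the S48 assembly.
* `chebotarev_Qb`, `chebotarev_Qb_classFun`, `chebotarev_Qb_char`: the two-sided forms for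
  homomorphisms from `Gal(ℚ̄/ℚ)` of finite level, in the Prelude vocabulary.
-/

set_option autoImplicit false

namespace Fermat.Agent.Lib.Chebotarev.ChebLowerFinal

open Fermat.Agent.Lib.FrobDensity Fermat.Agent.Lib.Chebotarev
  Fermat.Agent.Lib.Chebotarev.LiftQbTransfer

local notation "Qb" => AlgebraicClosure ℚ
local notation "Γ" => (AlgebraicClosure ℚ ≃ₐ[ℚ] AlgebraicClosure ℚ)

/-- **Chebotarev's density theorem over `ℚ`** (up to inversion, little-o form) for every Galois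
number field. -/
theorem chebStatement (L : Type) [Field L] [NumberField L] [IsGalois ℚ L] : ChebStatement L :=
  chebStatement_of_pairHyp CycloFrobPair.pairHyp L

/-- **The Chebotarev input of the S48 assembly.** -/
theorem chebLower : Fermat.Agent.S48.Dens.ChebLower :=
  ToChebLower.chebLower fun L _ _ _ => chebStatement L

section Qbar

variable {G : Type*} [Group G] [Finite G]

open Classical in
/-- **Chebotarev for `Gal(ℚ̄/ℚ)`**, set form, two-sided. -/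
theorem chebotarev_Qb (π : Γ →* G) (hsurj : Function.Surjective π)
    (hlev : ∃ L : IntermediateField ℚ Qb, FiniteDimensional ℚ L ∧
      ∀ σ : Γ, (∀ x ∈ L, σ x = x) → π σ = 1)
    (S : Finset ℕ) (X : Set G) (hconj : ∀ g x : G, x ∈ X → g * x * g⁻¹ ∈ X)
    (hinv : ∀ x ∈ X, x⁻¹ ∈ X) (ε : ℝ) (hε : 0 < ε) :
    ∃ C : ℝ, ∀ s : ℝ, 1 < s → s ≤ 2 →
      |DS (fun p => if p.Prime ∧ p ∉ S ∧ ∃ (A : ValuationSubring Qb) (σ : Γ),
            A.LiesOverPrime p ∧ A.IsFrobeniusAt σ p ∧ π σ ∈ X then 1 else 0) s -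
          (Nat.card X : ℝ) / (Nat.card G : ℝ) * Real.log (1 / (s - 1))| ≤
        ε * Real.log (1 / (s - 1)) + C :=
  LiftQbTransfer.chebotarev_Qb (fun L _ _ _ => chebStatement L) π hsurj hlev S X hconj hinv ε hε

/-- **Chebotarev for `Gal(ℚ̄/ℚ)`**, class function form, two-sided. -/
theorem chebotarev_Qb_classFun (π : Γ →* G) (hsurj : Function.Surjective π)
    (hlev : ∃ L : IntermediateField ℚ Qb, FiniteDimensional ℚ L ∧
      ∀ σ : Γ, (∀ x ∈ L, σ x = x) → π σ = 1)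
    (f : G → ℝ) (hfconj : ∀ g x : G, f (g * x * g⁻¹) = f x) (hfinv : ∀ x : G, f x⁻¹ = f x)
    (S : Finset ℕ) (c : ℕ → ℝ)
    (hc : ∀ p : ℕ, p ∉ S → p.Prime → ∀ (A : ValuationSubring Qb) (σ : Γ),
      A.LiesOverPrime p → A.IsFrobeniusAt σ p → c p = f (π σ))
    (hc0 : ∀ n : ℕ, n ∉ S → ¬ n.Prime → c n = 0)
    (ε : ℝ) (hε : 0 < ε) :
    ∃ C : ℝ, ∀ s : ℝ, 1 < s → s ≤ 2 →
      |DS c s - (∑ᶠ x : G, f x) / (Nat.card G : ℝ) * Real.log (1 / (s - 1))| ≤
        ε * Real.log (1 / (s - 1)) + C :=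
  LiftQbTransfer.chebotarev_Qb_classFun (fun L _ _ _ => chebStatement L) π hsurj hlev f hfconj
    hfinv S c hc hc0 ε hε

end Qbar

/-- **Nontrivial characters of `Gal(ℚ̄/ℚ)` of finite level have mean zero on Frobenius
elements**: `∑_p Re ψ(Frob_p) p^(-s) = o(log (1 / (s - 1)))`. -/
theorem chebotarev_Qb_char (ψ : Γ →* ℂˣ)
    (hlev : ∃ L : IntermediateField ℚ Qb, FiniteDimensional ℚ L ∧
      ∀ σ : Γ, (∀ x ∈ L, σ x = x) → ψ σ = 1)
    (hψ : ψ ≠ 1) (S : Finset ℕ) (c : ℕ → ℝ)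
    (hc : ∀ p : ℕ, p ∉ S → p.Prime → ∀ (A : ValuationSubring Qb) (σ : Γ),
      A.LiesOverPrime p → A.IsFrobeniusAt σ p → c p = ((ψ σ : ℂˣ) : ℂ).re)
    (hc0 : ∀ n : ℕ, n ∉ S → ¬ n.Prime → c n = 0)
    (ε : ℝ) (hε : 0 < ε) :
    ∃ C : ℝ, ∀ s : ℝ, 1 < s → s ≤ 2 → |DS c s| ≤ ε * Real.log (1 / (s - 1)) + C :=
  LiftQbTransfer.chebotarev_Qb_char (fun L _ _ _ => chebStatement L) ψ hlev hψ S c hc hc0 ε hε

end Fermat.Agent.Lib.Chebotarev.ChebLowerFinal
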