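import Fermat.Agent.Lib.Chebotarev.LiftQbTransfer
import Fermat.Agent.S48.Dens.Basic

/-!
# Chebotarev: the consumer hypothesis `Dens.ChebLower` from the abstract LOWER bound

`Fermat.Agent.S48.Dens.ChebLower` is a lower-density statement.  It follows from the lower-bound
half `ChebLBStatement L` of Chebotarev's theorem (up to inversion) for all Galois number fields
`L`; the upper bound is not needed.

* `exists_dictionary`: for a surjective `π : Gal(ℚ̄/ℚ) → G` of finite level and a stable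
  `X ⊆ G`, a finite Galois `N ⊆ ℚ̄`, a stable `X' ⊆ Gal(N/ℚ)` of the same density and a finite
  set `T` of primes outside which `Good N ℓ ∧ FrobIn X' ℓ` is the Prelude predicate
  "`ℓ` is prime and some Frobenius element over `ℓ` is mapped into `X` by `π`".
* `chebLower_of_lb`.
-/

set_option autoImplicit false

open scoped NumberField

namespace Fermat.Agent.Lib.Chebotarev.ChebLowerOfLB

open Fermat.Agent.Lib.FrobDensity Fermat.Agent.Lib.Chebotarev
  Fermat.Agent.Lib.Chebotarev.LiftQbTransfer Fermat.Agent.S48.Dens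

local notation "Qb" => AlgebraicClosure ℚ
local notation "Γ" => (AlgebraicClosure ℚ ≃ₐ[ℚ] AlgebraicClosure ℚ)

open Classical in
/-- **Chebotarev up to inversion, lower bound**, for the Galois number field `L`. -/
def ChebLBStatement (L : Type*) [Field L] [NumberField L] [IsGalois ℚ L] : Prop :=
  ∀ X : Set (L ≃ₐ[ℚ] L), (∀ g τ : L ≃ₐ[ℚ] L, τ ∈ X → g * τ * g⁻¹ ∈ X) → (∀ τ ∈ X, τ⁻¹ ∈ X) →
    ∀ ε : ℝ, 0 < ε → ∃ C : ℝ, ∀ s : ℝ, 1 < s → s ≤ 2 →
      ((Nat.card X : ℝ) / (Nat.card (L ≃ₐ[ℚ] L) : ℝ) - ε) * Real.log (1 / (s - 1)) - C ≤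
        DS (fun ℓ => if Good L ℓ ∧ FrobIn X ℓ then (1 : ℝ) else 0) s

/-- The two-sided statement implies the lower bound. -/
theorem chebLBStatement_of_chebStatement (L : Type*) [Field L] [NumberField L] [IsGalois ℚ L]
    (h : ChebStatement L) : ChebLBStatement L := by
  intro X hconj hinv ε hε
  obtain ⟨C, hC⟩ := h X hconj hinv ε hε
  refine ⟨C, fun s hs hs2 => ?_⟩
  have h1 := (abs_le.mp (hC s hs hs2)).1
  linarith

/-- **Dictionary.**  For a surjective `π` of finite level onto a finite group and a stable set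
`X`: a finite Galois number field `N ⊆ ℚ̄`, a stable set `X' ⊆ Gal(N/ℚ)` of the same density,
and a finite set `T` of primes outside which the abstract predicate `Good N ℓ ∧ FrobIn X' ℓ`
coincides with "`ℓ` prime and some Frobenius element over `ℓ` maps into `X`". -/
theorem exists_dictionary {G : Type*} [Group G] [Finite G] (π : Γ →* G)
    (hsurj : Function.Surjective π)
    (hlev : ∃ L : IntermediateField ℚ Qb, FiniteDimensional ℚ L ∧
      ∀ σ : Γ, (∀ x ∈ L, σ x = x) → π σ = 1)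
    (X : Set G) (hconj : ∀ g x : G, x ∈ X → g * x * g⁻¹ ∈ X) (hinv : ∀ x ∈ X, x⁻¹ ∈ X) :
    ∃ (N : IntermediateField ℚ Qb) (_ : NumberField N) (_ : IsGalois ℚ N)
      (X' : Set (N ≃ₐ[ℚ] N)) (T : Finset ℕ),
      (∀ g τ : N ≃ₐ[ℚ] N, τ ∈ X' → g * τ * g⁻¹ ∈ X') ∧ (∀ τ ∈ X', τ⁻¹ ∈ X') ∧
      (Nat.card X' : ℝ) / (Nat.card (N ≃ₐ[ℚ] N) : ℝ) = (Nat.card X : ℝ) / (Nat.card G : ℝ) ∧
      ∀ n : ℕ, n ∉ T → ((Good N n ∧ FrobIn X' n) ↔ (n.Prime ∧
        ∃ (A : ValuationSubring Qb) (σ : Γ), A.LiesOverPrime n ∧ A.IsFrobeniusAt σ n ∧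
          π σ ∈ X)) := by
  obtain ⟨N, hNF, hGal, πN, hπN⟩ := exists_descent π hlev
  have hsurjN : Function.Surjective πN := fun g => by
    obtain ⟨σ, rfl⟩ := hsurj g
    exact ⟨_, hπN σ⟩
  obtain ⟨T, hT⟩ := exists_finset_good N
  refine ⟨N, hNF, hGal, πN ⁻¹' X, T, ?_, ?_, card_preimage_div πN hsurjN X, ?_⟩
  · intro g τ hτ
    show πN (g * τ * g⁻¹) ∈ X
    rw [map_mul, map_mul, map_inv]
    exact hconj _ _ hτ
  · intro τ hτ
    show πN τ⁻¹ ∈ X
    rw [map_inv]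
    exact hinv _ hτ
  · intro n hn
    constructor
    · rintro ⟨hgood, hF⟩
      obtain ⟨A, σ, hA, hσ, h⟩ := (frobIn_iff_frobInQb N hgood (πN ⁻¹' X)).mp hF
      refine ⟨hgood.1, A, σ, hA, hσ, ?_⟩
      rw [← hπN σ]
      exact h
    · rintro ⟨hp, A, σ, hA, hσ, h⟩
      have hgood := hT n hp hn
      refine ⟨hgood, (frobIn_iff_frobInQb N hgood (πN ⁻¹' X)).mpr ⟨A, σ, hA, hσ, ?_⟩⟩
      show πN _ ∈ X
      rw [hπN σ]
      exact h

/-- **`ChebLower` from the abstract lower bound.** -/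
theorem chebLower_of_lb
    (hLB : ∀ (L : Type) [Field L] [NumberField L] [IsGalois ℚ L], ChebLBStatement L) :
    ChebLower := by
  intro G _ φ hφ S X hconj hinv ε hε
  classical
  have hfin : Finite φ.range := LiftQbTransfer.finite_range φ hφ
  obtain ⟨N, hNF, hGal, X', T, hconj', hinv', hdens, hdict⟩ :=
    exists_dictionary φ.rangeRestrict φ.rangeRestrict_surjective (rangeRestrict_level φ hφ)
      (Subtype.val ⁻¹' X) (fun g x hx => hconj x.1 hx g.1 g.2) (fun x hx => hinv x.1 hx)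
  have hcard : Nat.card (Subtype.val ⁻¹' X : Set φ.range) =
      Set.ncard (X ∩ (φ.range : Set G)) := by
    rw [Nat.card_coe_set_eq, ← Set.ncard_image_of_injective _ Subtype.val_injective]
    congr 1
    ext x
    constructor
    · rintro ⟨y, hy, rfl⟩
      exact ⟨hy, y.2⟩
    · rintro ⟨hx, hxr⟩
      exact ⟨⟨x, hxr⟩, hx, rfl⟩
  rw [hcard] at hdens
  obtain ⟨C, hC⟩ := hLB N X' hconj' hinv' ε hε
  -- the two coefficient functions
  have hb₁ : ∀ n : ℕ, |(if Good N n ∧ FrobIn X' n then (1 : ℝ) else 0)| ≤ 1 := by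
    intro n
    split_ifs <;> simp
  have hb₂ : ∀ n : ℕ, |(if n ∈ FrobPrimes φ S X then (1 : ℝ) else 0)| ≤ 1 := by
    intro n
    split_ifs <;> simp
  have hagree : ∀ n : ℕ, n ∉ T ∪ S →
      (if Good N n ∧ FrobIn X' n then (1 : ℝ) else 0) =
        (if n ∈ FrobPrimes φ S X then (1 : ℝ) else 0) := by
    intro n hn
    rw [Finset.mem_union, not_or] at hn
    have hiff : (Good N n ∧ FrobIn X' n) ↔ n ∈ FrobPrimes φ S X := by
      rw [hdict n hn.1]
      constructor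
      · rintro ⟨hp, A, σ, hA, hσ, h⟩
        exact ⟨hp, hn.2, A, σ, hA, hσ, h⟩
      · rintro ⟨hp, -, A, σ, hA, hσ, h⟩
        exact ⟨hp, A, σ, hA, hσ, h⟩
    by_cases h : n ∈ FrobPrimes φ S X
    · rw [if_pos h, if_pos (hiff.mpr h)]
    · rw [if_neg h, if_neg (fun h' => h (hiff.mp h'))]
  refine ⟨C + (∑ n ∈ T ∪ S, |(if Good N n ∧ FrobIn X' n then (1 : ℝ) else 0) -
      (if n ∈ FrobPrimes φ S X then (1 : ℝ) else 0)|) + 1, fun s hs hs2 => ?_⟩
  have h1 := hC s hs hs2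
  rw [hdens] at h1
  have h2 := abs_DS_sub_le hb₁ hb₂ (T ∪ S) hagree hs
  have h3 := (abs_le.mp h2).2
  have hsum := (summable_DS hb₂ hs).hasSum
  have hev : ∀ᶠ P : Finset ℕ in Filter.atTop,
      DS (fun n => if n ∈ FrobPrimes φ S X then (1 : ℝ) else 0) s - 1 <
        ∑ n ∈ P, (if n ∈ FrobPrimes φ S X then (1 : ℝ) else 0) * (n : ℝ) ^ (-s) :=
    hsum.eventually (lt_mem_nhds (by unfold DS; linarith))
  obtain ⟨P, hP⟩ := hev.exists
  refine ⟨P.filter (fun p => p ∈ FrobPrimes φ S X), ?_, ?_⟩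
  · intro p hp
    rw [Finset.mem_filter] at hp
    exact ⟨hp.2.1, hp.2⟩
  · have e : ∑ p ∈ P.filter (fun p => p ∈ FrobPrimes φ S X), 1 / (p : ℝ) ^ s =
        ∑ n ∈ P, (if n ∈ FrobPrimes φ S X then (1 : ℝ) else 0) * (n : ℝ) ^ (-s) := by
      rw [Finset.sum_filter]
      refine Finset.sum_congr rfl fun n _ => ?_
      by_cases h : n ∈ FrobPrimes φ S X
      · rw [if_pos h, if_pos h, one_mul, Real.rpow_neg (Nat.cast_nonneg n), one_div]
      · rw [if_neg h, if_neg h, zero_mul]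
    rw [e]
    linarith

end Fermat.Agent.Lib.Chebotarev.ChebLowerOfLB
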