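import Mathlib
import Fermat.Agent.Lib.Chebotarev.FrobCount

/-!
# Frobenius counting series (core vocabulary of the Chebotarev brick)

`L/ℚ` finite Galois with group `G`.  For `τ ∈ G`, `frobCoef τ ℓ` is the number of primes of `L`
above a good prime `ℓ` whose Frobenius element is `τ` (and `0` at the other `ℓ`), and
`frobDS τ s = ∑ ℓ, frobCoef τ ℓ * ℓ ^ (-s)` is the attached Dirichlet-type series.
-/

set_option autoImplicit false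
set_option linter.unusedSectionVars false

open scoped NumberField Pointwise
open IsDedekindDomain

namespace Fermat.Agent.Lib.Chebotarev.CoreAlt

open Fermat.Agent.Lib.FrobDensity Fermat.Agent.Lib.Chebotarev

/-! ### Generalities on `DS` -/

/-- A finitely supported coefficient function has a bounded series. -/
lemma bddOn_DS_of_support {c : ℕ → ℝ} (T : Finset ℕ) (hc : ∀ n, n ∉ T → c n = 0) :
    BddOn (DS c) :=
  ⟨∑ n ∈ T, |c n|, fun _ hs _ => abs_DS_le_of_support T hc (by linarith)⟩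

lemma DS_nonneg {c : ℕ → ℝ} (hc : ∀ n, 0 ≤ c n) (s : ℝ) : 0 ≤ DS c s :=
  tsum_nonneg fun n => mul_nonneg (hc n) (Real.rpow_nonneg (Nat.cast_nonneg n) _)

lemma DS_mono {c₁ c₂ : ℕ → ℝ} {B₁ B₂ : ℝ} (h₁ : ∀ n, |c₁ n| ≤ B₁) (h₂ : ∀ n, |c₂ n| ≤ B₂)
    (h : ∀ n, c₁ n ≤ c₂ n) {s : ℝ} (hs : 1 < s) : DS c₁ s ≤ DS c₂ s :=
  (summable_DS h₁ hs).tsum_le_tsum
    (fun n => mul_le_mul_of_nonneg_right (h n) (Real.rpow_nonneg (Nat.cast_nonneg n) _))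
    (summable_DS h₂ hs)

/-- `log (1 / (s - 1))` is nonnegative on `(1, 2]`. -/
lemma log_scale_nonneg {s : ℝ} (hs : 1 < s) (hs2 : s ≤ 2) : 0 ≤ Real.log (1 / (s - 1)) := by
  apply Real.log_nonneg
  rw [le_div_iff₀ (by linarith)]
  linarith

/-! ### The Frobenius counting coefficients -/

variable {L : Type*} [Field L] [NumberField L] [IsGalois ℚ L]

open Classical in
/-- Number of primes above the good prime `ℓ` with Frobenius element `τ`; `0` if `ℓ` is not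
good. -/
noncomputable def frobCoef (τ : L ≃ₐ[ℚ] L) (ℓ : ℕ) : ℝ :=
  if Good L ℓ then (Nat.card (frobSet τ ℓ) : ℝ) else 0

/-- The Dirichlet-type series of `frobCoef τ`. -/
noncomputable def frobDS (τ : L ≃ₐ[ℚ] L) (s : ℝ) : ℝ := DS (frobCoef τ) s

lemma frobCoef_of_good {ℓ : ℕ} (hℓ : Good L ℓ) (τ : L ≃ₐ[ℚ] L) :
    frobCoef τ ℓ = (Nat.card (frobSet τ ℓ) : ℝ) := by
  unfold frobCoef
  rw [if_pos hℓ]

lemma frobCoef_of_not_good {ℓ : ℕ} (hℓ : ¬ Good L ℓ) (τ : L ≃ₐ[ℚ] L) : frobCoef τ ℓ = 0 := by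
  unfold frobCoef
  rw [if_neg hℓ]

lemma frobCoef_nonneg (τ : L ≃ₐ[ℚ] L) (ℓ : ℕ) : 0 ≤ frobCoef τ ℓ := by
  unfold frobCoef
  split_ifs
  · exact Nat.cast_nonneg _
  · exact le_rfl

lemma card_frobSet_le {ℓ : ℕ} (hℓ : Good L ℓ) (τ : L ≃ₐ[ℚ] L) :
    Nat.card (frobSet τ ℓ) ≤ Nat.card (L ≃ₐ[ℚ] L) := by
  classical
  let _ := Fintype.ofFinite (L ≃ₐ[ℚ] L)
  rw [← sum_orderOf_mul_card_frobSet hℓ]
  have h1 : orderOf τ * Nat.card (frobSet τ ℓ) ≤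
      ∑ τ : L ≃ₐ[ℚ] L, orderOf τ * Nat.card (frobSet τ ℓ) :=
    Finset.single_le_sum (f := fun τ : L ≃ₐ[ℚ] L => orderOf τ * Nat.card (frobSet τ ℓ))
      (fun _ _ => Nat.zero_le _) (Finset.mem_univ τ)
  exact (Nat.le_mul_of_pos_left _ (orderOf_pos τ)).trans h1

lemma frobCoef_le (τ : L ≃ₐ[ℚ] L) (ℓ : ℕ) : frobCoef τ ℓ ≤ (Nat.card (L ≃ₐ[ℚ] L) : ℝ) := by
  by_cases hℓ : Good L ℓ
  · rw [frobCoef_of_good hℓ]
    exact_mod_cast card_frobSet_le hℓ τ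
  · rw [frobCoef_of_not_good hℓ]
    exact Nat.cast_nonneg _

lemma abs_frobCoef_le (τ : L ≃ₐ[ℚ] L) (ℓ : ℕ) :
    |frobCoef τ ℓ| ≤ (Nat.card (L ≃ₐ[ℚ] L) : ℝ) := by
  rw [abs_of_nonneg (frobCoef_nonneg τ ℓ)]
  exact frobCoef_le τ ℓ

lemma frobDS_nonneg (τ : L ≃ₐ[ℚ] L) (s : ℝ) : 0 ≤ frobDS τ s :=
  DS_nonneg (frobCoef_nonneg τ) s

/-- The orders of the Frobenius elements weighted by their multiplicities sum to `#G`. -/
lemma sum_orderOf_mul_frobCoef [Fintype (L ≃ₐ[ℚ] L)] {ℓ : ℕ} (hℓ : Good L ℓ) :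
    ∑ τ : L ≃ₐ[ℚ] L, (orderOf τ : ℝ) * frobCoef τ ℓ = (Nat.card (L ≃ₐ[ℚ] L) : ℝ) := by
  rw [← sum_orderOf_mul_card_frobSet hℓ, Nat.cast_sum]
  refine Finset.sum_congr rfl fun τ _ => ?_
  rw [frobCoef_of_good hℓ, Nat.cast_mul]

end Fermat.Agent.Lib.Chebotarev.CoreAlt
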