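/-
The cyclic count of Chebotarev's crossing argument, in `Nat.card` form: in a finite cyclic
group whose order is divisible by `n ^ j` (`j ≥ 1`), at most the fraction `n / 2 ^ j` of the
elements has order not divisible by `n`.
-/
import Fermat.Agent.Lib.CycloCross

set_option autoImplicit false

namespace Fermat.Agent.Lib.Chebotarev

theorem cyclic_count {C : Type*} [Group C] [Finite C] [IsCyclic C] (n j : ℕ) (hj : 1 ≤ j)
    (h : n ^ j ∣ Nat.card C) :
    2 ^ j * Nat.card {a : C // ¬ n ∣ orderOf a} ≤ n * Nat.card C := by
  classical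
  have := Fintype.ofFinite C
  rw [Nat.card_eq_fintype_card] at h ⊢
  have h1 := CycloCross.two_pow_mul_card_not_dvd_orderOf_le (C := C) hj h
  rw [Nat.card_eq_fintype_card, Fintype.card_subtype]
  exact h1

end Fermat.Agent.Lib.Chebotarev
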