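import Mathlib
import Fermat.Agent.Lib.Chebotarev.PairDensity
import Fermat.Agent.Lib.Chebotarev.FrobCount
import Fermat.Agent.CFT.Analytic.NormResidue

/-!
# Cyclotomic step of Chebotarev up to inversion (brick (G2))

`L/ℚ` a finite Galois extension containing a primitive `m`-th root of unity `ζ`, `g ∈ Gal(L/ℚ)`
with `g ζ = ζ ^ c` and `⟨g⟩` acting faithfully on `ζ`, `E = L^⟨g⟩`.  Then

* `cyclo_degOne`: the degree-one primes of `E` of norm `≡ c` or `≡ c⁻¹ mod m` have Dirichlet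
  density `2 / ord g` (counted twice if `c = c⁻¹`), with a bounded error on `(1, 2]`;
* `card_frobSet_eq`: for a good prime `ℓ ∤ m`, the number of primes of `L` above `ℓ` with
  Frobenius element `g` is the number of primes of `E` of norm `ℓ` if `ℓ ≡ c mod m`, and `0`
  otherwise.

The analytic input is `PairDensity.pair_density` applied to the norm residue character
`NormResidue.normRes` restricted to its range; the lower bound for the kernel comes from the
primes of `L` of prime norm (`NormIndex.lower_bound`), and the class `c` is hit by a prime by the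
existence form of the Frobenius density theorem (`exists_prime_stabilizer_eq_zpowers`).
-/

set_option autoImplicit false
set_option linter.unusedSectionVars false

open scoped NumberField Pointwise
open IsDedekindDomain
open Fermat.Agent.S14.Analytic Fermat.Agent.CFT.Analytic.RayZeta
  Fermat.Agent.CFT.Analytic.RayClass Fermat.Agent.CFT.Analytic.NormIndex
  Fermat.Agent.Lib.FrobDensity Fermat.Agent.Lib.Chebotarev.PairDensity

namespace Fermat.Agent.Lib.Chebotarev.CycloDegOne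

/-! ## Roots of unity -/

section Roots

variable {L : Type*} [Field L] [NumberField L]

lemma pow_eq_pow_iff_cast {m : ℕ} [NeZero m] {ζ : L} (hζ : IsPrimitiveRoot ζ m) (a b : ℕ) :
    ζ ^ a = ζ ^ b ↔ (a : ZMod m) = (b : ZMod m) := by
  rw [ZMod.natCast_eq_natCast_iff, (hζ.isOfFinOrder (NeZero.ne m)).pow_eq_pow_iff_modEq,
    ← hζ.eq_orderOf]

lemma pow_apply_root {ζ : L} (σ : L ≃ₐ[ℚ] L) {a : ℕ} (h : σ ζ = ζ ^ a) (j : ℕ) :
    (σ ^ j) ζ = ζ ^ (a ^ j) := by
  induction j with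
  | zero => simp
  | succ j ih =>
    rw [pow_succ, AlgEquiv.mul_apply, h, map_pow, ih, ← pow_mul, pow_succ]

end Roots

/-! ## The range of a monoid homomorphism into a finite group -/

section Range

variable {N G : Type*} [Monoid N] [Group G] [Finite G]

lemma mem_closure_range_iff (φ : N →* G) (x : G) :
    x ∈ Subgroup.closure (Set.range φ) ↔ ∃ I, φ I = x := by
  have h1 : (Subgroup.closure (Set.range φ)).toSubmonoid = MonoidHom.mrange φ := by
    rw [Subgroup.closure_toSubmonoid_of_finite, ← MonoidHom.coe_mrange, Submonoid.closure_eq]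
  rw [← Subgroup.mem_toSubmonoid, h1, MonoidHom.mem_mrange]

end Range

/-! ## Coprimality to a rational integer -/

section Coprime

variable {K : Type*} [Field K] [NumberField K]

lemma mem_coprimeSubmonoid_of_coprime {m : ℕ} {I : Ideal (𝓞 K)} (hI : I ≠ ⊥)
    (h : (Ideal.absNorm I).Coprime m) :
    I ∈ coprimeSubmonoid K (Ideal.span {((m : ℕ) : 𝓞 K)}) := by
  refine ⟨hI, ?_⟩
  rw [Ideal.isCoprime_iff_exists]
  have hb := Nat.isCoprime_iff_coprime.mpr h
  obtain ⟨a, b, hab⟩ := hb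
  refine ⟨(a : 𝓞 K) * ((Ideal.absNorm I : ℕ) : 𝓞 K), I.mul_mem_left _ (Ideal.absNorm_mem I),
    (b : 𝓞 K) * ((m : ℕ) : 𝓞 K), Ideal.mul_mem_left _ _ (Ideal.mem_span_singleton_self _), ?_⟩
  have := congrArg (fun z : ℤ => (z : 𝓞 K)) hab
  simpa using this

lemma not_mem_coprimeSubmonoid_of_dvd {m ℓ : ℕ} (hℓm : ℓ ∣ m) (v : HeightOneSpectrum (𝓞 K))
    (hv : ((ℓ : ℕ) : 𝓞 K) ∈ v.asIdeal) :
    v.asIdeal ∉ coprimeSubmonoid K (Ideal.span {((m : ℕ) : 𝓞 K)}) := by
  rintro ⟨-, hcop⟩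
  rw [Ideal.isCoprime_iff_sup_eq] at hcop
  have hle : Ideal.span {((m : ℕ) : 𝓞 K)} ≤ v.asIdeal := by
    rw [Ideal.span_le, Set.singleton_subset_iff, SetLike.mem_coe]
    obtain ⟨k, rfl⟩ := hℓm
    rw [Nat.cast_mul]
    exact Ideal.mul_mem_right _ _ hv
  rw [sup_eq_left.mpr hle] at hcop
  exact v.isPrime.ne_top hcop

lemma span_natCast_ne_bot {m : ℕ} (hm : m ≠ 0) : Ideal.span {((m : ℕ) : 𝓞 K)} ≠ ⊥ := by
  rw [Ne, Ideal.span_singleton_eq_bot]
  exact_mod_cast hm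

end Coprime

section DegOne

variable {L : Type*} [Field L] [NumberField L]

/-- At a prime of norm `q`, the identity satisfies the Frobenius congruence `x ≡ x ^ q`. -/
lemma isFrob_one_absNorm (w : HeightOneSpectrum (𝓞 L)) :
    IsFrob (1 : L ≃ₐ[ℚ] L) w.asIdeal (Ideal.absNorm w.asIdeal) := by
  intro b
  rw [one_smul]
  have hmax : w.asIdeal.IsMaximal := w.isMaximal
  let _ : Field (𝓞 L ⧸ w.asIdeal) := Ideal.Quotient.field w.asIdeal
  have hfin : Finite (𝓞 L ⧸ w.asIdeal) := Ideal.finiteQuotientOfFreeOfNeBot _ w.ne_bot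
  let _ : Fintype (𝓞 L ⧸ w.asIdeal) := Fintype.ofFinite _
  have hcard : Fintype.card (𝓞 L ⧸ w.asIdeal) = Ideal.absNorm w.asIdeal := by
    rw [← Nat.card_eq_fintype_card, Ideal.absNorm_apply, Submodule.cardQuot_apply]
  have h := FiniteField.pow_card (Ideal.Quotient.mk w.asIdeal b)
  rw [hcard] at h
  rw [← Ideal.Quotient.eq_zero_iff_mem, map_sub, map_pow, h, sub_self]

/-- A prime of prime norm `p ∤ m` of a field containing the `m`-th roots of unity has
`p ≡ 1 mod m`. -/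
lemma natCast_eq_one_of_prime_norm {m : ℕ} [NeZero m] {ζ : L} (hζ : IsPrimitiveRoot ζ m)
    (w : HeightOneSpectrum (𝓞 L)) (hw : (Ideal.absNorm w.asIdeal).Prime)
    (hm : ¬ Ideal.absNorm w.asIdeal ∣ m) : ((Ideal.absNorm w.asIdeal : ℕ) : ZMod m) = 1 := by
  have hlo : w.asIdeal.LiesOver (ratIdeal (Ideal.absNorm w.asIdeal)) :=
    liesOver_of_absNorm_eq L hw w rfl
  have hP : w.asIdeal ∈ (ratIdeal (Ideal.absNorm w.asIdeal)).primesOver (𝓞 L) :=
    ⟨w.isPrime, hlo⟩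
  have h := (isFrob_one_absNorm w).apply_root hP hζ.pow_eq_one hm
  rw [AlgEquiv.one_apply] at h
  have h2 : ζ ^ (Ideal.absNorm w.asIdeal) = ζ ^ 1 := by rw [pow_one]; exact h.symm
  have h3 := (pow_eq_pow_iff_cast hζ _ _).mp h2
  rwa [Nat.cast_one] at h3

end DegOne

section Lower

variable (L : Type*) [Field L] [NumberField L] [IsGalois ℚ L]

/-- Finite-set form of the lower bound: the primes of `L^H` of norm `≡ 1 mod m` have density at
least `1 / |H|`. -/
lemma exists_finset_lower (H : Subgroup (L ≃ₐ[ℚ] L)) {m : ℕ} [NeZero m] {ζ : L}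
    (hζ : IsPrimitiveRoot ζ m) :
    ∃ C : ℝ, ∀ s : ℝ, 1 < s → s ≤ 2 → ∃ T : Finset (HeightOneSpectrum (𝓞 (fixedF L H))),
      (∀ v ∈ T, v.asIdeal ∈ coprimeSubmonoid (fixedF L H)
            (Ideal.span {((m : ℕ) : 𝓞 (fixedF L H))}) ∧
          ((Ideal.absNorm v.asIdeal : ℕ) : ZMod m) = 1) ∧
      Real.log (1 / (s - 1)) - C ≤
        (Nat.card H : ℝ) * ∑ v ∈ T, PrimeSums.term (fixedF L H) s v.asIdeal := by
  have hM : Ideal.span {((m : ℕ) : 𝓞 (fixedF L H))} ≠ ⊥ := span_natCast_ne_bot (NeZero.ne m)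
  obtain ⟨C, hC⟩ := lower_bound (fixedF L H) L (Ideal.span {((m : ℕ) : 𝓞 (fixedF L H))}) hM
  have hrank : Module.finrank (fixedF L H) L = Nat.card H :=
    IntermediateField.finrank_fixedField_eq_card H
  refine ⟨C, fun s hs1 hs2 => ?_⟩
  obtain ⟨T, hT, hle⟩ := hC s hs1 hs2
  rw [hrank] at hle
  refine ⟨T, fun v hv => ?_, hle⟩
  obtain ⟨hcop, w, hw, hcomap⟩ := hT v hv
  refine ⟨hcop, ?_⟩
  have hv' : w.under (𝓞 (fixedF L H)) = v := HeightOneSpectrum.ext hcomap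
  have hN : Ideal.absNorm v.asIdeal = Ideal.absNorm w.asIdeal := by
    rw [← hv']
    exact absNorm_under_eq_of_prime (fixedF L H) L w hw
  rw [hN]
  refine natCast_eq_one_of_prime_norm hζ w hw fun hdvd => ?_
  refine not_mem_coprimeSubmonoid_of_dvd hdvd v ?_ hcop
  rw [← hN]
  exact Ideal.absNorm_mem v.asIdeal

end Lower

section Exists

variable (L : Type*) [Field L] [NumberField L] [IsGalois ℚ L]

/-- There is a prime of `L^⟨g⟩` of prime norm `ℓ ∤ m` such that a power of `ℓ` is `≡ a mod m`,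
where `g ζ = ζ ^ a`. -/
lemma exists_prime_norm_pow {m : ℕ} [NeZero m] {ζ : L} (hζ : IsPrimitiveRoot ζ m)
    (g : L ≃ₐ[ℚ] L) {a : ℕ} (hc : g ζ = ζ ^ a) :
    ∃ (v : HeightOneSpectrum (𝓞 (fixedF L (Subgroup.zpowers g)))) (j : ℕ),
      (Ideal.absNorm v.asIdeal).Coprime m ∧
        ((Ideal.absNorm v.asIdeal : ℕ) : ZMod m) ^ j = (a : ZMod m) := by
  classical
  obtain ⟨T, hT⟩ := exists_finset_good L
  obtain ⟨ℓ, P, hℓ, hℓS, hPp, hPl, -, hst⟩ :=
    exists_prime_stabilizer_eq_zpowers L g (T ∪ m.primeFactors)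
  have hℓT : ℓ ∉ T := fun h => hℓS (Finset.mem_union_left _ h)
  have hℓm : ¬ ℓ ∣ m := fun h =>
    hℓS (Finset.mem_union_right _ (Nat.mem_primeFactors.mpr ⟨hℓ, h, NeZero.ne m⟩))
  have hgood : Good L ℓ := hT ℓ hℓ hℓT
  have hP : P ∈ (ratIdeal ℓ).primesOver (𝓞 L) := ⟨hPp, hPl⟩
  have hσ : IsFrob (frobOf ℓ P) P ℓ := isFrob_frobOf hℓ hP
  have hz : Subgroup.zpowers (frobOf ℓ P) = Subgroup.zpowers g := by
    rw [hσ.zpowers_eq_stabilizer hgood hP, hst]
  have hg : g ∈ Subgroup.zpowers (frobOf ℓ P) := by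
    rw [hz]
    exact Subgroup.mem_zpowers g
  obtain ⟨j, hj : frobOf ℓ P ^ j = g⟩ := mem_powers_iff_mem_zpowers.mpr hg
  have hroot : (frobOf ℓ P) ζ = ζ ^ ℓ := hσ.apply_root hP hζ.pow_eq_one hℓm
  have h1 : g ζ = ζ ^ (ℓ ^ j) := by
    rw [← hj]
    exact pow_apply_root _ hroot j
  have h2 : ζ ^ (ℓ ^ j) = ζ ^ a := by rw [← h1, hc]
  have h3 := (pow_eq_pow_iff_cast hζ _ _).mp h2
  have hN : Ideal.absNorm (P.under (𝓞 (fixedF L (Subgroup.zpowers g)))) = ℓ :=
    (absNorm_under_eq_iff (Subgroup.zpowers g) hgood P hP).mpr hst.le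
  refine ⟨⟨P.under (𝓞 (fixedF L (Subgroup.zpowers g))), inferInstance,
    under_ne_bot _ hℓ P hP⟩, j, ?_, ?_⟩
  · rw [hN]
    exact (Nat.Prime.coprime_iff_not_dvd hℓ).mpr hℓm
  · rw [hN]
    rw [Nat.cast_pow] at h3
    exact h3

/-- Faithfulness on the `m`-th roots of unity: the order of `g` is the order of its cyclotomic
character. -/
lemma orderOf_eq_of_faithful {m : ℕ} [NeZero m] {ζ : L} (hζ : IsPrimitiveRoot ζ m)
    (g : L ≃ₐ[ℚ] L) (c : (ZMod m)ˣ) (hc : g ζ = ζ ^ (c : ZMod m).val)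
    (hfaith : ∀ k : ℕ, (g ^ k) ζ = ζ → g ^ k = 1) : orderOf c = orderOf g := by
  rw [orderOf_eq_orderOf_iff]
  intro k
  have h1 : (g ^ k) ζ = ζ ^ ((c : ZMod m).val ^ k) := pow_apply_root g hc k
  have h2 : (g ^ k) ζ = ζ ↔ c ^ k = 1 := by
    rw [h1]
    have e : ζ ^ ((c : ZMod m).val ^ k) = ζ ↔ ζ ^ ((c : ZMod m).val ^ k) = ζ ^ 1 := by
      rw [pow_one]
    rw [e, pow_eq_pow_iff_cast hζ, Nat.cast_pow, ZMod.natCast_zmod_val, Nat.cast_one,
      ← Units.val_pow_eq_pow_val, ← Units.val_one, Units.val_inj]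
  constructor
  · intro h
    exact hfaith k (h2.mpr h)
  · intro h
    refine h2.mp ?_
    rw [h]
    rfl

end Exists

section Regroup

variable (F : Type*) [Field F] [NumberField F]

/-- Regrouping a weighted degree-one prime sum by the norm. -/
lemma tsum_mul_ptermOne (f : HeightOneSpectrum (𝓞 F) → ℝ) (κ : ℕ → ℝ) {B : ℝ}
    (hf : ∀ v, |f v| ≤ B)
    (hκ : ∀ v : HeightOneSpectrum (𝓞 F), (Ideal.absNorm v.asIdeal).Prime →
      f v = κ (Ideal.absNorm v.asIdeal)) {s : ℝ} (hs : 1 < s) :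
    ∑' v, f v * ptermOne F s v = DS (fun n => κ n * degOneCount F n) s := by
  have hfin : ∀ n, Finite {w : HeightOneSpectrum (𝓞 F) // Ideal.absNorm w.asIdeal = n} :=
    finite_norm_eq F
  have hsumm : Summable (fun v => f v * ptermOne F s v) := by
    refine Summable.of_norm_bounded ((summable_ptermOne F hs).mul_left B) fun v => ?_
    rw [Real.norm_eq_abs, abs_mul, abs_of_nonneg (ptermOne_nonneg F s v)]
    exact mul_le_mul_of_nonneg_right (hf v) (ptermOne_nonneg F s v)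
  have e1 := (Equiv.sigmaFiberEquiv
      (fun w : HeightOneSpectrum (𝓞 F) => Ideal.absNorm w.asIdeal)).tsum_eq
      (fun v => f v * ptermOne F s v)
  have hsig := (Equiv.sigmaFiberEquiv
      (fun w : HeightOneSpectrum (𝓞 F) => Ideal.absNorm w.asIdeal)).summable_iff.mpr hsumm
  rw [Function.comp_def] at hsig
  unfold DS
  rw [← e1, Summable.tsum_sigma' (fun n => Summable.of_finite) hsig]
  refine tsum_congr fun n => ?_
  have h : ∀ w : {w : HeightOneSpectrum (𝓞 F) // Ideal.absNorm w.asIdeal = n},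
      f ((Equiv.sigmaFiberEquiv
        (fun w : HeightOneSpectrum (𝓞 F) => Ideal.absNorm w.asIdeal)) ⟨n, w⟩) *
      ptermOne F s ((Equiv.sigmaFiberEquiv
        (fun w : HeightOneSpectrum (𝓞 F) => Ideal.absNorm w.asIdeal)) ⟨n, w⟩) =
        κ n * (if n.Prime then (n : ℝ) ^ (-s) else 0) := by
    intro w
    show f w.1 * ptermOne F s w.1 = _
    rw [ptermOne_of_norm_eq F s n w.1 w.2]
    by_cases hp : n.Prime
    · rw [if_pos hp, hκ w.1 (by rw [w.2]; exact hp), w.2]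
    · rw [if_neg hp, mul_zero, mul_zero]
  rw [tsum_congr h, tsum_const, nsmul_eq_mul]
  unfold degOneCount
  beta_reduce
  by_cases hp : n.Prime
  · rw [if_pos hp, if_pos hp]
    ring
  · rw [if_neg hp, if_neg hp]
    ring

/-- The primes of non-prime norm contribute a bounded amount. -/
lemma exists_tsum_ptermTwo_le : ∃ C : ℝ, ∀ s : ℝ, 1 < s → ∑' w, ptermTwo F s w ≤ C := by
  classical
  obtain ⟨C₂, hC₂⟩ := PrimeSums.nonprime_norm_bound F
  refine ⟨C₂, fun s hs1 => ?_⟩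
  refine Real.tsum_le_of_sum_le (ptermTwo_nonneg F s) fun T => ?_
  have h : ∑ w ∈ T, ptermTwo F s w =
      ∑ w ∈ T.filter (fun w => ¬ (Ideal.absNorm w.asIdeal).Prime),
        ((Ideal.absNorm w.asIdeal : ℕ) : ℝ) ^ (-s) := by
    rw [Finset.sum_filter]
    refine Finset.sum_congr rfl fun w _ => ?_
    unfold ptermTwo
    split_ifs <;> rfl
  rw [h]
  exact hC₂ s hs1 _ fun w hw => (Finset.mem_filter.mp hw).2

end Regroup

lemma not_dvd_of_natCast_eq_unit {m ℓ : ℕ} (hℓ : ℓ.Prime) (u : (ZMod m)ˣ)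
    (h : ((ℓ : ℕ) : ZMod m) = (u : ZMod m)) : ¬ ℓ ∣ m := by
  have h1 : IsUnit ((ℓ : ℕ) : ZMod m) := h ▸ u.isUnit
  exact (Nat.Prime.coprime_iff_not_dvd hℓ).mp ((ZMod.isUnit_iff_coprime ℓ m).mp h1)

section Core

variable {K : Type*} [Field K] [NumberField K]

/-- **Abstract core.** `φ` is a norm-residue character mod `m` on the ideals of `K` prime to `m`,
trivial on the ray mod `m∞`; the class `c` of order `n` is (a power of) the norm residue of some
prime, and the primes of norm `≡ 1 mod m` have lower density at least `1 / n`.  Then the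
degree-one primes of norm `≡ c` or `≡ c⁻¹ mod m` have density `2 / n`. -/
theorem pair_degOne_aux (m : ℕ) [NeZero m] (n : ℕ) (c : (ZMod m)ˣ) (hn : orderOf c = n)
    (φ : coprimeSubmonoid K (Ideal.span {((m : ℕ) : 𝓞 K)}) →* (ZMod m)ˣ)
    (hφ : ∀ I : coprimeSubmonoid K (Ideal.span {((m : ℕ) : 𝓞 K)}),
      ((φ I : (ZMod m)ˣ) : ZMod m) = ((Ideal.absNorm (I : Ideal (𝓞 K)) : ℕ) : ZMod m))
    (hray : ∀ (α : 𝓞 K) (hα : RayOne K (Ideal.span {((m : ℕ) : 𝓞 K)}) α),
      φ ⟨Ideal.span {α}, span_mem_coprimeSubmonoid K hα⟩ = 1)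
    (hex : ∃ (v : HeightOneSpectrum (𝓞 K)) (j : ℕ), (Ideal.absNorm v.asIdeal).Coprime m ∧
      ((Ideal.absNorm v.asIdeal : ℕ) : ZMod m) ^ j = (c : ZMod m))
    (hlow : ∃ C : ℝ, ∀ s : ℝ, 1 < s → s ≤ 2 → ∃ T : Finset (HeightOneSpectrum (𝓞 K)),
      (∀ v ∈ T, v.asIdeal ∈ coprimeSubmonoid K (Ideal.span {((m : ℕ) : 𝓞 K)}) ∧
          ((Ideal.absNorm v.asIdeal : ℕ) : ZMod m) = 1) ∧
      Real.log (1 / (s - 1)) - C ≤ (n : ℝ) * ∑ v ∈ T, PrimeSums.term K s v.asIdeal)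
    (κ : ℕ → ℝ)
    (hκeq : ∀ ℓ : ℕ, κ ℓ = (if ((ℓ : ℕ) : ZMod m) = (c : ZMod m) then (1 : ℝ) else 0) +
          (if ((ℓ : ℕ) : ZMod m) = ((c⁻¹ : (ZMod m)ˣ) : ZMod m) then (1 : ℝ) else 0)) :
    BddOn (fun s => DS (fun ℓ => κ ℓ * degOneCount K ℓ) s -
      2 / (n : ℝ) * Real.log (1 / (s - 1))) := by
  classical
  have hM : Ideal.span {((m : ℕ) : 𝓞 K)} ≠ ⊥ := span_natCast_ne_bot (NeZero.ne m)
  have hn0 : 0 < n := hn ▸ orderOf_pos c
  have hnpos : (0 : ℝ) < (n : ℝ) := by exact_mod_cast hn0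
  -- the range of `φ` as a subgroup
  let H : Subgroup (ZMod m)ˣ := Subgroup.closure (Set.range φ)
  have hmemH : ∀ x, x ∈ H ↔ ∃ I, φ I = x := mem_closure_range_iff φ
  let φ' : coprimeSubmonoid K (Ideal.span {((m : ℕ) : 𝓞 K)}) →* H :=
    φ.codRestrict H (fun I => (hmemH _).mpr ⟨I, rfl⟩)
  have hφ' : ∀ I, ((φ' I : H) : (ZMod m)ˣ) = φ I := fun I => rfl
  have hsurj : Function.Surjective φ' := by
    rintro ⟨x, hx⟩
    obtain ⟨I, rfl⟩ := (hmemH x).mp hx
    exact ⟨I, Subtype.ext rfl⟩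
  have hray' : ∀ (α : 𝓞 K) (hα : RayOne K (Ideal.span {((m : ℕ) : 𝓞 K)}) α),
      φ' ⟨Ideal.span {α}, span_mem_coprimeSubmonoid K hα⟩ = 1 :=
    fun α hα => Subtype.ext (hray α hα)
  -- `c` lies in the range
  have hcH : c ∈ H := by
    obtain ⟨v, j, hcop, hpow⟩ := hex
    have hv : v.asIdeal ∈ coprimeSubmonoid K (Ideal.span {((m : ℕ) : 𝓞 K)}) :=
      mem_coprimeSubmonoid_of_coprime v.ne_bot hcop
    rw [hmemH]
    refine ⟨⟨v.asIdeal, hv⟩ ^ j, ?_⟩
    rw [map_pow]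
    apply Units.ext
    rw [Units.val_pow_eq_pow_val, hφ]
    exact hpow
  -- the class of a prime
  have hiff : ∀ (u : (ZMod m)ˣ) (hu : u ∈ H) (v : HeightOneSpectrum (𝓞 K))
      (hv : v.asIdeal ∈ coprimeSubmonoid K (Ideal.span {((m : ℕ) : 𝓞 K)})),
      φ' ⟨v.asIdeal, hv⟩ = ⟨u, hu⟩ ↔
        ((Ideal.absNorm v.asIdeal : ℕ) : ZMod m) = (u : ZMod m) := by
    intro u hu v hv
    constructor
    · intro h
      have h1 : φ ⟨v.asIdeal, hv⟩ = u := by
        rw [← hφ', h]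
      rw [← h1, hφ]
    · intro h
      apply Subtype.ext
      apply Units.ext
      rw [hφ', hφ]
      exact h
  have hone : ∀ (v : HeightOneSpectrum (𝓞 K))
      (hv : v.asIdeal ∈ coprimeSubmonoid K (Ideal.span {((m : ℕ) : 𝓞 K)})),
      ((Ideal.absNorm v.asIdeal : ℕ) : ZMod m) = 1 → φ' ⟨v.asIdeal, hv⟩ = 1 := by
    intro v hv h1
    refine (hiff 1 H.one_mem v hv).mpr ?_
    rw [h1, Units.val_one]
  -- the cardinality of the range
  have hcardH : Nat.card H = n := by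
    have hdvd : n ∣ Nat.card H := hn ▸ Subgroup.orderOf_dvd_natCard H hcH
    have hpos : 0 < Nat.card H := Nat.card_pos
    refine le_antisymm ?_ (Nat.le_of_dvd hpos hdvd)
    by_contra hlt
    rw [not_le] at hlt
    obtain ⟨C1, hC1⟩ := hlow
    obtain ⟨C2, hC2⟩ := upper_bound K hM φ' hsurj hray'
    set t : ℝ := |C1| * (Nat.card H : ℝ) + (n : ℝ) * |C2| + 1 with ht
    have ht0 : 0 ≤ t := by positivity
    have hexp : Real.exp (-t) ≤ 1 := Real.exp_le_one_iff.mpr (by linarith)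
    have hs1 : (1 : ℝ) < 1 + Real.exp (-t) := by linarith [Real.exp_pos (-t)]
    have hs2 : 1 + Real.exp (-t) ≤ 2 := by linarith
    have hlog : Real.log (1 / (1 + Real.exp (-t) - 1)) = t := by
      rw [add_sub_cancel_left, one_div, ← Real.exp_neg, neg_neg, Real.log_exp]
    obtain ⟨T, hT, hle⟩ := hC1 _ hs1 hs2
    have hub := hC2 _ hs1 hs2 T (fun v hv => ⟨(hT v hv).1, hone v _ (hT v hv).2⟩)
    rw [hlog] at hle hub
    set S : ℝ := ∑ v ∈ T, PrimeSums.term K (1 + Real.exp (-t)) v.asIdeal with hS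
    have hN : (n : ℝ) + 1 ≤ (Nat.card H : ℝ) := by exact_mod_cast hlt
    have hN0 : (0 : ℝ) ≤ (Nat.card H : ℝ) := Nat.cast_nonneg _
    have h1 : (t - C1) * (Nat.card H : ℝ) ≤ (n : ℝ) * S * (Nat.card H : ℝ) :=
      mul_le_mul_of_nonneg_right hle hN0
    have h2 : (n : ℝ) * ((Nat.card H : ℝ) * S) ≤ (n : ℝ) * (t + C2) :=
      mul_le_mul_of_nonneg_left hub hnpos.le
    have h3 : C1 * (Nat.card H : ℝ) ≤ |C1| * (Nat.card H : ℝ) :=
      mul_le_mul_of_nonneg_right (le_abs_self C1) hN0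
    have h4 : (n : ℝ) * C2 ≤ (n : ℝ) * |C2| :=
      mul_le_mul_of_nonneg_left (le_abs_self C2) hnpos.le
    have h5 : t * ((n : ℝ) + 1) ≤ t * (Nat.card H : ℝ) := mul_le_mul_of_nonneg_left hN ht0
    nlinarith
  -- the lower bound for the kernel
  have hsummable : ∀ s : ℝ, 1 < s → Summable
      (fun v : HeightOneSpectrum (𝓞 K) => ind φ' 1 v * PrimeSums.term K s v.asIdeal) := by
    intro s hs
    refine Summable.of_nonneg_of_le
      (fun v => mul_nonneg (ind_nonneg _ _ _) (PrimeSums.term_nonneg K s _)) (fun v => ?_)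
      (PrimeSums.summable_primes K hs)
    exact mul_le_of_le_one_left (PrimeSums.term_nonneg K s _) (ind_le_one _ _ _)
  have hLB : ∃ C : ℝ, ∀ s : ℝ, 1 < s → s ≤ 2 →
      Real.log (1 / (s - 1)) / (Nat.card H : ℝ) - C ≤
        ∑' v : HeightOneSpectrum (𝓞 K), ind φ' 1 v * PrimeSums.term K s v.asIdeal := by
    obtain ⟨C1, hC1⟩ := hlow
    refine ⟨C1 / (n : ℝ), fun s hs1 hs2 => ?_⟩
    obtain ⟨T, hT, hle⟩ := hC1 s hs1 hs2
    have h1 : ∑ v ∈ T, PrimeSums.term K s v.asIdeal =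
        ∑ v ∈ T, ind φ' 1 v * PrimeSums.term K s v.asIdeal := by
      refine Finset.sum_congr rfl fun v hv => ?_
      rw [ind_of_mem φ' 1 (hT v hv).1, if_pos (hone v _ (hT v hv).2), one_mul]
    have h2 := (hsummable s hs1).sum_le_tsum T
      (fun v _ => mul_nonneg (ind_nonneg _ _ _) (PrimeSums.term_nonneg K s _))
    rw [hcardH, div_sub_div_same, div_le_iff₀ hnpos]
    rw [h1] at hle
    have h3 := mul_le_mul_of_nonneg_left h2 hnpos.le
    linarith
  obtain ⟨C, hC⟩ := pair_density hM φ' hsurj hray' hLB ⟨c, hcH⟩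
  obtain ⟨C₂, hC₂⟩ := exists_tsum_ptermTwo_le K
  -- regrouping
  set f : HeightOneSpectrum (𝓞 K) → ℝ := fun v =>
    ind φ' ⟨c, hcH⟩ v + ind φ' (⟨c, hcH⟩ : H)⁻¹ v with hf
  have hf0 : ∀ v, 0 ≤ f v := fun v => add_nonneg (ind_nonneg _ _ _) (ind_nonneg _ _ _)
  have hf2 : ∀ v, f v ≤ 2 := fun v => by
    have h1 := ind_le_one φ' ⟨c, hcH⟩ v
    have h2 := ind_le_one φ' (⟨c, hcH⟩ : H)⁻¹ v
    simp only [hf]
    linarith
  have hfabs : ∀ v, |f v| ≤ 2 := fun v => by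
    rw [abs_of_nonneg (hf0 v)]
    exact hf2 v
  have hκ : ∀ v : HeightOneSpectrum (𝓞 K), (Ideal.absNorm v.asIdeal).Prime →
      f v = κ (Ideal.absNorm v.asIdeal) := by
    intro v hv
    rw [hκeq]
    by_cases hdvd : Ideal.absNorm v.asIdeal ∣ m
    · have hnot : v.asIdeal ∉ coprimeSubmonoid K (Ideal.span {((m : ℕ) : 𝓞 K)}) :=
        not_mem_coprimeSubmonoid_of_dvd hdvd v (Ideal.absNorm_mem v.asIdeal)
      simp only [hf]
      rw [ind_of_not_mem φ' _ hnot, ind_of_not_mem φ' _ hnot,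
        if_neg (fun h => not_dvd_of_natCast_eq_unit hv c h hdvd),
        if_neg (fun h => not_dvd_of_natCast_eq_unit hv c⁻¹ h hdvd)]
    · have hmem : v.asIdeal ∈ coprimeSubmonoid K (Ideal.span {((m : ℕ) : 𝓞 K)}) :=
        mem_coprimeSubmonoid_of_coprime v.ne_bot ((Nat.Prime.coprime_iff_not_dvd hv).mpr hdvd)
      simp only [hf]
      rw [ind_of_mem φ' _ hmem, ind_of_mem φ' _ hmem]
      have e1 := hiff c hcH v hmem
      have e2 := hiff c⁻¹ (H.inv_mem hcH) v hmem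
      have e3 : ((⟨c, hcH⟩ : H)⁻¹ : H) = ⟨c⁻¹, H.inv_mem hcH⟩ := rfl
      rw [e3]
      by_cases h1 : ((Ideal.absNorm v.asIdeal : ℕ) : ZMod m) = (c : ZMod m)
      · rw [if_pos (e1.mpr h1), if_pos h1]
        by_cases h2 : ((Ideal.absNorm v.asIdeal : ℕ) : ZMod m) = ((c⁻¹ : (ZMod m)ˣ) : ZMod m)
        · rw [if_pos (e2.mpr h2), if_pos h2]
        · rw [if_neg (fun h => h2 (e2.mp h)), if_neg h2]
      · rw [if_neg (fun h => h1 (e1.mp h)), if_neg h1]
        by_cases h2 : ((Ideal.absNorm v.asIdeal : ℕ) : ZMod m) = ((c⁻¹ : (ZMod m)ˣ) : ZMod m)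
        · rw [if_pos (e2.mpr h2), if_pos h2]
        · rw [if_neg (fun h => h2 (e2.mp h)), if_neg h2]
  refine ⟨C + 2 * C₂, fun s hs1 hs2 => ?_⟩
  have hmain := hC s hs1 hs2
  rw [hcardH] at hmain
  have hreg := tsum_mul_ptermOne K f κ hfabs hκ hs1
  have hsum1 : Summable (fun v => f v * ptermOne K s v) := by
    refine Summable.of_nonneg_of_le (fun v => mul_nonneg (hf0 v) (ptermOne_nonneg K s v))
      (fun v => ?_) ((summable_ptermOne K hs1).mul_left 2)
    exact mul_le_mul_of_nonneg_right (hf2 v) (ptermOne_nonneg K s v)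
  have hsum2 : Summable (fun v => f v * ptermTwo K s v) := by
    refine Summable.of_nonneg_of_le (fun v => mul_nonneg (hf0 v) (ptermTwo_nonneg K s v))
      (fun v => ?_) ((summable_ptermTwo K hs1).mul_left 2)
    exact mul_le_mul_of_nonneg_right (hf2 v) (ptermTwo_nonneg K s v)
  have hsplit : ∑' v : HeightOneSpectrum (𝓞 K), f v * PrimeSums.term K s v.asIdeal =
      ∑' v, f v * ptermOne K s v + ∑' v, f v * ptermTwo K s v := by
    rw [← hsum1.tsum_add hsum2]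
    refine tsum_congr fun v => ?_
    rw [← mul_add, ptermOne_add_ptermTwo]
    rfl
  have h2nn : 0 ≤ ∑' v, f v * ptermTwo K s v :=
    tsum_nonneg fun v => mul_nonneg (hf0 v) (ptermTwo_nonneg K s v)
  have h2le : ∑' v, f v * ptermTwo K s v ≤ 2 * C₂ := by
    have h1 : ∑' v, f v * ptermTwo K s v ≤ ∑' v, 2 * ptermTwo K s v :=
      hsum2.tsum_le_tsum (fun v => mul_le_mul_of_nonneg_right (hf2 v) (ptermTwo_nonneg K s v))
        ((summable_ptermTwo K hs1).mul_left 2)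
    rw [tsum_mul_left] at h1
    have := hC₂ s hs1
    linarith
  have hmain' : |∑' v : HeightOneSpectrum (𝓞 K), f v * PrimeSums.term K s v.asIdeal -
      2 / (n : ℝ) * Real.log (1 / (s - 1))| ≤ C := hmain
  rw [hsplit, hreg] at hmain'
  have h := abs_le.mp hmain'
  beta_reduce
  rw [abs_le]
  constructor <;> linarith [h.1, h.2]

/-- **Abstract core**, explicit form. -/
theorem pair_degOne (m : ℕ) [NeZero m] (n : ℕ) (c : (ZMod m)ˣ) (hn : orderOf c = n)
    (φ : coprimeSubmonoid K (Ideal.span {((m : ℕ) : 𝓞 K)}) →* (ZMod m)ˣ)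
    (hφ : ∀ I : coprimeSubmonoid K (Ideal.span {((m : ℕ) : 𝓞 K)}),
      ((φ I : (ZMod m)ˣ) : ZMod m) = ((Ideal.absNorm (I : Ideal (𝓞 K)) : ℕ) : ZMod m))
    (hray : ∀ (α : 𝓞 K) (hα : RayOne K (Ideal.span {((m : ℕ) : 𝓞 K)}) α),
      φ ⟨Ideal.span {α}, span_mem_coprimeSubmonoid K hα⟩ = 1)
    (hex : ∃ (v : HeightOneSpectrum (𝓞 K)) (j : ℕ), (Ideal.absNorm v.asIdeal).Coprime m ∧
      ((Ideal.absNorm v.asIdeal : ℕ) : ZMod m) ^ j = (c : ZMod m))
    (hlow : ∃ C : ℝ, ∀ s : ℝ, 1 < s → s ≤ 2 → ∃ T : Finset (HeightOneSpectrum (𝓞 K)),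
      (∀ v ∈ T, v.asIdeal ∈ coprimeSubmonoid K (Ideal.span {((m : ℕ) : 𝓞 K)}) ∧
          ((Ideal.absNorm v.asIdeal : ℕ) : ZMod m) = 1) ∧
      Real.log (1 / (s - 1)) - C ≤ (n : ℝ) * ∑ v ∈ T, PrimeSums.term K s v.asIdeal) :
    BddOn (fun s => DS (fun ℓ =>
        ((if ((ℓ : ℕ) : ZMod m) = (c : ZMod m) then (1 : ℝ) else 0) +
          (if ((ℓ : ℕ) : ZMod m) = ((c⁻¹ : (ZMod m)ˣ) : ZMod m) then (1 : ℝ) else 0)) *
          degOneCount K ℓ) s - 2 / (n : ℝ) * Real.log (1 / (s - 1))) :=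
  pair_degOne_aux m n c hn φ hφ hray hex hlow _ (fun _ => rfl)

end Core

/-! ## The exits -/

section Main

variable (L : Type*) [Field L] [NumberField L] [IsGalois ℚ L]

/-- **Cyclotomic step (G2).** -/
theorem cyclo_degOne (m : ℕ) [NeZero m] (ζ : L) (hζ : IsPrimitiveRoot ζ m) (g : L ≃ₐ[ℚ] L)
    (c : (ZMod m)ˣ) (hc : g ζ = ζ ^ (c : ZMod m).val)
    (hfaith : ∀ k : ℕ, (g ^ k) ζ = ζ → g ^ k = 1) :
    BddOn (fun s => DS (fun ℓ =>
        ((if ((ℓ : ℕ) : ZMod m) = (c : ZMod m) then (1 : ℝ) else 0) +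
          (if ((ℓ : ℕ) : ZMod m) = ((c⁻¹ : (ZMod m)ˣ) : ZMod m) then (1 : ℝ) else 0)) *
          degOneCount (fixedF L (Subgroup.zpowers g)) ℓ) s -
      2 / (orderOf g : ℝ) * Real.log (1 / (s - 1))) := by
  have hn : orderOf c = orderOf g := orderOf_eq_of_faithful L hζ g c hc hfaith
  have hex := exists_prime_norm_pow L hζ g hc
  rw [ZMod.natCast_zmod_val] at hex
  have hlow := exists_finset_lower L (Subgroup.zpowers g) hζ
  rw [Nat.card_zpowers] at hlow
  exact pair_degOne m (orderOf g) c hn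
    (Fermat.Agent.CFT.Analytic.NormResidue.normRes (E := fixedF L (Subgroup.zpowers g)) m)
    (Fermat.Agent.CFT.Analytic.NormResidue.normRes_coe (E := fixedF L (Subgroup.zpowers g)) m)
    (Fermat.Agent.CFT.Analytic.NormResidue.normRes_rayOne (E := fixedF L (Subgroup.zpowers g)) m)
    hex hlow

/-- **Frobenius count.** For a good prime `ℓ ∤ m`, the primes of `L` above `ℓ` with Frobenius
element `g` correspond to the primes of `L^⟨g⟩` of norm `ℓ` when `ℓ ≡ c mod m`, and there are none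
otherwise. -/
theorem card_frobSet_eq (m : ℕ) [NeZero m] (ζ : L) (hζ : IsPrimitiveRoot ζ m) (g : L ≃ₐ[ℚ] L)
    (c : (ZMod m)ˣ) (hc : g ζ = ζ ^ (c : ZMod m).val)
    (hfaith : ∀ k : ℕ, (g ^ k) ζ = ζ → g ^ k = 1) {ℓ : ℕ} (hℓ : Good L ℓ) (hm : ¬ ℓ ∣ m) :
    (Nat.card (frobSet g ℓ) : ℝ) =
      if ((ℓ : ℕ) : ZMod m) = (c : ZMod m) then
        degOneCount (fixedF L (Subgroup.zpowers g)) ℓ else 0 := by
  have hU : Nat.card (Subgroup.zpowers g) = orderOf g := Nat.card_zpowers g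
  have hNpos : 0 < orderOf g := orderOf_pos g
  by_cases hcl : ((ℓ : ℕ) : ZMod m) = (c : ZMod m)
  · rw [if_pos hcl]
    have hgζ : g ζ = ζ ^ ℓ := by
      rw [hc, pow_eq_pow_iff_cast hζ, ZMod.natCast_zmod_val, hcl]
    have hset : frobSet g ℓ = primesWithin (Subgroup.zpowers g) ℓ := by
      ext P
      constructor
      · rintro ⟨hP, hF⟩
        exact ⟨hP, (hF.zpowers_eq_stabilizer hℓ hP).ge⟩
      · rintro ⟨hP, hst⟩
        refine ⟨hP, ?_⟩
        have hσ : IsFrob (frobOf ℓ P) P ℓ := isFrob_frobOf hℓ.1 hP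
        have hmem : frobOf ℓ P ∈ Subgroup.zpowers g := by
          apply hst
          rw [← hσ.zpowers_eq_stabilizer hℓ hP]
          exact Subgroup.mem_zpowers _
        obtain ⟨k, hk : g ^ k = frobOf ℓ P⟩ := mem_powers_iff_mem_zpowers.mpr hmem
        have hroot : (frobOf ℓ P) ζ = ζ ^ ℓ := hσ.apply_root hP hζ.pow_eq_one hm
        have h1 : (g ^ (orderOf g - 1 + k)) ζ = ζ := by
          rw [pow_add, AlgEquiv.mul_apply, hk, hroot, ← hgζ, ← AlgEquiv.mul_apply, ← pow_succ,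
            Nat.sub_add_cancel hNpos, pow_orderOf_eq_one, AlgEquiv.one_apply]
        have h2 := hfaith _ h1
        have h3 : g ^ (orderOf g - 1) * g = 1 := by
          rw [← pow_succ, Nat.sub_add_cancel hNpos, pow_orderOf_eq_one]
        have h4 : g ^ k = g := by
          rw [pow_add] at h2
          exact mul_left_cancel (h2.trans h3.symm)
        rw [← h4, hk]
        exact hσ
    have hkc := key_count (Subgroup.zpowers g) hℓ
    rw [hU] at hkc
    rw [degOneCount, if_pos hℓ.1, hset]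
    by_cases h0 : Nat.card (primesWithin (Subgroup.zpowers g) ℓ) = 0
    · rw [h0, mul_zero] at hkc
      have h5 : Nat.card {w : HeightOneSpectrum (𝓞 (fixedF L (Subgroup.zpowers g))) //
          Ideal.absNorm w.asIdeal = ℓ} = 0 :=
        (Nat.mul_eq_zero.mp hkc).resolve_left hNpos.ne'
      rw [h0, h5]
    · obtain ⟨⟨P, hPmem⟩⟩ := (Nat.card_ne_zero.mp h0).1
      have hPf : P ∈ frobSet g ℓ := by
        rw [hset]
        exact hPmem
      have hord := hPf.2.orderOf_eq hℓ hPf.1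
      rw [← hord] at hkc
      have h5 := Nat.eq_of_mul_eq_mul_left hNpos hkc
      rw [h5]
  · rw [if_neg hcl]
    have hempty : frobSet g ℓ = ∅ := by
      ext P
      simp only [Set.mem_empty_iff_false, iff_false]
      rintro ⟨hP, hF⟩
      apply hcl
      have h1 := hF.apply_root hP hζ.pow_eq_one hm
      have h2 : ζ ^ ℓ = ζ ^ (c : ZMod m).val := by rw [← h1, hc]
      have h3 := (pow_eq_pow_iff_cast hζ _ _).mp h2
      rwa [ZMod.natCast_zmod_val] at h3
    rw [hempty]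
    simp

end Main

end Fermat.Agent.Lib.Chebotarev.CycloDegOne
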