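import Mathlib
import Fermat.Agent.Lib.Chebotarev.Assembly
import Fermat.Agent.Lib.Chebotarev.CycloDegOne

/-!
# The pair estimate (G3) of Chebotarev up to inversion

`L/ℚ` finite Galois containing a primitive `m`-th root of unity `ζ`, `σ ∈ Gal(L/ℚ)` generating a
group acting faithfully on `ζ`.  Then `S_σ + S_{σ⁻¹} = (2 / ord σ) log (1/(s-1)) + O(1)`, where
`S_τ = ∑_ℓ #{P | ℓ : Frob_P = τ} ℓ^{-s}`.  This is the hypothesis `PairHyp` of
`Lib/Chebotarev/Assembly`, so Chebotarev's theorem (class form, up to inversion) follows.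
-/

set_option autoImplicit false
set_option linter.unusedSectionVars false

open scoped NumberField Pointwise
open IsDedekindDomain

namespace Fermat.Agent.Lib.Chebotarev.CycloFrobPair

open Fermat.Agent.Lib.FrobDensity Fermat.Agent.Lib.Chebotarev.CycloDegOne

universe u

/-- **Pair estimate (G3).** -/
theorem pairEst {L : Type u} [Field L] [NumberField L] [IsGalois ℚ L] {m : ℕ} [NeZero m] {ζ : L}
    (hζ : IsPrimitiveRoot ζ m) (σ : L ≃ₐ[ℚ] L)
    (hfaith : ∀ x ∈ Subgroup.zpowers σ, x ζ = ζ → x = 1) : PairEst L σ := by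
  classical
  have hc : σ ζ = ζ ^ ((hζ.autToPow ℚ σ : (ZMod m)ˣ) : ZMod m).val :=
    (hζ.autToPow_spec ℚ σ).symm
  have hc' : σ⁻¹ ζ = ζ ^ (((hζ.autToPow ℚ σ)⁻¹ : (ZMod m)ˣ) : ZMod m).val := by
    rw [← map_inv]
    exact (hζ.autToPow_spec ℚ σ⁻¹).symm
  have hf : ∀ k : ℕ, (σ ^ k) ζ = ζ → σ ^ k = 1 := fun k h =>
    hfaith _ (Subgroup.pow_mem _ (Subgroup.mem_zpowers σ) k) h
  have hf' : ∀ k : ℕ, (σ⁻¹ ^ k) ζ = ζ → σ⁻¹ ^ k = 1 := fun k h =>
    hfaith _ (Subgroup.pow_mem _ (Subgroup.inv_mem _ (Subgroup.mem_zpowers σ)) k) h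
  have hmain := cyclo_degOne L m ζ hζ σ (hζ.autToPow ℚ σ) hc hf
  have key : ∀ c₂ : ℕ → ℝ,
      (∀ ℓ : ℕ, c₂ ℓ =
        ((if ((ℓ : ℕ) : ZMod m) = ((hζ.autToPow ℚ σ : (ZMod m)ˣ) : ZMod m) then (1 : ℝ) else 0) +
          (if ((ℓ : ℕ) : ZMod m) = (((hζ.autToPow ℚ σ)⁻¹ : (ZMod m)ˣ) : ZMod m)
            then (1 : ℝ) else 0)) * degOneCount (fixedF L (Subgroup.zpowers σ)) ℓ) →
      BddOn (fun s => DS c₂ s - 2 / (orderOf σ : ℝ) * Real.log (1 / (s - 1))) →
      PairEst L σ := by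
    intro c₂ hc₂ hB
    obtain ⟨T, hT⟩ := exists_finset_good L
    have hb₁ : ∀ n, |frobCoef L σ n + frobCoef L σ⁻¹ n| ≤
        2 * (Nat.card (L ≃ₐ[ℚ] L) : ℝ) := fun n => by
      have h1 := abs_frobCoef_le L σ n
      have h2 := abs_frobCoef_le L σ⁻¹ n
      have h3 := abs_add_le (frobCoef L σ n) (frobCoef L σ⁻¹ n)
      linarith
    have hb₂ : ∀ n, |c₂ n| ≤
        2 * (Module.finrank ℚ (fixedF L (Subgroup.zpowers σ)) : ℝ) := fun n => by
      rw [hc₂ n]
      have h1 := degOneCount_nonneg (fixedF L (Subgroup.zpowers σ)) n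
      have h2 := degOneCount_le (fixedF L (Subgroup.zpowers σ)) n
      rw [abs_mul, abs_of_nonneg h1]
      refine mul_le_mul ?_ h2 h1 (by norm_num)
      split_ifs <;> norm_num
    have hoff : ∀ n, n ∉ T ∪ m.primeFactors →
        frobCoef L σ n + frobCoef L σ⁻¹ n = c₂ n := by
      intro n hn
      rw [hc₂ n]
      by_cases hp : n.Prime
      · have hg : Good L n := hT n hp (fun h => hn (Finset.mem_union_left _ h))
        have hnm : ¬ n ∣ m := fun h =>
          hn (Finset.mem_union_right _ (Nat.mem_primeFactors.mpr ⟨hp, h, NeZero.ne m⟩))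
        have e1 : frobCoef L σ n = (Nat.card (frobSet σ n) : ℝ) := by
          unfold frobCoef
          rw [if_pos hg]
        have e2 : frobCoef L σ⁻¹ n = (Nat.card (frobSet σ⁻¹ n) : ℝ) := by
          unfold frobCoef
          rw [if_pos hg]
        rw [e1, e2, card_frobSet_eq L m ζ hζ σ (hζ.autToPow ℚ σ) hc hf hg hnm,
          card_frobSet_eq L m ζ hζ σ⁻¹ (hζ.autToPow ℚ σ)⁻¹ hc' hf' hg hnm,
          Subgroup.zpowers_inv]
        split_ifs <;> ring
      · have hng : ¬ Good L n := fun h => hp h.1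
        have e1 : frobCoef L σ n = 0 := by
          unfold frobCoef
          rw [if_neg hng]
        have e2 : frobCoef L σ⁻¹ n = 0 := by
          unfold frobCoef
          rw [if_neg hng]
        have e3 : degOneCount (fixedF L (Subgroup.zpowers σ)) n = 0 := by
          unfold degOneCount
          rw [if_neg hp]
        rw [e1, e2, e3, mul_zero, add_zero]
    have hdiff := bddOn_DS_sub_of_eq_off hb₁ hb₂ (T ∪ m.primeFactors) hoff
    unfold PairEst
    refine (hdiff.add hB).congr fun s hs1 _ => ?_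
    rw [← DS_add (abs_frobCoef_le L σ) (abs_frobCoef_le L σ⁻¹) hs1]
    ring
  exact key _ (fun _ => rfl) hmain

/-- The hypothesis (G3) of `Lib/Chebotarev/Assembly` holds. -/
theorem pairHyp : PairHyp.{u} := fun _ _ _ _ _ _ _ hζ σ hfaith => pairEst hζ σ hfaith

/-- **Chebotarev's density theorem over `ℚ`** (Dirichlet density, for sets stable under
conjugation and inversion, little-o form). -/
theorem chebotarev (L : Type u) [Field L] [NumberField L] [IsGalois ℚ L]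
    (X : Set (L ≃ₐ[ℚ] L)) (hconj : ∀ g τ : L ≃ₐ[ℚ] L, τ ∈ X → g * τ * g⁻¹ ∈ X)
    (hinv : ∀ τ ∈ X, τ⁻¹ ∈ X) (ε : ℝ) (hε : 0 < ε)
    [DecidablePred fun ℓ : ℕ => Good L ℓ ∧ FrobIn X ℓ] :
    ∃ C : ℝ, ∀ s : ℝ, 1 < s → s ≤ 2 →
      |DS (fun ℓ => if Good L ℓ ∧ FrobIn X ℓ then 1 else 0) s -
        (Nat.card X : ℝ) / (Nat.card (L ≃ₐ[ℚ] L) : ℝ) * Real.log (1 / (s - 1))| ≤
        ε * Real.log (1 / (s - 1)) + C :=
  chebotarev_of_pairHyp pairHyp L X hconj hinv ε hε

end Fermat.Agent.Lib.Chebotarev.CycloFrobPair
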