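import Mathlib
import Fermat.Agent.Lib.Chebotarev.Assembly
import Fermat.Agent.Lib.Chebotarev.CycloDegOne
import Fermat.Agent.Lib.Chebotarev.ToChebLower

/-!
# Chebotarev's density theorem over `ℚ` (up to inversion): final wiring

* `pairHyp` : the pair estimate (G3) `S_σ + S_{σ⁻¹} = (2 / ord σ) log (1/(s-1)) + O(1)` for every
  automorphism `σ` of a Galois number field generating a group acting faithfully on a primitive
  root of unity, from the cyclotomic degree-one density `CycloDegOne.cyclo_degOne` and the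
  Frobenius count `CycloDegOne.card_frobSet_eq`.
* `chebotarev` : Chebotarev's theorem for subsets stable under conjugation and inversion
  (two-sided Dirichlet density, little-o form), for every Galois number field.
* `chebStatement`, `chebLower` : the forms consumed on the `Qb` side.
-/

set_option autoImplicit false
set_option linter.unusedSectionVars false

open scoped NumberField Pointwise
open IsDedekindDomain

namespace Fermat.Agent.Lib.Chebotarev.Main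

open Fermat.Agent.Lib.FrobDensity Fermat.Agent.Lib.Chebotarev

universe u

section Pair

variable {L : Type u} [Field L] [NumberField L] [IsGalois ℚ L]

/-- `degOneCount` of the fixed field only depends on the subgroup. -/
lemma degOneCount_zpowers_congr {H H' : Subgroup (L ≃ₐ[ℚ] L)} (h : H = H') (ℓ : ℕ) :
    degOneCount (fixedF L H) ℓ = degOneCount (fixedF L H') ℓ := by
  subst h
  rfl

lemma frobCoef_good {ℓ : ℕ} (hℓ : Good L ℓ) (τ : L ≃ₐ[ℚ] L) :
    frobCoef L τ ℓ = (Nat.card (frobSet τ ℓ) : ℝ) := by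
  unfold frobCoef
  rw [if_pos hℓ]

lemma frobCoef_not_good {ℓ : ℕ} (hℓ : ¬ Good L ℓ) (τ : L ≃ₐ[ℚ] L) : frobCoef L τ ℓ = 0 := by
  unfold frobCoef
  rw [if_neg hℓ]

/-- The pair estimate from its two inputs, for one element `g` with cyclotomic exponent `c`. -/
theorem pairEst_of_inputs {m : ℕ} [NeZero m] (g : L ≃ₐ[ℚ] L) (c : (ZMod m)ˣ)
    (h1 : BddOn (fun s => DS (fun ℓ : ℕ =>
      ((if (ℓ : ZMod m) = (c : ZMod m) then (1 : ℝ) else 0) +
        (if (ℓ : ZMod m) = ((c⁻¹ : (ZMod m)ˣ) : ZMod m) then (1 : ℝ) else 0)) *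
        degOneCount (fixedF L (Subgroup.zpowers g)) ℓ) s -
      2 / (orderOf g : ℝ) * Real.log (1 / (s - 1))))
    (h2 : ∀ ℓ : ℕ, Good L ℓ → ¬ ℓ ∣ m → (Nat.card (frobSet g ℓ) : ℝ) =
      if (ℓ : ZMod m) = (c : ZMod m) then degOneCount (fixedF L (Subgroup.zpowers g)) ℓ else 0)
    (h3 : ∀ ℓ : ℕ, Good L ℓ → ¬ ℓ ∣ m → (Nat.card (frobSet g⁻¹ ℓ) : ℝ) =
      if (ℓ : ZMod m) = ((c⁻¹ : (ZMod m)ˣ) : ZMod m) then
        degOneCount (fixedF L (Subgroup.zpowers g⁻¹)) ℓ else 0) :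
    PairEst L g := by
  obtain ⟨T, hT⟩ := exists_finset_good L
  have hdeg : ∀ ℓ : ℕ, degOneCount (fixedF L (Subgroup.zpowers g⁻¹)) ℓ =
      degOneCount (fixedF L (Subgroup.zpowers g)) ℓ :=
    fun ℓ => degOneCount_zpowers_congr Subgroup.zpowers_inv ℓ
  have hd0 : ∀ ℓ : ℕ, 0 ≤ degOneCount (fixedF L (Subgroup.zpowers g)) ℓ :=
    fun ℓ => degOneCount_nonneg _ ℓ
  have hd1 : ∀ ℓ : ℕ, degOneCount (fixedF L (Subgroup.zpowers g)) ℓ ≤
      (Module.finrank ℚ (fixedF L (Subgroup.zpowers g)) : ℝ) :=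
    fun ℓ => degOneCount_le _ ℓ
  -- bounds on the two coefficient functions
  have hab : ∀ ℓ : ℕ, |((if (ℓ : ZMod m) = (c : ZMod m) then (1 : ℝ) else 0) +
        (if (ℓ : ZMod m) = ((c⁻¹ : (ZMod m)ˣ) : ZMod m) then (1 : ℝ) else 0)) *
        degOneCount (fixedF L (Subgroup.zpowers g)) ℓ| ≤
      2 * (Module.finrank ℚ (fixedF L (Subgroup.zpowers g)) : ℝ) := by
    intro ℓ
    have e1 : (0 : ℝ) ≤ (if (ℓ : ZMod m) = (c : ZMod m) then (1 : ℝ) else 0) := by
      split_ifs <;> norm_num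
    have e2 : (if (ℓ : ZMod m) = (c : ZMod m) then (1 : ℝ) else 0) ≤ 1 := by
      split_ifs <;> norm_num
    have e3 : (0 : ℝ) ≤ (if (ℓ : ZMod m) = ((c⁻¹ : (ZMod m)ˣ) : ZMod m) then (1 : ℝ) else 0) := by
      split_ifs <;> norm_num
    have e4 : (if (ℓ : ZMod m) = ((c⁻¹ : (ZMod m)ˣ) : ZMod m) then (1 : ℝ) else 0) ≤ 1 := by
      split_ifs <;> norm_num
    rw [abs_of_nonneg (mul_nonneg (add_nonneg e1 e3) (hd0 ℓ))]
    exact mul_le_mul (by linarith) (hd1 ℓ) (hd0 ℓ) (by norm_num)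
  have hbb : ∀ ℓ : ℕ, |frobCoef L g ℓ + frobCoef L g⁻¹ ℓ| ≤
      2 * (Nat.card (L ≃ₐ[ℚ] L) : ℝ) := by
    intro ℓ
    rw [abs_of_nonneg (add_nonneg (frobCoef_nonneg L g ℓ) (frobCoef_nonneg L g⁻¹ ℓ))]
    have := frobCoef_le L g ℓ
    have := frobCoef_le L g⁻¹ ℓ
    linarith
  -- the two coefficient functions agree outside a finite set
  have hsupp : ∀ ℓ : ℕ, ℓ ∉ T ∪ m.divisors →
      frobCoef L g ℓ + frobCoef L g⁻¹ ℓ =
        ((if (ℓ : ZMod m) = (c : ZMod m) then (1 : ℝ) else 0) +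
          (if (ℓ : ZMod m) = ((c⁻¹ : (ZMod m)ˣ) : ZMod m) then (1 : ℝ) else 0)) *
          degOneCount (fixedF L (Subgroup.zpowers g)) ℓ := by
    intro ℓ hℓ
    rw [Finset.mem_union, not_or] at hℓ
    by_cases hp : ℓ.Prime
    · have hg : Good L ℓ := hT ℓ hp hℓ.1
      have hm : ¬ ℓ ∣ m := fun h => hℓ.2 (Nat.mem_divisors.2 ⟨h, NeZero.ne m⟩)
      rw [frobCoef_good hg, frobCoef_good hg, h2 ℓ hg hm, h3 ℓ hg hm, hdeg ℓ]
      split_ifs <;> ring
    · have hg : ¬ Good L ℓ := fun h => hp h.1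
      have hz : degOneCount (fixedF L (Subgroup.zpowers g)) ℓ = 0 := by
        unfold degOneCount
        rw [if_neg hp]
      rw [frobCoef_not_good hg, frobCoef_not_good hg, hz]
      ring
  have hD := bddOn_DS_sub_of_eq_off hbb hab (T ∪ m.divisors) hsupp
  unfold PairEst
  refine (h1.add hD).congr fun s hs _ => ?_
  rw [DS_add (abs_frobCoef_le L g) (abs_frobCoef_le L g⁻¹) hs]
  ring

end Pair

/-- **The pair estimate (G3).** -/
theorem pairHyp : PairHyp.{u} := by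
  intro L _ _ _ m _ ζ hζ σ hfaith
  have hc : σ ζ = ζ ^ ((hζ.autToPow ℚ σ : (ZMod m)ˣ) : ZMod m).val :=
    (hζ.autToPow_spec ℚ σ).symm
  have hc' : σ⁻¹ ζ = ζ ^ (((hζ.autToPow ℚ σ)⁻¹ : (ZMod m)ˣ) : ZMod m).val := by
    rw [← map_inv]
    exact (hζ.autToPow_spec ℚ σ⁻¹).symm
  have hf : ∀ k : ℕ, (σ ^ k) ζ = ζ → σ ^ k = 1 :=
    fun k hk => hfaith _ (Subgroup.npow_mem_zpowers σ k) hk
  have hf' : ∀ k : ℕ, (σ⁻¹ ^ k) ζ = ζ → σ⁻¹ ^ k = 1 := by
    intro k hk
    refine hfaith _ ?_ hk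
    exact Subgroup.pow_mem _ (Subgroup.inv_mem _ (Subgroup.mem_zpowers σ)) k
  exact pairEst_of_inputs σ (hζ.autToPow ℚ σ)
    (CycloDegOne.cyclo_degOne L m ζ hζ σ _ hc hf)
    (fun ℓ hℓ hm => CycloDegOne.card_frobSet_eq L m ζ hζ σ _ hc hf hℓ hm)
    (fun ℓ hℓ hm => CycloDegOne.card_frobSet_eq L m ζ hζ σ⁻¹ _ hc' hf' hℓ hm)

/-- **Chebotarev's density theorem over `ℚ`** (Dirichlet density, for sets stable under
conjugation and inversion, little-o form). -/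
theorem chebotarev (L : Type u) [Field L] [NumberField L] [IsGalois ℚ L]
    (X : Set (L ≃ₐ[ℚ] L)) (hconj : ∀ g τ : L ≃ₐ[ℚ] L, τ ∈ X → g * τ * g⁻¹ ∈ X)
    (hinv : ∀ τ ∈ X, τ⁻¹ ∈ X) (ε : ℝ) (hε : 0 < ε)
    [DecidablePred fun ℓ : ℕ => Good L ℓ ∧ FrobIn X ℓ] :
    ∃ C : ℝ, ∀ s : ℝ, 1 < s → s ≤ 2 →
      |DS (fun ℓ => if Good L ℓ ∧ FrobIn X ℓ then 1 else 0) s -
        (Nat.card X : ℝ) / (Nat.card (L ≃ₐ[ℚ] L) : ℝ) * Real.log (1 / (s - 1))| ≤
        ε * Real.log (1 / (s - 1)) + C :=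
  chebotarev_of_pairHyp pairHyp L X hconj hinv ε hε

/-- The abstract statement consumed by the transfer to `Gal(Qb/ℚ)`. -/
theorem chebStatement (L : Type) [Field L] [NumberField L] [IsGalois ℚ L] :
    LiftQbTransfer.ChebStatement L := by
  intro X hconj hinv ε hε
  classical
  exact chebotarev L X hconj hinv ε hε

/-- **Chebotarev, lower-density half, up to inversion**, in the vocabulary of `Gal(Qb/ℚ)`. -/
theorem chebLower : Fermat.Agent.S48.Dens.ChebLower :=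
  ToChebLower.chebLower fun L _ _ _ => chebStatement L

end Fermat.Agent.Lib.Chebotarev.Main
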