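import Mathlib
import Fermat.Agent.Lib.Chebotarev.Main
import Fermat.Agent.S48.Dens.Basic

/-!
# Chebotarev up to inversion, exact existence form

Consequences of `Main.chebLower` (Chebotarev's density theorem over `ℚ` for sets stable under
conjugation and inversion) which mention no density:

* `exists_frobenius_map_eq_or_inv` : for a homomorphism `φ` of `Gal(ℚ̄/ℚ)` of finite level, a
  finite set `S` of primes and `g ∈ Gal(ℚ̄/ℚ)` there is a Frobenius element `σ` at a prime
  outside `S` with `φ σ = φ g` or `φ σ = (φ g)⁻¹` (equality, not conjugacy).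
* `forall_of_frobenius_of_inv` : the induction principle: a property of `φ g` which is stable
  under inversion and holds at all Frobenius elements outside `S` holds for all `g`.
* `exists_frobenius_eq_or_inv_on` : the field form (`σ = g` or `σ = g⁻¹` on a finite extension).
* `finiteLevel_prod` : a pair of homomorphisms of finite level has finite level.
* `quad_rel_forall` : the transfer of the quadratic relation
  `a(g)² - tr ρ(g) a(g) + det ρ(g) = 0` from Frobenius elements to all of `Gal(ℚ̄/ℚ)`, for a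
  two-dimensional representation `ρ` and a linear action `a`, both of finite level.
-/

set_option autoImplicit false

namespace Fermat.Agent.Lib.Chebotarev.FrobExact

open Fermat.Agent.S48.Dens

local notation "Qb" => AlgebraicClosure ℚ
local notation "Γ" => (AlgebraicClosure ℚ ≃ₐ[ℚ] AlgebraicClosure ℚ)

/-- **Chebotarev up to inversion, exact existence form.** -/
theorem exists_frobenius_map_eq_or_inv {M : Type} [Group M] (φ : Γ →* M)
    (hfin : GaloisFactorsThroughFiniteLevel φ) (S : Finset ℕ) (g : Γ) :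
    ∃ (ℓ : ℕ) (A : ValuationSubring Qb) (σ : Γ), ℓ.Prime ∧ ℓ ∉ S ∧ A.LiesOverPrime ℓ ∧
      A.IsFrobeniusAt σ ℓ ∧ (φ σ = φ g ∨ φ σ = (φ g)⁻¹) := by
  have hfr : Finite φ.range := finite_range φ hfin
  have hc := cheb_count Fermat.Agent.Lib.Chebotarev.Main.chebLower φ hfin S ∅ upDens_empty
  rw [zero_mul] at hc
  have hfinset : ((FrobImg φ S ∅)ᶜ ∩ (φ.range : Set M)).Finite :=
    Set.Finite.subset (Set.toFinite (φ.range : Set M)) Set.inter_subset_right
  have h0 : Set.ncard ((FrobImg φ S ∅)ᶜ ∩ (φ.range : Set M)) = 0 := by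
    exact_mod_cast le_antisymm hc (by positivity)
  have hempty : (FrobImg φ S ∅)ᶜ ∩ (φ.range : Set M) = ∅ := (Set.ncard_eq_zero hfinset).mp h0
  have hmem : φ g ∈ FrobImg φ S ∅ := by
    by_contra hng
    have : φ g ∈ (FrobImg φ S ∅)ᶜ ∩ (φ.range : Set M) := ⟨hng, ⟨g, rfl⟩⟩
    rw [hempty] at this
    exact this
  obtain ⟨ℓ, hℓ, hℓS, -, A, σ, hA, hσ, hor⟩ := hmem
  exact ⟨ℓ, A, σ, hℓ, hℓS, hA, hσ, hor⟩

/-- **Induction principle.**  A property of `φ g` which is stable under inversion and holds at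
all Frobenius elements at the primes outside `S` holds for every `g`. -/
theorem forall_of_frobenius_of_inv {M : Type} [Group M] (φ : Γ →* M)
    (hfin : GaloisFactorsThroughFiniteLevel φ) (S : Finset ℕ) (P : M → Prop)
    (hinv : ∀ m : M, P m → P m⁻¹)
    (hfrob : ∀ (ℓ : ℕ) (A : ValuationSubring Qb) (σ : Γ), ℓ.Prime → ℓ ∉ S → A.LiesOverPrime ℓ →
      A.IsFrobeniusAt σ ℓ → P (φ σ)) (g : Γ) : P (φ g) := by
  obtain ⟨ℓ, A, σ, hℓ, hℓS, hA, hσ, h | h⟩ := exists_frobenius_map_eq_or_inv φ hfin S g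
  · rw [← h]
    exact hfrob ℓ A σ hℓ hℓS hA hσ
  · have h1 := hinv _ (hfrob ℓ A σ hℓ hℓS hA hσ)
    rwa [h, inv_inv] at h1

/-- **Field form.**  Every `g` agrees on a given finite extension `L` of `ℚ` with a Frobenius
element at a prime outside `S`, or its inverse does. -/
theorem exists_frobenius_eq_or_inv_on (L : IntermediateField ℚ Qb) [FiniteDimensional ℚ L]
    (S : Finset ℕ) (g : Γ) :
    ∃ (ℓ : ℕ) (A : ValuationSubring Qb) (σ : Γ), ℓ.Prime ∧ ℓ ∉ S ∧ A.LiesOverPrime ℓ ∧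
      A.IsFrobeniusAt σ ℓ ∧ ((∀ x ∈ L, σ x = g x) ∨ (∀ x ∈ L, σ x = g⁻¹ x)) := by
  obtain ⟨N, hLN, hfd, hn⟩ := Fermat.Agent.Lib.FrobeniusDensity.exists_normal_finite_ge L
  have hfin : GaloisFactorsThroughFiniteLevel (AlgEquiv.restrictNormalHom (F := ℚ) (K₁ := Qb) N) := by
    refine ⟨N, hfd, fun σ hσ => ?_⟩
    apply AlgEquiv.ext
    intro x
    apply Subtype.ext
    exact (AlgEquiv.restrictNormal_commutes σ N x).trans (hσ x x.2)
  have key : ∀ σ τ : Γ, AlgEquiv.restrictNormalHom (F := ℚ) (K₁ := Qb) N σ =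
      AlgEquiv.restrictNormalHom (F := ℚ) (K₁ := Qb) N τ → ∀ x ∈ L, σ x = τ x := by
    intro σ τ h x hx
    have h1 : algebraMap N Qb ((AlgEquiv.restrictNormalHom (F := ℚ) (K₁ := Qb) N σ)
        ⟨x, hLN hx⟩) = σ x := AlgEquiv.restrictNormal_commutes σ N ⟨x, hLN hx⟩
    have h2 : algebraMap N Qb ((AlgEquiv.restrictNormalHom (F := ℚ) (K₁ := Qb) N τ)
        ⟨x, hLN hx⟩) = τ x := AlgEquiv.restrictNormal_commutes τ N ⟨x, hLN hx⟩
    rw [← h1, ← h2, h]
  obtain ⟨ℓ, A, σ, hℓ, hℓS, hA, hσ, h | h⟩ :=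
    exists_frobenius_map_eq_or_inv (AlgEquiv.restrictNormalHom (F := ℚ) (K₁ := Qb) N) hfin S g
  · exact ⟨ℓ, A, σ, hℓ, hℓS, hA, hσ, Or.inl (key σ g h)⟩
  · refine ⟨ℓ, A, σ, hℓ, hℓS, hA, hσ, Or.inr (key σ g⁻¹ ?_)⟩
    rw [h, map_inv]

/-- A pair of homomorphisms of finite level has finite level. -/
theorem finiteLevel_prod {M M' : Type} [Group M] [Group M'] (φ : Γ →* M) (φ' : Γ →* M')
    (h : GaloisFactorsThroughFiniteLevel φ) (h' : GaloisFactorsThroughFiniteLevel φ') :
    GaloisFactorsThroughFiniteLevel (φ.prod φ') := by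
  obtain ⟨L, hL, hφ⟩ := h
  obtain ⟨L', hL', hφ'⟩ := h'
  refine ⟨L ⊔ L', IntermediateField.finiteDimensional_sup L L', fun σ hσ => ?_⟩
  rw [MonoidHom.prod_apply]
  exact Prod.ext (hφ σ fun x hx => hσ x ((le_sup_left : L ≤ L ⊔ L') hx))
    (hφ' σ fun x hx => hσ x ((le_sup_right : L' ≤ L ⊔ L') hx))

section Quad

variable {k : Type} [Field k] {V : Type} [AddCommGroup V] [Module k V]

/-- Trace of the inverse of an invertible `2 × 2` matrix. -/
theorem trace_inv_two (m : GL (Fin 2) k) :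
    (m⁻¹ : GL (Fin 2) k).val.trace * m.val.det = m.val.trace := by
  have hdet : m.val.det ≠ 0 := m.det.ne_zero
  rw [Matrix.coe_units_inv, Matrix.inv_def, Matrix.trace_smul, Matrix.adjugate_fin_two,
    Matrix.trace_fin_two, Matrix.trace_fin_two]
  simp only [Matrix.of_apply, Matrix.cons_val', Matrix.cons_val_zero, Matrix.cons_val_one,
    Matrix.empty_val', Matrix.cons_val_fin_one, smul_eq_mul]
  rw [Ring.inverse_eq_inv']
  field_simp
  ring

/-- Determinant of the inverse of an invertible matrix. -/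
theorem det_inv_two (m : GL (Fin 2) k) :
    (m⁻¹ : GL (Fin 2) k).val.det * m.val.det = 1 := by
  rw [← Matrix.det_mul, ← Units.val_mul, inv_mul_cancel, Units.val_one, Matrix.det_one]

/-- The quadratic relation passes to inverses. -/
theorem quad_rel_inv (m : GL (Fin 2) k) (f : V ≃ₗ[k] V)
    (h : ∀ v : V, f (f v) - m.val.trace • f v + m.val.det • v = 0) (v : V) :
    f⁻¹ (f⁻¹ v) - (m⁻¹ : GL (Fin 2) k).val.trace • f⁻¹ v +
      (m⁻¹ : GL (Fin 2) k).val.det • v = 0 := by
  have hdet : m.val.det ≠ 0 := m.det.ne_zero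
  have ht := trace_inv_two m
  have hd := det_inv_two m
  set w : V := f⁻¹ (f⁻¹ v) with hw
  have e1 : f w = f⁻¹ v := by
    rw [hw]
    exact LinearEquiv.apply_symm_apply f _
  have e2 : f (f w) = v := by
    rw [e1]
    exact LinearEquiv.apply_symm_apply f _
  have h1 := h w
  rw [e2, e1] at h1
  -- `v - t • f⁻¹ v + d • w = 0`; multiply by `d⁻¹`
  have h2 : (m⁻¹ : GL (Fin 2) k).val.det • (v - m.val.trace • f⁻¹ v + m.val.det • w) = 0 := by
    rw [h1, smul_zero]
  rw [smul_add, smul_sub, smul_smul, smul_smul, hd, one_smul] at h2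
  have h3 : (m⁻¹ : GL (Fin 2) k).val.det * m.val.trace = (m⁻¹ : GL (Fin 2) k).val.trace := by
    have : (m⁻¹ : GL (Fin 2) k).val.det * m.val.trace * m.val.det =
        (m⁻¹ : GL (Fin 2) k).val.trace * m.val.det := by
      rw [ht, mul_right_comm, hd, one_mul]
    exact mul_right_cancel₀ hdet this
  rw [h3] at h2
  rw [← h2]
  abel

/-- **Quadratic relations for all `g` from Frobenius elements.**  `ρ` a two-dimensional
representation and `a` a linear action of `Gal(ℚ̄/ℚ)`, both of finite level.  If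
`a(σ)² - tr ρ(σ) a(σ) + det ρ(σ) = 0` for the Frobenius elements `σ` at the primes outside a
finite set `S`, then `a(g)² - tr ρ(g) a(g) + det ρ(g) = 0` for all `g`. -/
theorem quad_rel_forall (ρ : Γ →* GL (Fin 2) k) (a : Γ →* (V ≃ₗ[k] V))
    (hρ : GaloisFactorsThroughFiniteLevel ρ) (ha : GaloisFactorsThroughFiniteLevel a)
    (S : Finset ℕ)
    (hfrob : ∀ (ℓ : ℕ) (A : ValuationSubring Qb) (σ : Γ), ℓ.Prime → ℓ ∉ S → A.LiesOverPrime ℓ →
      A.IsFrobeniusAt σ ℓ →
      ∀ v : V, a σ (a σ v) - (ρ σ).val.trace • a σ v + (ρ σ).val.det • v = 0)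
    (g : Γ) (v : V) : a g (a g v) - (ρ g).val.trace • a g v + (ρ g).val.det • v = 0 := by
  have key := forall_of_frobenius_of_inv (ρ.prod a) (finiteLevel_prod ρ a hρ ha) S
    (fun m : GL (Fin 2) k × (V ≃ₗ[k] V) =>
      ∀ v : V, m.2 (m.2 v) - m.1.val.trace • m.2 v + m.1.val.det • v = 0)
    (fun m hm v => quad_rel_inv m.1 m.2 hm v)
    (fun ℓ A σ hℓ hℓS hA hσ v => hfrob ℓ A σ hℓ hℓS hA hσ v) g
  exact key v

end Quad

end Fermat.Agent.Lib.Chebotarev.FrobExact
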