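import Mathlib
import Fermat.Agent.Lib.Chebotarev.FrobCount
import Fermat.Agent.Lib.FrobeniusDensity.Lift

/-!
# Frobenius elements of `Gal(ℚ̄/ℚ)` versus Frobenius elements of a finite Galois subfield
(brick (G6) of Chebotarev)

`L ⊆ ℚ̄` finite Galois over `ℚ`.  A Frobenius element `s` of `Gal(ℚ̄/ℚ)` at a valuation subring
`A` over `ℓ` (the prelude's `ValuationSubring.IsFrobeniusAt`) restricts to a Frobenius element of
`Gal(L/ℚ)` at the prime of `𝓞 L` below `A`; conversely every prime of `𝓞 L` above `ℓ` lies below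
such an `A`.  Hence `FrobIn X ℓ` can be read in `Gal(ℚ̄/ℚ)`.
-/

set_option autoImplicit false
set_option linter.unusedSectionVars false

open scoped NumberField Pointwise
open IsDedekindDomain

namespace Fermat.Agent.Lib.Chebotarev

open Fermat.Agent.Lib.FrobDensity Fermat.Agent.Lib.FrobeniusDensity
open Fermat.Agent.S54.Frobenius Fermat.Agent.Lib.MinkowskiBridge

local notation "Qb" => AlgebraicClosure ℚ
local notation "Γ" => (AlgebraicClosure ℚ ≃ₐ[ℚ] AlgebraicClosure ℚ)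

variable (L : IntermediateField ℚ Qb) [NumberField L] [IsGalois ℚ L]

/-- The prime of `𝓞 L` below a valuation subring over `ℓ` lies over `ℓ`. -/
theorem primeBelow_mem_primesOver {ℓ : ℕ} (hℓ : ℓ.Prime) (A : ValuationSubring Qb)
    (hA : A.LiesOverPrime ℓ) : primeBelow A L ∈ (ratIdeal ℓ).primesOver (𝓞 L) := by
  have hprime := primeBelow_isPrime A L
  refine ⟨hprime, ?_⟩
  refine (Ideal.liesOver_span_iff hprime.ne_top (Nat.prime_iff_prime_int.mp hℓ)).mpr ?_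
  have h1 : ((ℓ : ℕ) : 𝓞 L) ∈ primeBelow A L := by
    rw [mem_primeBelow]
    have h2 : A.valuation ((ℓ : ℕ) : Qb) < 1 := A.mem_nonunits_iff.mp hA
    simpa using h2
  simpa using h1

/-- A Frobenius element of `Gal(ℚ̄/ℚ)` at `A` restricts to a Frobenius element of `Gal(L/ℚ)` at
the prime below `A`. -/
theorem isFrob_restrict_of_isFrobeniusAt {ℓ : ℕ} (A : ValuationSubring Qb) (s : Γ)
    (hs : A.IsFrobeniusAt s ℓ) :
    IsFrob (AlgEquiv.restrictNormalHom L s) (primeBelow A L) ℓ := by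
  intro y
  rw [mem_primeBelow]
  have hy : ((y : L) : Qb) ∈ A :=
    (A.valuation_le_one_iff _).mp (valuation_ringOfIntegers_le_one A L y)
  have h1 := valuation_sub_pow_lt_one_of_isFrobeniusAt hs hy
  have hcoe : ((AlgEquiv.restrictNormalHom L s (y : L) : L) : Qb) = s ((y : L) : Qb) :=
    AlgEquiv.restrictNormal_commutes s L (y : L)
  have h2 : ((((AlgEquiv.restrictNormalHom L s • y - y ^ ℓ : 𝓞 L) : L) : Qb)) =
      s ((y : L) : Qb) - ((y : L) : Qb) ^ ℓ := by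
    rw [← hcoe]
    simp
    rfl
  rw [h2]
  exact h1

/-- Every prime of `𝓞 L` above `ℓ` lies below a valuation subring of `ℚ̄` over `ℓ`. -/
theorem exists_valuationSubring_of_mem_primesOver {ℓ : ℕ} (hℓ : ℓ.Prime) {P : Ideal (𝓞 L)}
    (hP : P ∈ (ratIdeal ℓ).primesOver (𝓞 L)) :
    ∃ A : ValuationSubring Qb, A.LiesOverPrime ℓ ∧ primeBelow A L = P := by
  have := hP.1
  have hPmax : P.IsMaximal := Ideal.IsPrime.isMaximal inferInstance (ne_bot_of_mem_primesOver hℓ hP)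
  obtain ⟨A, hA⟩ := exists_valuationSubring_primeBelow L P
  refine ⟨A, ?_, hA⟩
  have hℓP : ((ℓ : ℕ) : 𝓞 L) ∈ P := by
    have h2 : (ℓ : ℤ) ∈ P.under ℤ := by
      rw [under_eq_ratIdeal hP]
      exact Ideal.mem_span_singleton_self _
    rw [Ideal.under_def, Ideal.mem_comap] at h2
    simpa using h2
  have h1 : ((ℓ : ℕ) : 𝓞 L) ∈ primeBelow A L := hA ▸ hℓP
  rw [mem_primeBelow] at h1
  exact A.mem_nonunits_iff.mpr (by simpa using h1)

/-- The Frobenius class of `ℓ` in `Gal(L/ℚ)` meets `X`, read in `Gal(ℚ̄/ℚ)`. -/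
def FrobInQb (X : Set (L ≃ₐ[ℚ] L)) (ℓ : ℕ) : Prop :=
  ∃ (A : ValuationSubring Qb) (s : Γ), A.LiesOverPrime ℓ ∧ A.IsFrobeniusAt s ℓ ∧
    AlgEquiv.restrictNormalHom L s ∈ X

/-- At a good prime, `FrobIn` and `FrobInQb` agree. -/
theorem frobIn_iff_frobInQb {ℓ : ℕ} (hℓ : Good L ℓ) (X : Set (L ≃ₐ[ℚ] L)) :
    FrobIn X ℓ ↔ FrobInQb L X ℓ := by
  constructor
  · rintro ⟨P, hP, hPX⟩
    obtain ⟨A, hA, rfl⟩ := exists_valuationSubring_of_mem_primesOver L hℓ.1 hP
    obtain ⟨s, hs⟩ := exists_isFrobeniusAt A hℓ.1 hA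
    refine ⟨A, s, hA, hs, ?_⟩
    rw [← (frobOf_eq_iff hℓ hP _).mpr (isFrob_restrict_of_isFrobeniusAt L A s hs)]
    exact hPX
  · rintro ⟨A, s, hA, hs, hsX⟩
    have hP := primeBelow_mem_primesOver L hℓ.1 A hA
    refine ⟨primeBelow A L, hP, ?_⟩
    rw [(frobOf_eq_iff hℓ hP _).mpr (isFrob_restrict_of_isFrobeniusAt L A s hs)]
    exact hsX

/-- For a conjugation-stable `X` and a good prime `ℓ`: if some Frobenius element at `ℓ` restricts
into `X` then all of them do. -/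
theorem frobInQb_iff_forall {ℓ : ℕ} (hℓ : Good L ℓ) (X : Set (L ≃ₐ[ℚ] L))
    (hX : ∀ g τ : L ≃ₐ[ℚ] L, τ ∈ X → g * τ * g⁻¹ ∈ X) :
    FrobInQb L X ℓ ↔ ∀ (A : ValuationSubring Qb) (s : Γ), A.LiesOverPrime ℓ →
      A.IsFrobeniusAt s ℓ → AlgEquiv.restrictNormalHom L s ∈ X := by
  constructor
  · intro h A s hA hs
    have h1 := (frobIn_iff_forall hℓ X hX).mp ((frobIn_iff_frobInQb L hℓ X).mpr h)
    have hP := primeBelow_mem_primesOver L hℓ.1 A hA
    have h2 := h1 _ hP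
    rwa [(frobOf_eq_iff hℓ hP _).mpr (isFrob_restrict_of_isFrobeniusAt L A s hs)] at h2
  · intro h
    have := ratIdeal_isMaximal hℓ.1
    obtain ⟨P, hP⟩ := (inferInstance : Nonempty ((ratIdeal ℓ).primesOver (𝓞 L)))
    obtain ⟨A, hA, rfl⟩ := exists_valuationSubring_of_mem_primesOver L hℓ.1 hP
    obtain ⟨s, hs⟩ := exists_isFrobeniusAt A hℓ.1 hA
    exact ⟨A, s, hA, hs, h A s hA hs⟩

end Fermat.Agent.Lib.Chebotarev
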