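import Fermat.Agent.Lib.FrobDensity.Lift
import Fermat.Agent.Lib.FrobeniusDensity.Lift
import Fermat.Agent.Lib.FrobAssemble

/-!
# Chebotarev, brick (G6): the Frobenius dictionary between a Galois number field inside `ℚ̄`
# and the valuation subrings of `ℚ̄`

`N ⊆ ℚ̄` a finite Galois extension of `ℚ`, `r : Gal(ℚ̄/ℚ) → Gal(N/ℚ)` the restriction.  For a
valuation subring `A` of `ℚ̄` we write `primeOf N A` for the prime of `𝓞 N` below `A`.

* `isFrob_restrict`: a Frobenius element `s` at `A` (Prelude `ValuationSubring.IsFrobeniusAt`)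
  restricts to a Frobenius element at `primeOf N A`: `r s • b - b ^ ℓ ∈ primeOf N A`.
* `exists_place_isFrob`: conversely every Frobenius element at a prime `P` of `𝓞 N` over `ℓ` is
  the restriction of a Frobenius element at a valuation subring of `ℚ̄` above `P`.
* `frobSet N ℓ`: the set of restrictions to `N` of all Frobenius elements over `ℓ`; it is the set
  of Frobenius elements at the primes of `N` above `ℓ`, and a single conjugacy class if `ℓ` is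
  good (trivial inertia).
-/

set_option autoImplicit false
set_option linter.unusedSectionVars false

open scoped NumberField Pointwise
open IsDedekindDomain

namespace Fermat.Agent.Lib.Chebotarev.LiftQb

open Fermat.Agent.Lib.FrobDensity Fermat.Agent.Lib.MinkowskiBridge

local notation "Qb" => AlgebraicClosure ℚ
local notation "Γ" => (AlgebraicClosure ℚ ≃ₐ[ℚ] AlgebraicClosure ℚ)

section Criterion

/-- Algebraic integers lie in every valuation subring. -/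
theorem mem_of_integral (A : ValuationSubring Qb) {x : Qb} (hx : IsIntegral ℤ x) : x ∈ A :=
  Fermat.Agent.Lib.FrobAssemble.mem_of_isIntegral_int A hx

theorem isAlgebraic_int (x : Qb) : IsAlgebraic ℤ x :=
  Fermat.Agent.S54.Frobenius.isAlgebraic_int x

/-- **Frobenius criterion.**  For a valuation subring `A` of `ℚ̄` over the prime `ℓ`, `s` is a
Frobenius element at `A` iff it is congruent to the `ℓ`-th power map on algebraic integers. -/
theorem isFrobeniusAt_iff (A : ValuationSubring Qb) {ℓ : ℕ} (hℓ : ℓ.Prime)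
    (hA : A.LiesOverPrime ℓ) (s : Γ) :
    A.IsFrobeniusAt s ℓ ↔ ∀ x : Qb, IsIntegral ℤ x → s x - x ^ ℓ ∈ A.nonunits := by
  constructor
  · intro h x hx
    exact frob_sub_pow_mem_nonunits A s ℓ h x (mem_of_integral A hx)
  · intro h
    exact Fermat.Agent.Lib.FrobAssemble.isFrobeniusAt_of_integral A ℓ hℓ hA isAlgebraic_int s h

end Criterion

section Translate

/-- Non-units of a translated valuation subring. -/
theorem mem_nonunits_smul_iff (A : ValuationSubring Qb) (g : Γ) (x : Qb) :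
    x ∈ (g • A).nonunits ↔ g⁻¹ x ∈ A.nonunits := by
  rw [ValuationSubring.mem_nonunits_iff_or, ValuationSubring.mem_nonunits_iff_or,
    ValuationSubring.mem_pointwise_smul_iff_inv_smul_mem]
  have h1 : g⁻¹ • x⁻¹ = (g⁻¹ x)⁻¹ := by
    rw [AlgEquiv.smul_def, map_inv₀]
  have h2 : g⁻¹ x = 0 ↔ x = 0 := map_eq_zero_iff _ (g⁻¹ : Γ).injective
  rw [h1, h2]

theorem liesOverPrime_smul {A : ValuationSubring Qb} {ℓ : ℕ} (h : A.LiesOverPrime ℓ) (g : Γ) :
    (g • A).LiesOverPrime ℓ := by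
  unfold ValuationSubring.LiesOverPrime at h ⊢
  rw [mem_nonunits_smul_iff]
  rwa [map_natCast]

/-- Conjugating a Frobenius element: `g s g⁻¹` is a Frobenius element at `g • A`. -/
theorem isFrobeniusAt_smul {A : ValuationSubring Qb} {ℓ : ℕ} (hℓ : ℓ.Prime)
    (hA : A.LiesOverPrime ℓ) {s : Γ} (h : A.IsFrobeniusAt s ℓ) (g : Γ) :
    (g • A).IsFrobeniusAt (g * s * g⁻¹) ℓ := by
  rw [isFrobeniusAt_iff (g • A) hℓ (liesOverPrime_smul hA g)]
  intro x hx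
  rw [mem_nonunits_smul_iff]
  have hx' : IsIntegral ℤ (g⁻¹ x) := map_isIntegral_int (g⁻¹ : Γ) hx
  have h1 := (isFrobeniusAt_iff A hℓ hA s).mp h (g⁻¹ x) hx'
  have h2 : g⁻¹ ((g * s * g⁻¹) x - x ^ ℓ) = s (g⁻¹ x) - (g⁻¹ x) ^ ℓ := by
    rw [map_sub, map_pow]
    congr 1
    show g⁻¹ (g (s (g⁻¹ x))) = s (g⁻¹ x)
    exact g.symm_apply_apply _
  rw [h2]
  exact h1

end Translate

section Prime

variable (N : IntermediateField ℚ Qb)

/-- The prime of `𝓞 N` below the valuation subring `A` of `ℚ̄`. -/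
abbrev primeOf (A : ValuationSubring Qb) : Ideal (𝓞 N) := primeBelow A N

variable {N}

theorem mem_primeOf (A : ValuationSubring Qb) (b : 𝓞 N) :
    b ∈ primeOf N A ↔ ((b : N) : Qb) ∈ A.nonunits := by
  rw [A.mem_nonunits_iff]
  exact mem_primeBelow A N b

theorem isIntegral_coe (b : 𝓞 N) : IsIntegral ℤ ((b : N) : Qb) :=
  map_isIntegral_int (algebraMap N Qb) (NumberField.RingOfIntegers.isIntegral_coe b)

theorem coe_mem (A : ValuationSubring Qb) (b : 𝓞 N) : ((b : N) : Qb) ∈ A :=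
  mem_of_integral A (isIntegral_coe b)

instance primeOf_isPrime (A : ValuationSubring Qb) : (primeOf N A).IsPrime :=
  primeBelow_isPrime A N

theorem natCast_mem_primeOf {A : ValuationSubring Qb} {ℓ : ℕ} (hA : A.LiesOverPrime ℓ) :
    ((ℓ : ℕ) : 𝓞 N) ∈ primeOf N A := by
  rw [mem_primeOf]
  have h : (((ℓ : 𝓞 N) : N) : Qb) = (ℓ : Qb) := by simp
  rw [h]
  exact hA

theorem primeOf_liesOver {A : ValuationSubring Qb} {ℓ : ℕ} (hℓ : ℓ.Prime)
    (hA : A.LiesOverPrime ℓ) : (primeOf N A).LiesOver (ratIdeal ℓ) := by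
  rw [Ideal.liesOver_span_iff (primeOf_isPrime A).ne_top (Nat.prime_iff_prime_int.mp hℓ)]
  simpa using natCast_mem_primeOf (N := N) hA

theorem primeOf_mem_primesOver {A : ValuationSubring Qb} {ℓ : ℕ} (hℓ : ℓ.Prime)
    (hA : A.LiesOverPrime ℓ) : primeOf N A ∈ (ratIdeal ℓ).primesOver (𝓞 N) :=
  ⟨primeOf_isPrime A, primeOf_liesOver hℓ hA⟩

end Prime

section Abstract

variable {L : Type*} [Field L] [NumberField L] [IsGalois ℚ L]

omit [IsGalois ℚ L] in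
/-- A Frobenius element at a prime `P` stabilises `P`. -/
theorem smul_eq_of_frob {ℓ : ℕ} (hℓ : ℓ ≠ 0) {P : Ideal (𝓞 L)} [P.IsPrime] {σ : L ≃ₐ[ℚ] L}
    (hσ : ∀ b : 𝓞 L, σ • b - b ^ ℓ ∈ P) : σ • P = P := by
  ext x
  rw [Ideal.mem_pointwise_smul_iff_inv_smul_mem]
  have h := hσ (σ⁻¹ • x)
  rw [smul_inv_smul] at h
  constructor
  · intro hx
    have h2 : (σ⁻¹ • x) ^ ℓ ∈ P := Ideal.pow_mem_of_mem P hx ℓ (Nat.pos_of_ne_zero hℓ)
    have h3 : x = (x - (σ⁻¹ • x) ^ ℓ) + (σ⁻¹ • x) ^ ℓ := by ring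
    rw [h3]
    exact P.add_mem h h2
  · intro hx
    have h2 : (σ⁻¹ • x) ^ ℓ ∈ P := by
      have h3 : (σ⁻¹ • x) ^ ℓ = x - (x - (σ⁻¹ • x) ^ ℓ) := by ring
      rw [h3]
      exact P.sub_mem hx h
    exact Ideal.IsPrime.mem_of_pow_mem inferInstance ℓ h2

omit [IsGalois ℚ L] in
/-- Two Frobenius elements at `P` differ by an element of the inertia group of `P`. -/
theorem inv_mul_mem_inertia_of_frob {ℓ : ℕ} (hℓ : ℓ ≠ 0) {P : Ideal (𝓞 L)} [P.IsPrime]
    {σ σ' : L ≃ₐ[ℚ] L} (hσ : ∀ b : 𝓞 L, σ • b - b ^ ℓ ∈ P)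
    (hσ' : ∀ b : 𝓞 L, σ' • b - b ^ ℓ ∈ P) : σ⁻¹ * σ' ∈ P.inertia (L ≃ₐ[ℚ] L) := by
  rw [AddSubgroup.mem_inertia]
  intro x
  have hP : σ • P = P := smul_eq_of_frob hℓ hσ
  have h1 : σ' • x - σ • x ∈ P := by
    have h2 : σ' • x - σ • x = (σ' • x - x ^ ℓ) - (σ • x - x ^ ℓ) := by ring
    rw [h2]
    exact P.sub_mem (hσ' x) (hσ x)
  have h3 : σ⁻¹ • (σ' • x - σ • x) ∈ P := by
    rw [← Ideal.mem_pointwise_smul_iff_inv_smul_mem, hP]
    exact h1
  have h4 : (σ⁻¹ * σ') • x - x = σ⁻¹ • (σ' • x - σ • x) := by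
    rw [smul_sub, inv_smul_smul, mul_smul]
  show (σ⁻¹ * σ') • x - x ∈ P
  rw [h4]
  exact h3

omit [IsGalois ℚ L] in
/-- Uniqueness of the Frobenius element at a prime with trivial inertia. -/
theorem frob_unique {ℓ : ℕ} (hℓ : ℓ ≠ 0) {P : Ideal (𝓞 L)} [P.IsPrime]
    (hI : P.inertia (L ≃ₐ[ℚ] L) = ⊥) {σ σ' : L ≃ₐ[ℚ] L} (hσ : ∀ b : 𝓞 L, σ • b - b ^ ℓ ∈ P)
    (hσ' : ∀ b : 𝓞 L, σ' • b - b ^ ℓ ∈ P) : σ = σ' := by
  have h := inv_mul_mem_inertia_of_frob hℓ hσ hσ'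
  rw [hI, Subgroup.mem_bot] at h
  exact (inv_mul_eq_one.mp h)

omit [IsGalois ℚ L] in
/-- Conjugating a Frobenius element at `P` gives a Frobenius element at the translated prime. -/
theorem frob_conj {ℓ : ℕ} {P : Ideal (𝓞 L)} {σ : L ≃ₐ[ℚ] L}
    (hσ : ∀ b : 𝓞 L, σ • b - b ^ ℓ ∈ P) (τ : L ≃ₐ[ℚ] L) :
    ∀ b : 𝓞 L, (τ * σ * τ⁻¹) • b - b ^ ℓ ∈ τ • P := by
  intro b
  rw [Ideal.mem_pointwise_smul_iff_inv_smul_mem]
  have h := hσ (τ⁻¹ • b)
  have h2 : τ⁻¹ • ((τ * σ * τ⁻¹) • b - b ^ ℓ) = σ • (τ⁻¹ • b) - (τ⁻¹ • b) ^ ℓ := by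
    rw [smul_sub, smul_pow', mul_smul, mul_smul, inv_smul_smul]
  rw [h2]
  exact h

end Abstract

section Galois

variable (N : IntermediateField ℚ Qb) [NumberField N] [IsGalois ℚ N]

/-- The restriction map `Gal(ℚ̄/ℚ) → Gal(N/ℚ)`. -/
noncomputable abbrev res : Γ →* (N ≃ₐ[ℚ] N) := AlgEquiv.restrictNormalHom N

omit [NumberField N] in
theorem coe_res_apply (g : Γ) (x : N) : ((res N g x : N) : Qb) = g (x : Qb) :=
  AlgEquiv.restrictNormal_commutes g N x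

omit [NumberField N] in
theorem coe_res_smul (g : Γ) (b : 𝓞 N) : ((((res N g) • b : 𝓞 N) : N) : Qb) = g ((b : N) : Qb) :=
  AlgEquiv.restrictNormal_commutes g N (b : N)

omit [NumberField N] in
theorem res_surjective : Function.Surjective (res N) := by
  have hQb : Normal ℚ Qb := Fermat.Agent.Lib.FrobProfinite.isGalois_Qb.to_normal
  exact AlgEquiv.restrictNormalHom_surjective Qb

/-- `res g = 1` iff `g` fixes `N` pointwise. -/
theorem res_eq_one_iff (g : Γ) : res N g = 1 ↔ ∀ x ∈ N, g x = x := by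
  constructor
  · intro h x hx
    have h1 := coe_res_apply N g ⟨x, hx⟩
    rw [h] at h1
    exact h1.symm
  · intro h
    ext x
    rw [coe_res_apply]
    exact h x x.2

/-- The prime below a translated valuation subring. -/
theorem primeOf_smul (A : ValuationSubring Qb) (g : Γ) :
    primeOf N (g • A) = res N g • primeOf N A := by
  ext b
  rw [Ideal.mem_pointwise_smul_iff_inv_smul_mem, mem_primeOf, mem_primeOf,
    mem_nonunits_smul_iff, ← map_inv, coe_res_smul]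

/-- **Restriction of Frobenius.**  A Frobenius element at the valuation subring `A` restricts to a
Frobenius element at the prime of `𝓞 N` below `A`. -/
theorem isFrob_restrict {A : ValuationSubring Qb} {s : Γ} {ℓ : ℕ} (h : A.IsFrobeniusAt s ℓ) :
    ∀ b : 𝓞 N, res N s • b - b ^ ℓ ∈ primeOf N A := by
  intro b
  rw [mem_primeOf]
  have h1 : ((((res N s • b - b ^ ℓ : 𝓞 N)) : N) : Qb) =
      s ((b : N) : Qb) - (((b : N)) : Qb) ^ ℓ := by
    rw [← coe_res_smul]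
    push_cast
    rfl
  rw [h1]
  exact frob_sub_pow_mem_nonunits A s ℓ h _ (coe_mem A b)

/-- Elements of the inertia group of `A` restrict into the inertia group of the prime below. -/
theorem res_mem_inertia {A : ValuationSubring Qb} {g : Γ} (hg : g ∈ A.inertiaSubgroupIn ℚ) :
    res N g ∈ (primeOf N A).inertia (N ≃ₐ[ℚ] N) := by
  rw [AddSubgroup.mem_inertia]
  intro b
  show res N g • b - b ∈ primeOf N A
  rw [mem_primeOf]
  have h1 : ((((res N g • b - b : 𝓞 N)) : N) : Qb) = g ((b : N) : Qb) - ((b : N) : Qb) := by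
    rw [← coe_res_smul]
    push_cast
    rfl
  rw [h1]
  exact sub_mem_nonunits_of_mem_inertia A hg (coe_mem A b)

omit [IsGalois ℚ N] in
/-- Every prime of `𝓞 N` over `ℓ` lies below a valuation subring of `ℚ̄` over `ℓ`. -/
theorem exists_place_of_prime {ℓ : ℕ} (hℓ : ℓ.Prime) {P : Ideal (𝓞 N)}
    (hP : P ∈ (ratIdeal ℓ).primesOver (𝓞 N)) :
    ∃ A : ValuationSubring Qb, A.LiesOverPrime ℓ ∧ primeOf N A = P := by
  have hPp : P.IsPrime := hP.1
  have hPl : P.LiesOver (ratIdeal ℓ) := hP.2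
  have hmax := ratIdeal_isMaximal hℓ
  have hPmax : P.IsMaximal := Ideal.IsMaximal.of_liesOver_isMaximal P (ratIdeal ℓ)
  obtain ⟨A, hA⟩ := Fermat.Agent.Lib.FrobeniusDensity.exists_valuationSubring_primeBelow N P
  refine ⟨A, ?_, hA⟩
  have hℓP : ((ℓ : ℕ) : 𝓞 N) ∈ P := by
    have h := (Ideal.liesOver_span_iff hPmax.ne_top (Nat.prime_iff_prime_int.mp hℓ)).mp hPl
    simpa using h
  have hA' : primeOf N A = P := hA
  have h1 : ((ℓ : ℕ) : 𝓞 N) ∈ primeOf N A := by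
    rw [hA']
    exact hℓP
  rw [mem_primeOf] at h1
  show (ℓ : Qb) ∈ A.nonunits
  simpa using h1

end Galois

section Lift

/-- A Frobenius element times an element of the inertia group is a Frobenius element. -/
theorem isFrobeniusAt_mul_inertia {A : ValuationSubring Qb} {ℓ : ℕ} (hℓ : ℓ.Prime)
    (hA : A.LiesOverPrime ℓ) {s ι : Γ} (hs : A.IsFrobeniusAt s ℓ)
    (hι : ι ∈ A.inertiaSubgroupIn ℚ) : A.IsFrobeniusAt (s * ι) ℓ := by
  rw [isFrobeniusAt_iff A hℓ hA]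
  intro x hx
  have hxA := mem_of_integral A hx
  have h1 : ι x - x ∈ A.nonunits := sub_mem_nonunits_of_mem_inertia A hι hxA
  have h2 : s (ι x - x) ∈ A.nonunits :=
    (decomp_mem_nonunits_iff A s hs.mem_decompositionSubgroup _).mpr h1
  have h3 : s x - x ^ ℓ ∈ A.nonunits := (isFrobeniusAt_iff A hℓ hA s).mp hs x hx
  have h4 : (s * ι) x - x ^ ℓ = s (ι x - x) + (s x - x ^ ℓ) := by
    rw [map_sub]
    show s (ι x) - x ^ ℓ = _
    ring
  rw [h4]
  rw [A.mem_nonunits_iff] at h2 h3 ⊢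
  exact lt_of_le_of_lt (A.valuation.map_add _ _) (max_lt h2 h3)

variable (N : IntermediateField ℚ Qb) [NumberField N] [IsGalois ℚ N]

/-- **Lifting of Frobenius.**  Every Frobenius element `σ` at a prime `P` of `𝓞 N` over `ℓ`
(`σ • b ≡ b ^ ℓ mod P`) is the restriction of a Frobenius element at a valuation subring of `ℚ̄`
above `P`.  No hypothesis on the inertia of `P`. -/
theorem exists_place_isFrob {ℓ : ℕ} (hℓ : ℓ.Prime) {P : Ideal (𝓞 N)}
    (hP : P ∈ (ratIdeal ℓ).primesOver (𝓞 N)) {σ : N ≃ₐ[ℚ] N}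
    (hσ : ∀ b : 𝓞 N, σ • b - b ^ ℓ ∈ P) :
    ∃ (A : ValuationSubring Qb) (s : Γ), A.LiesOverPrime ℓ ∧ primeOf N A = P ∧
      A.IsFrobeniusAt s ℓ ∧ res N s = σ := by
  obtain ⟨A, hA, hAP⟩ := exists_place_of_prime N hℓ hP
  obtain ⟨s₀, hs₀⟩ := Fermat.Agent.Lib.Frobenius.exists_isFrobeniusAt A hℓ hA
  have hPp : P.IsPrime := hP.1
  have h0 : ∀ b : 𝓞 N, res N s₀ • b - b ^ ℓ ∈ P := by
    rw [← hAP]
    exact isFrob_restrict N hs₀
  have hin := inv_mul_mem_inertia_of_frob hℓ.ne_zero h0 hσ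
  have hτ : ∀ x : N, IsIntegral ℤ (x : Qb) →
      A.valuation (((((res N s₀)⁻¹ * σ) x : N) : Qb) - (x : Qb)) < 1 := by
    intro x hx
    have hxN : IsIntegral ℤ x := (isIntegral_algebraMap_iff (algebraMap N Qb).injective).mp hx
    obtain ⟨b, rfl⟩ : ∃ b : 𝓞 N, (b : N) = x := ⟨⟨x, hxN⟩, rfl⟩
    have h1 : ((res N s₀)⁻¹ * σ) • b - b ∈ P := (AddSubgroup.mem_inertia.mp hin) b
    rw [← hAP, mem_primeOf, A.mem_nonunits_iff] at h1
    exact h1
  obtain ⟨ι, hι, hιx⟩ := exists_mem_inertia_restrict A hℓ hA N ((res N s₀)⁻¹ * σ) hτ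
  refine ⟨A, s₀ * ι, hA, hAP, isFrobeniusAt_mul_inertia hℓ hA hs₀ hι, ?_⟩
  have hres : res N ι = (res N s₀)⁻¹ * σ := by
    ext x
    rw [coe_res_apply]
    exact hιx x
  rw [map_mul, hres, mul_inv_cancel_left]

/-- The set of restrictions to `N` of the Frobenius elements of `Gal(ℚ̄/ℚ)` over `ℓ`. -/
def frobSet (ℓ : ℕ) : Set (N ≃ₐ[ℚ] N) :=
  {σ | ∃ (A : ValuationSubring Qb) (s : Γ), A.LiesOverPrime ℓ ∧ A.IsFrobeniusAt s ℓ ∧ res N s = σ}

/-- **Dictionary.**  The restrictions to `N` of the Frobenius elements over `ℓ` are exactly the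
Frobenius elements at the primes of `𝓞 N` above `ℓ` (for every prime `ℓ`, ramified or not). -/
theorem mem_frobSet_iff {ℓ : ℕ} (hℓ : ℓ.Prime) (σ : N ≃ₐ[ℚ] N) :
    σ ∈ frobSet N ℓ ↔ ∃ P ∈ (ratIdeal ℓ).primesOver (𝓞 N), ∀ b : 𝓞 N, σ • b - b ^ ℓ ∈ P := by
  constructor
  · rintro ⟨A, s, hA, hs, rfl⟩
    exact ⟨primeOf N A, primeOf_mem_primesOver hℓ hA, isFrob_restrict N hs⟩
  · rintro ⟨P, hP, hσ⟩
    obtain ⟨A, s, hA, -, hs, hr⟩ := exists_place_isFrob N hℓ hP hσ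
    exact ⟨A, s, hA, hs, hr⟩

theorem frobSet_nonempty {ℓ : ℕ} (hℓ : ℓ.Prime) : (frobSet N ℓ).Nonempty := by
  obtain ⟨A, s, hA, hs⟩ := Fermat.Agent.Lib.Frobenius.exists_frobenius hℓ
  exact ⟨res N s, A, s, hA, hs, rfl⟩

/-- `frobSet N ℓ` is stable under conjugation. -/
theorem conj_mem_frobSet {ℓ : ℕ} (hℓ : ℓ.Prime) {σ : N ≃ₐ[ℚ] N} (h : σ ∈ frobSet N ℓ)
    (τ : N ≃ₐ[ℚ] N) : τ * σ * τ⁻¹ ∈ frobSet N ℓ := by
  obtain ⟨A, s, hA, hs, rfl⟩ := h
  obtain ⟨g, rfl⟩ := res_surjective N τ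
  exact ⟨g • A, g * s * g⁻¹, liesOverPrime_smul hA g, isFrobeniusAt_smul hℓ hA hs g, by
    rw [map_mul, map_mul, map_inv]⟩

/-- For a good prime `ℓ` (trivial inertia in `N`), `frobSet N ℓ` is a single conjugacy class. -/
theorem exists_conj_of_mem_frobSet {ℓ : ℕ} (hℓ : Good N ℓ) {σ σ' : N ≃ₐ[ℚ] N}
    (h : σ ∈ frobSet N ℓ) (h' : σ' ∈ frobSet N ℓ) : ∃ τ : N ≃ₐ[ℚ] N, σ' = τ * σ * τ⁻¹ := by
  obtain ⟨P, hP, hσ⟩ := (mem_frobSet_iff N hℓ.1 σ).mp h
  obtain ⟨P', hP', hσ'⟩ := (mem_frobSet_iff N hℓ.1 σ').mp h'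
  have := hP.1
  have := hP.2
  have := hP'.1
  have := hP'.2
  have hmax := ratIdeal_isMaximal hℓ.1
  obtain ⟨τ, hτ⟩ := Ideal.exists_smul_eq_of_isGaloisGroup (ratIdeal ℓ) P P' (N ≃ₐ[ℚ] N)
  refine ⟨τ, ?_⟩
  have h1 := frob_conj hσ τ
  rw [hτ] at h1
  exact frob_unique hℓ.1.ne_zero (hℓ.2 P' hP') hσ' h1

/-- For a good prime and a conjugation-stable set `X`: the Frobenius class is contained in `X`
as soon as it meets `X`. -/
theorem frobSet_subset_iff {ℓ : ℕ} (hℓ : Good N ℓ) {X : Set (N ≃ₐ[ℚ] N)}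
    (hX : ∀ σ ∈ X, ∀ τ : N ≃ₐ[ℚ] N, τ * σ * τ⁻¹ ∈ X) :
    frobSet N ℓ ⊆ X ↔ ∃ σ ∈ frobSet N ℓ, σ ∈ X := by
  constructor
  · intro h
    obtain ⟨σ, hσ⟩ := frobSet_nonempty N hℓ.1
    exact ⟨σ, hσ, h hσ⟩
  · rintro ⟨σ, hσ, hσX⟩ σ' hσ'
    obtain ⟨τ, rfl⟩ := exists_conj_of_mem_frobSet N hℓ hσ hσ'
    exact hX σ hσX τ

/-- For a good prime `ℓ`, the inertia groups over `ℓ` act trivially on `N`. -/
theorem res_eq_one_of_mem_inertia {ℓ : ℕ} (hℓ : Good N ℓ) {A : ValuationSubring Qb}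
    (hA : A.LiesOverPrime ℓ) {g : Γ} (hg : g ∈ A.inertiaSubgroupIn ℚ) : res N g = 1 := by
  have h := res_mem_inertia N hg
  rw [hℓ.2 _ (primeOf_mem_primesOver hℓ.1 hA), Subgroup.mem_bot] at h
  exact h

end Lift

end Fermat.Agent.Lib.Chebotarev.LiftQb
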