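import Fermat.Agent.Lib.MinkowskiBridge
import Fermat.Agent.Lib.InertiaBridge
import Fermat.Agent.Lib.FrobDensity.KeyCount
import Fermat.Agent.Lib.PlaceValRing

/-!
# Good primes of a finite Galois level and inertia in `Gal(ℚ̄/ℚ)`

For a finite Galois extension `N ⊆ ℚ̄` of `ℚ`, a prime `ℓ` is *good* (all primes of `𝓞 N` above
`ℓ` have trivial inertia group, `Fermat.Agent.Lib.FrobDensity.Good`) if and only if every inertia
subgroup of `Gal(ℚ̄/ℚ)` above `ℓ` acts trivially on `N`.  Consequently a homomorphism from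
`Gal(ℚ̄/ℚ)` factoring through a finite level is unramified outside a finite set of primes.
-/

set_option autoImplicit false

open scoped NumberField Pointwise
open IsDedekindDomain

namespace Fermat.Agent.Lib.Chebotarev.LiftQbInertia

open Fermat.Agent.Lib.FrobDensity (ratIdeal Good ratIdeal_isMaximal)
open Fermat.Agent.Lib.MinkowskiBridge (primeBelow mem_primeBelow primeBelow_isPrime)

local notation "Qb" => AlgebraicClosure ℚ
local notation "Γ" => (AlgebraicClosure ℚ ≃ₐ[ℚ] AlgebraicClosure ℚ)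

section

variable {N : IntermediateField ℚ Qb}

lemma coe_mem (A : ValuationSubring Qb) (b : 𝓞 N) : (((b : N)) : Qb) ∈ A :=
  (A.valuation_le_one_iff _).mp
    (Fermat.Agent.Lib.MinkowskiBridge.valuation_ringOfIntegers_le_one A N b)

lemma mem_primeBelow_iff_nonunits (A : ValuationSubring Qb) (b : 𝓞 N) :
    b ∈ primeBelow A N ↔ (((b : N)) : Qb) ∈ A.nonunits := by
  rw [mem_primeBelow, A.mem_nonunits_iff]

lemma primeBelow_mem_primesOver {A : ValuationSubring Qb} {ℓ : ℕ} (hℓ : ℓ.Prime)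
    (hA : A.LiesOverPrime ℓ) : primeBelow A N ∈ (ratIdeal ℓ).primesOver (𝓞 N) := by
  have hp : (primeBelow A N).IsPrime := primeBelow_isPrime A N
  refine ⟨hp, ⟨?_⟩⟩
  have hmax := ratIdeal_isMaximal hℓ
  refine hmax.eq_of_le ?_ ?_
  · exact (Ideal.IsPrime.under ℤ (primeBelow A N)).ne_top
  · rw [Ideal.span_singleton_le_iff_mem, Ideal.under_def, Ideal.mem_comap,
      mem_primeBelow_iff_nonunits]
    have h : ((((algebraMap ℤ (𝓞 N)) (ℓ : ℤ) : 𝓞 N) : N) : Qb) = (ℓ : Qb) := by simp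
    rw [h]
    exact hA

end

section Galois

variable {N : IntermediateField ℚ Qb} [NumberField N] [IsGalois ℚ N]

omit [NumberField N] in
lemma coe_res_smul (γ : Γ) (b : 𝓞 N) :
    ((((AlgEquiv.restrictNormalHom N γ) • b : 𝓞 N) : N) : Qb) = γ ((b : N) : Qb) :=
  AlgEquiv.restrictNormal_commutes γ N (b : N)

/-- **(I1), forward.** If the primes of `𝓞 N` above `ℓ` have trivial inertia, every inertia
subgroup of `Gal(ℚ̄/ℚ)` above `ℓ` acts trivially on `N`. -/
theorem res_eq_one_of_mem_inertia {ℓ : ℕ} (hℓ : Good N ℓ) {A : ValuationSubring Qb}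
    (hA : A.LiesOverPrime ℓ) {σ : Γ} (hσ : σ ∈ A.inertiaSubgroupIn ℚ) :
    AlgEquiv.restrictNormalHom N σ = 1 := by
  have hmem : AlgEquiv.restrictNormalHom N σ ∈ (primeBelow A N).inertia (N ≃ₐ[ℚ] N) := by
    intro b
    change AlgEquiv.restrictNormalHom N σ • b - b ∈ primeBelow A N
    rw [mem_primeBelow_iff_nonunits]
    have h1 : ((((AlgEquiv.restrictNormalHom N σ • b - b : 𝓞 N)) : N) : Qb) =
        σ ((b : N) : Qb) - (((b : N)) : Qb) := by
      rw [← coe_res_smul]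
      push_cast
      rfl
    rw [h1]
    exact Fermat.Agent.Lib.InertiaBridge.sub_mem_of_mem_inertiaSubgroupIn A σ hσ _ (coe_mem A b)
  rw [hℓ.2 _ (primeBelow_mem_primesOver hℓ.1 hA), Subgroup.mem_bot] at hmem
  exact hmem

/-- **(I1), backward.** If every inertia subgroup of `Gal(ℚ̄/ℚ)` above `ℓ` acts trivially on
`N`, the primes of `𝓞 N` above `ℓ` have trivial inertia. -/
theorem good_of_forall_inertia {ℓ : ℕ} (hℓ : ℓ.Prime)
    (h : ∀ A : ValuationSubring Qb, A.LiesOverPrime ℓ → ∀ σ ∈ A.inertiaSubgroupIn ℚ,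
      AlgEquiv.restrictNormalHom N σ = 1) : Good N ℓ := by
  refine ⟨hℓ, fun P hP => ?_⟩
  have hPp := hP.1
  have hPl := hP.2
  have hℓP : ((ℓ : ℕ) : 𝓞 N) ∈ P := by
    have h2 : (ℓ : ℤ) ∈ ratIdeal ℓ := Ideal.mem_span_singleton_self _
    rw [Ideal.over_def P (ratIdeal ℓ), Ideal.under_def, Ideal.mem_comap] at h2
    simpa using h2
  have hPne : P ≠ ⊥ := by
    intro h0
    rw [h0, Ideal.mem_bot] at hℓP
    exact hℓ.ne_zero (by exact_mod_cast hℓP)
  let v : HeightOneSpectrum (𝓞 N) := ⟨P, hPp, hPne⟩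
  obtain ⟨A, -, hA2, hA3⟩ := Fermat.Agent.Lib.PlaceValRing.exists_valuationSubring_liesOver N v
  have hAℓ : A.LiesOverPrime ℓ := hA3 ℓ hℓP
  rw [Subgroup.eq_bot_iff_forall]
  intro τ hτ
  have hτ' : ∀ x : N, IsIntegral ℤ (x : Qb) → A.valuation ((τ x : Qb) - (x : Qb)) < 1 := by
    intro x hx
    have hxN : IsIntegral ℤ x := (isIntegral_algHom_iff (N.val.toIntAlgHom)
      (by exact Subtype.val_injective)).mp hx
    let b : 𝓞 N := ⟨x, hxN⟩
    have h1 : τ • b - b ∈ P := hτ b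
    have h2 : (((τ • b - b : 𝓞 N) : N) : Qb) ∈ A.nonunits :=
      (hA2 _).mpr ((HeightOneSpectrum.valuation_lt_one_iff_mem (K := N) v (τ • b - b)).mpr h1)
    rw [A.mem_nonunits_iff] at h2
    have h3 : (((τ • b - b : 𝓞 N) : N) : Qb) = (τ x : Qb) - (x : Qb) := by
      push_cast
      rfl
    rwa [h3] at h2
  have hfd : FiniteDimensional ℚ N := inferInstance
  have hn : Normal ℚ N := inferInstance
  obtain ⟨σ, hσI, hσ⟩ :=
    Fermat.Agent.Lib.MinkowskiBridge.exists_mem_inertia_restrict A hℓ hAℓ N τ hτ'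
  have h1 : AlgEquiv.restrictNormalHom N σ = τ := by
    ext x
    have h2 := AlgEquiv.restrictNormal_commutes σ N x
    change ((AlgEquiv.restrictNormalHom N σ x : N) : Qb) = _
    rw [← hσ x]
    exact h2
  rw [← h1]
  exact h A hAℓ σ hσI

/-- **(I1)** A prime is good for `N` iff all inertia subgroups of `Gal(ℚ̄/ℚ)` above it act
trivially on `N`. -/
theorem good_iff {ℓ : ℕ} (hℓ : ℓ.Prime) :
    Good N ℓ ↔ ∀ A : ValuationSubring Qb, A.LiesOverPrime ℓ → ∀ σ ∈ A.inertiaSubgroupIn ℚ,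
      AlgEquiv.restrictNormalHom N σ = 1 :=
  ⟨fun h _ hA _ hσ => res_eq_one_of_mem_inertia h hA hσ, good_of_forall_inertia hℓ⟩

omit [NumberField N] in
/-- An automorphism of `ℚ̄` whose restriction to `N` is trivial fixes `N` pointwise. -/
lemma fixes_of_res_eq_one {σ : Γ} (h : AlgEquiv.restrictNormalHom N σ = 1) (x : Qb)
    (hx : x ∈ N) : σ x = x := by
  have h2 := AlgEquiv.restrictNormal_commutes σ N ⟨x, hx⟩
  have h3 : σ.restrictNormal N = 1 := h
  rw [h3] at h2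
  exact h2.symm

/-- **(I2)** A homomorphism trivial on the automorphisms fixing `N` is trivial on the inertia
subgroups above the good primes of `N`. -/
theorem map_eq_one_of_mem_inertia {H : Type*} [MulOneClass H] (ρ : Γ →* H)
    (hρ : ∀ σ : Γ, (∀ x ∈ N, σ x = x) → ρ σ = 1) {ℓ : ℕ} (hℓ : Good N ℓ)
    {A : ValuationSubring Qb} (hA : A.LiesOverPrime ℓ) {σ : Γ}
    (hσ : σ ∈ A.inertiaSubgroupIn ℚ) : ρ σ = 1 :=
  hρ σ (fixes_of_res_eq_one (res_eq_one_of_mem_inertia hℓ hA hσ))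

variable (N) in
/-- All but finitely many primes are unramified in `N`, in the `Gal(ℚ̄/ℚ)` vocabulary. -/
theorem exists_finset_res_eq_one : ∃ T : Finset ℕ, ∀ ℓ : ℕ, ℓ.Prime → ℓ ∉ T →
    ∀ A : ValuationSubring Qb, A.LiesOverPrime ℓ → ∀ σ ∈ A.inertiaSubgroupIn ℚ,
      AlgEquiv.restrictNormalHom N σ = 1 := by
  obtain ⟨T, hT⟩ := Fermat.Agent.Lib.FrobDensity.exists_finset_good N
  exact ⟨T, fun ℓ hℓ hℓT A hA σ hσ => res_eq_one_of_mem_inertia (hT ℓ hℓ hℓT) hA hσ⟩

end Galois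

section Consumer

/-- **(I3)** A homomorphism from `Gal(ℚ̄/ℚ)` factoring through a finite level is unramified
outside a finite set of primes. -/
theorem exists_finset_unramified {M : Type} [MulOneClass M] (ρ : Γ →* M)
    (hρ : GaloisFactorsThroughFiniteLevel ρ) :
    ∃ T : Finset ℕ, ∀ ℓ : ℕ, ℓ.Prime → ℓ ∉ T → ∀ A : ValuationSubring Qb, A.LiesOverPrime ℓ →
      ∀ σ ∈ A.inertiaSubgroupIn ℚ, ρ σ = 1 := by
  obtain ⟨L, hLfin, hL⟩ := hρ
  have hfd : FiniteDimensional ℚ (IntermediateField.normalClosure ℚ L Qb) :=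
    normalClosure.is_finiteDimensional ℚ L Qb
  have hQb : Normal ℚ Qb := Fermat.Agent.Lib.FrobProfinite.isGalois_Qb.to_normal
  have hnorm : Normal ℚ (IntermediateField.normalClosure ℚ L Qb) :=
    normalClosure.normal ℚ L Qb
  have hNF : NumberField (IntermediateField.normalClosure ℚ L Qb) := ⟨⟩
  have hgal : IsGalois ℚ (IntermediateField.normalClosure ℚ L Qb) := ⟨⟩
  have hle : L ≤ IntermediateField.normalClosure ℚ L Qb := L.le_normalClosure
  obtain ⟨T, hT⟩ := exists_finset_res_eq_one (IntermediateField.normalClosure ℚ L Qb)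
  refine ⟨T, fun ℓ hℓ hℓT A hA σ hσ => hL σ fun x hx => ?_⟩
  exact fixes_of_res_eq_one (hT ℓ hℓ hℓT A hA σ hσ) x (hle hx)

end Consumer

end Fermat.Agent.Lib.Chebotarev.LiftQbInertia
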