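import Fermat.Agent.Lib.Chebotarev.LiftQb
import Fermat.Agent.Lib.Chebotarev.FrobLift

/-!
# Chebotarev, brick (G6), transfer: from a Galois number field to `Gal(ℚ̄/ℚ)`

The abstract Chebotarev statement for a Galois number field `L` (`ChebStatement L`: up to
inversion, Dirichlet-density little-o form, in the vocabulary `Good` / `FrobIn` / `DS`) is
transferred to a homomorphism `π : Gal(ℚ̄/ℚ) → G` onto a finite group which factors through a
finite level, with the Frobenius elements of the Prelude (`ValuationSubring.IsFrobeniusAt`).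

* `exists_descent`: `π` factors through `Gal(N/ℚ)` for a finite Galois `N ⊆ ℚ̄`.
* `chebotarev_Qb_coeff`: the set form, for any coefficient function which is the indicator of
  `{p prime | some Frobenius over p maps into X}` outside a finite set.
* `chebotarev_Qb`, `chebotarev_Qb_forall`: the same with explicit indicator coefficients.
* `chebotarev_Qb_classFun`: the class function form (`f` invariant under conjugation and
  inversion).
-/

set_option autoImplicit false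
set_option linter.unusedSectionVars false

open scoped NumberField Pointwise
open IsDedekindDomain

namespace Fermat.Agent.Lib.Chebotarev.LiftQbTransfer

open Fermat.Agent.Lib.FrobDensity Fermat.Agent.Lib.Chebotarev Fermat.Agent.Lib.Chebotarev.LiftQb

local notation "Qb" => AlgebraicClosure ℚ
local notation "Γ" => (AlgebraicClosure ℚ ≃ₐ[ℚ] AlgebraicClosure ℚ)

section Series

/-- Two bounded coefficient functions which agree off a finite set have Dirichlet series which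
differ by a bounded amount. -/
lemma abs_DS_sub_le {c₁ c₂ : ℕ → ℝ} {B₁ B₂ : ℝ} (h₁ : ∀ n, |c₁ n| ≤ B₁) (h₂ : ∀ n, |c₂ n| ≤ B₂)
    (T : Finset ℕ) (hT : ∀ n, n ∉ T → c₁ n = c₂ n) {s : ℝ} (hs : 1 < s) :
    |DS c₁ s - DS c₂ s| ≤ ∑ n ∈ T, |c₁ n - c₂ n| := by
  rw [← DS_sub h₁ h₂ hs]
  exact abs_DS_le_of_support T (fun n hn => by rw [hT n hn, sub_self]) (by linarith)

/-- A function on `ℕ` which is bounded off a finite set is bounded. -/
lemma exists_bound_of_finset {c : ℕ → ℝ} (T : Finset ℕ) {B : ℝ} (h : ∀ n, n ∉ T → |c n| ≤ B) :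
    ∃ B' : ℝ, ∀ n, |c n| ≤ B' := by
  refine ⟨|B| + ∑ n ∈ T, |c n|, fun n => ?_⟩
  have h0 : 0 ≤ ∑ n ∈ T, |c n| := Finset.sum_nonneg fun n _ => abs_nonneg _
  by_cases hn : n ∈ T
  · have h1 : |c n| ≤ ∑ n ∈ T, |c n| :=
      Finset.single_le_sum (f := fun n => |c n|) (fun n _ => abs_nonneg _) hn
    have := abs_nonneg B
    linarith
  · have := h n hn
    have := le_abs_self B
    linarith

end Series

section Statement

open Classical in
/-- **Chebotarev up to inversion** for the Galois number field `L`, Dirichlet-density little-o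
form: for a set `X ⊆ Gal(L/ℚ)` stable under conjugation and inversion, the primes whose Frobenius
class lies in `X` have density `|X| / |G|`. -/
def ChebStatement (L : Type*) [Field L] [NumberField L] [IsGalois ℚ L] : Prop :=
  ∀ X : Set (L ≃ₐ[ℚ] L), (∀ g τ : L ≃ₐ[ℚ] L, τ ∈ X → g * τ * g⁻¹ ∈ X) → (∀ τ ∈ X, τ⁻¹ ∈ X) →
    ∀ ε : ℝ, 0 < ε → ∃ C : ℝ, ∀ s : ℝ, 1 < s → s ≤ 2 →
      |DS (fun ℓ => if Good L ℓ ∧ FrobIn X ℓ then 1 else 0) s -
        (Nat.card X : ℝ) / (Nat.card (L ≃ₐ[ℚ] L) : ℝ) * Real.log (1 / (s - 1))| ≤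
        ε * Real.log (1 / (s - 1)) + C

end Statement

section Descent

/-- **Descent to finite level.**  A homomorphism from `Gal(ℚ̄/ℚ)` which is trivial on the
automorphisms fixing a finite extension factors through `Gal(N/ℚ)` for a finite Galois
`N ⊆ ℚ̄`. -/
theorem exists_descent {G : Type*} [Group G] (π : Γ →* G)
    (hlev : ∃ L : IntermediateField ℚ Qb, FiniteDimensional ℚ L ∧
      ∀ σ : Γ, (∀ x ∈ L, σ x = x) → π σ = 1) :
    ∃ (N : IntermediateField ℚ Qb) (_ : NumberField N) (_ : IsGalois ℚ N)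
      (πN : (N ≃ₐ[ℚ] N) →* G), ∀ σ : Γ, πN (AlgEquiv.restrictNormalHom N σ) = π σ := by
  obtain ⟨L, hL, hπ⟩ := hlev
  obtain ⟨N, hLN, hfd, hn⟩ := Fermat.Agent.Lib.FrobeniusDensity.exists_normal_finite_ge L
  have hnf : NumberField N := ⟨⟩
  have hgal : IsGalois ℚ N := ⟨⟩
  have hker : (res N).ker ≤ π.ker := by
    intro σ hσ
    rw [MonoidHom.mem_ker] at hσ ⊢
    exact hπ σ fun x hx => (res_eq_one_iff N σ).mp hσ x (hLN hx)
  refine ⟨N, hnf, hgal, (res N).liftOfSurjective (res_surjective N) ⟨π, hker⟩, fun σ => ?_⟩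
  exact (res N).liftOfRightInverse_comp_apply _ _ ⟨π, hker⟩ σ

end Descent

section Card

variable {H G : Type*} [Group H] [Group G]

/-- The preimage of a set under a surjective homomorphism is in bijection with the product of
the set and the kernel. -/
theorem card_preimage_eq (f : H →* G) (hf : Function.Surjective f) (X : Set G) :
    Nat.card (f ⁻¹' X) = Nat.card X * Nat.card f.ker := by
  rw [← Nat.card_prod]
  refine Nat.card_congr ?_
  refine
    { toFun := fun h => (⟨f h.1, h.2⟩, ⟨(Function.surjInv hf (f h.1))⁻¹ * h.1, ?_⟩)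
      invFun := fun p => ⟨Function.surjInv hf p.1.1 * p.2.1, ?_⟩
      left_inv := ?_
      right_inv := ?_ }
  · rw [MonoidHom.mem_ker, map_mul, map_inv, Function.surjInv_eq hf, inv_mul_cancel]
  · show f (Function.surjInv hf p.1.1 * p.2.1) ∈ X
    rw [map_mul, Function.surjInv_eq hf, MonoidHom.mem_ker.mp p.2.2, mul_one]
    exact p.1.2
  · intro h
    apply Subtype.ext
    show Function.surjInv hf (f h.1) * ((Function.surjInv hf (f h.1))⁻¹ * h.1) = h.1
    rw [mul_inv_cancel_left]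
  · rintro ⟨⟨x, hx⟩, ⟨k, hk⟩⟩
    have hk' : f k = 1 := MonoidHom.mem_ker.mp hk
    have e : f (Function.surjInv hf x * k) = x := by
      rw [map_mul, Function.surjInv_eq hf, hk', mul_one]
    refine Prod.ext (Subtype.ext e) (Subtype.ext ?_)
    show (Function.surjInv hf (f (Function.surjInv hf x * k)))⁻¹ * (Function.surjInv hf x * k) = k
    rw [e, inv_mul_cancel_left]

theorem card_eq_mul_card_ker (f : H →* G) (hf : Function.Surjective f) :
    Nat.card H = Nat.card G * Nat.card f.ker := by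
  have h := card_preimage_eq f hf Set.univ
  rw [Set.preimage_univ, Nat.card_coe_set_eq, Set.ncard_univ, Nat.card_coe_set_eq,
    Set.ncard_univ] at h
  exact h

/-- Densities are preserved under preimages by surjective homomorphisms of finite groups. -/
theorem card_preimage_div [Finite H] (f : H →* G) (hf : Function.Surjective f) (X : Set G) :
    (Nat.card (f ⁻¹' X) : ℝ) / (Nat.card H : ℝ) = (Nat.card X : ℝ) / (Nat.card G : ℝ) := by
  have hk : (Nat.card f.ker : ℝ) ≠ 0 := by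
    have : 0 < Nat.card f.ker := Nat.card_pos
    exact_mod_cast this.ne'
  rw [card_preimage_eq f hf X, card_eq_mul_card_ker f hf, Nat.cast_mul, Nat.cast_mul,
    mul_div_mul_right _ _ hk]

end Card

section Conj

variable {G : Type*} [Group G]

/-- **The Frobenius class is well defined at almost all primes.**  For `π` factoring through a
finite level, outside a finite set of primes any two Frobenius elements over `p` have conjugate
images under `π`, and `π` is trivial on the inertia groups over `p`. -/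
theorem exists_finset_frob_conj (π : Γ →* G)
    (hlev : ∃ L : IntermediateField ℚ Qb, FiniteDimensional ℚ L ∧
      ∀ σ : Γ, (∀ x ∈ L, σ x = x) → π σ = 1) :
    ∃ T : Finset ℕ, ∀ p : ℕ, p.Prime → p ∉ T →
      (∀ (A : ValuationSubring Qb) (σ : Γ) (A' : ValuationSubring Qb) (σ' : Γ),
        A.LiesOverPrime p → A.IsFrobeniusAt σ p → A'.LiesOverPrime p → A'.IsFrobeniusAt σ' p →
        ∃ γ : Γ, π σ' = π γ * π σ * (π γ)⁻¹) ∧
      (∀ (A : ValuationSubring Qb) (σ : Γ), A.LiesOverPrime p → σ ∈ A.inertiaSubgroupIn ℚ →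
        π σ = 1) := by
  obtain ⟨N, hNF, hGal, πN, hπN⟩ := exists_descent π hlev
  obtain ⟨T, hT⟩ := exists_finset_good N
  refine ⟨T, fun p hp hpT => ⟨?_, ?_⟩⟩
  · intro A σ A' σ' hA hσ hA' hσ'
    have hgood := hT p hp hpT
    have h1 : res N σ ∈ LiftQb.frobSet N p := ⟨A, σ, hA, hσ, rfl⟩
    have h2 : res N σ' ∈ LiftQb.frobSet N p := ⟨A', σ', hA', hσ', rfl⟩
    obtain ⟨τ, hτ⟩ := exists_conj_of_mem_frobSet N hgood h1 h2
    obtain ⟨γ, rfl⟩ := res_surjective N τ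
    refine ⟨γ, ?_⟩
    rw [← hπN σ', ← hπN γ, ← hπN σ, hτ, map_mul, map_mul, map_inv]
  · intro A σ hA hσ
    have hgood := hT p hp hpT
    rw [← hπN σ, res_eq_one_of_mem_inertia N hgood hA hσ, map_one]

end Conj

section Main

variable {G : Type*} [Group G] [Finite G]

/-- **Chebotarev for `Gal(ℚ̄/ℚ)`, set form, general coefficients.**  `π` a homomorphism from
`Gal(ℚ̄/ℚ)` onto a finite group `G` factoring through a finite level, `X ⊆ G` stable under
conjugation and inversion, `c` a coefficient function which outside a finite set `S` is the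
indicator of the primes `p` having a Frobenius element which `π` maps into `X`.  Then
`∑ c p p^(-s) = (|X| / |G|) log (1 / (s - 1)) + o(log (1 / (s - 1)))` on `(1, 2]`. -/
theorem chebotarev_Qb_coeff
    (hCheb : ∀ (L : Type) [Field L] [NumberField L] [IsGalois ℚ L], ChebStatement L)
    (π : Γ →* G) (hsurj : Function.Surjective π)
    (hlev : ∃ L : IntermediateField ℚ Qb, FiniteDimensional ℚ L ∧
      ∀ σ : Γ, (∀ x ∈ L, σ x = x) → π σ = 1)
    (X : Set G) (hconj : ∀ g x : G, x ∈ X → g * x * g⁻¹ ∈ X) (hinv : ∀ x ∈ X, x⁻¹ ∈ X)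
    (S : Finset ℕ) (c : ℕ → ℝ)
    (hc1 : ∀ p : ℕ, p ∉ S → p.Prime → (∃ (A : ValuationSubring Qb) (σ : Γ),
      A.LiesOverPrime p ∧ A.IsFrobeniusAt σ p ∧ π σ ∈ X) → c p = 1)
    (hc0 : ∀ p : ℕ, p ∉ S → ¬ (p.Prime ∧ ∃ (A : ValuationSubring Qb) (σ : Γ),
      A.LiesOverPrime p ∧ A.IsFrobeniusAt σ p ∧ π σ ∈ X) → c p = 0)
    (ε : ℝ) (hε : 0 < ε) :
    ∃ C : ℝ, ∀ s : ℝ, 1 < s → s ≤ 2 →
      |DS c s - (Nat.card X : ℝ) / (Nat.card G : ℝ) * Real.log (1 / (s - 1))| ≤
        ε * Real.log (1 / (s - 1)) + C := by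
  classical
  obtain ⟨N, hNF, hGal, πN, hπN⟩ := exists_descent π hlev
  have hsurjN : Function.Surjective πN := fun g => by
    obtain ⟨σ, rfl⟩ := hsurj g
    exact ⟨_, hπN σ⟩
  have hconj' : ∀ g τ : N ≃ₐ[ℚ] N, τ ∈ πN ⁻¹' X → g * τ * g⁻¹ ∈ πN ⁻¹' X := by
    intro g τ hτ
    show πN (g * τ * g⁻¹) ∈ X
    rw [map_mul, map_mul, map_inv]
    exact hconj _ _ hτ
  have hinv' : ∀ τ ∈ πN ⁻¹' X, τ⁻¹ ∈ πN ⁻¹' X := by
    intro τ hτ
    show πN τ⁻¹ ∈ X
    rw [map_inv]
    exact hinv _ hτ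
  obtain ⟨C, hC⟩ := hCheb N (πN ⁻¹' X) hconj' hinv' ε hε
  obtain ⟨T, hT⟩ := exists_finset_good N
  have hagree : ∀ n, n ∉ T ∪ S →
      (if Good N n ∧ FrobIn (πN ⁻¹' X) n then (1 : ℝ) else 0) = c n := by
    intro n hn
    rw [Finset.mem_union, not_or] at hn
    by_cases hp : n.Prime
    · have hgood := hT n hp hn.1
      have hiff : FrobIn (πN ⁻¹' X) n ↔ ∃ (A : ValuationSubring Qb) (σ : Γ),
          A.LiesOverPrime n ∧ A.IsFrobeniusAt σ n ∧ π σ ∈ X := by
        rw [frobIn_iff_frobInQb N hgood (πN ⁻¹' X)]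
        constructor
        · rintro ⟨A, σ, hA, hσ, h⟩
          refine ⟨A, σ, hA, hσ, ?_⟩
          rw [← hπN σ]
          exact h
        · rintro ⟨A, σ, hA, hσ, h⟩
          refine ⟨A, σ, hA, hσ, ?_⟩
          show πN _ ∈ X
          rw [hπN σ]
          exact h
      by_cases hF : FrobIn (πN ⁻¹' X) n
      · rw [if_pos ⟨hgood, hF⟩, hc1 n hn.2 hp (hiff.mp hF)]
      · rw [if_neg (fun h => hF h.2), hc0 n hn.2 (fun h => hF (hiff.mpr h.2))]
    · have h1 : ¬ (Good N n ∧ FrobIn (πN ⁻¹' X) n) := fun h => hp h.1.1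
      rw [if_neg h1, hc0 n hn.2 (fun h => hp h.1)]
  have hb₁ : ∀ n, |(if Good N n ∧ FrobIn (πN ⁻¹' X) n then (1 : ℝ) else 0)| ≤ 1 := by
    intro n
    split_ifs <;> simp
  obtain ⟨B, hB⟩ : ∃ B, ∀ n, |c n| ≤ B := by
    refine exists_bound_of_finset (T ∪ S) (B := 1) fun n hn => ?_
    rw [← hagree n hn]
    exact hb₁ n
  refine ⟨C + ∑ n ∈ T ∪ S,
    |(if Good N n ∧ FrobIn (πN ⁻¹' X) n then (1 : ℝ) else 0) - c n|, fun s hs hs2 => ?_⟩
  have h1 := hC s hs hs2
  have h2 := abs_DS_sub_le hb₁ hB (T ∪ S) hagree hs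
  rw [card_preimage_div πN hsurjN X] at h1
  have h3 : DS c s - (Nat.card X : ℝ) / (Nat.card G : ℝ) * Real.log (1 / (s - 1)) =
      (DS (fun ℓ => if Good N ℓ ∧ FrobIn (πN ⁻¹' X) ℓ then (1 : ℝ) else 0) s -
          (Nat.card X : ℝ) / (Nat.card G : ℝ) * Real.log (1 / (s - 1))) -
        (DS (fun ℓ => if Good N ℓ ∧ FrobIn (πN ⁻¹' X) ℓ then (1 : ℝ) else 0) s - DS c s) := by
    ring
  rw [h3]
  refine (abs_sub _ _).trans ?_
  linarith

open Classical in
/-- **Chebotarev for `Gal(ℚ̄/ℚ)`, set form** (`∃` a Frobenius element mapping into `X`). -/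
theorem chebotarev_Qb
    (hCheb : ∀ (L : Type) [Field L] [NumberField L] [IsGalois ℚ L], ChebStatement L)
    (π : Γ →* G) (hsurj : Function.Surjective π)
    (hlev : ∃ L : IntermediateField ℚ Qb, FiniteDimensional ℚ L ∧
      ∀ σ : Γ, (∀ x ∈ L, σ x = x) → π σ = 1)
    (S : Finset ℕ) (X : Set G) (hconj : ∀ g x : G, x ∈ X → g * x * g⁻¹ ∈ X)
    (hinv : ∀ x ∈ X, x⁻¹ ∈ X) (ε : ℝ) (hε : 0 < ε) :
    ∃ C : ℝ, ∀ s : ℝ, 1 < s → s ≤ 2 →
      |DS (fun p => if p.Prime ∧ p ∉ S ∧ ∃ (A : ValuationSubring Qb) (σ : Γ),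
            A.LiesOverPrime p ∧ A.IsFrobeniusAt σ p ∧ π σ ∈ X then 1 else 0) s -
          (Nat.card X : ℝ) / (Nat.card G : ℝ) * Real.log (1 / (s - 1))| ≤
        ε * Real.log (1 / (s - 1)) + C := by
  refine chebotarev_Qb_coeff hCheb π hsurj hlev X hconj hinv S _ ?_ ?_ ε hε
  · intro p hpS hp h
    rw [if_pos ⟨hp, hpS, h⟩]
  · intro p hpS h
    rw [if_neg fun h' => h ⟨h'.1, h'.2.2⟩]

open Classical in
/-- **Chebotarev for `Gal(ℚ̄/ℚ)`, set form** (`∀` Frobenius elements over `p` map into `X`). -/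
theorem chebotarev_Qb_forall
    (hCheb : ∀ (L : Type) [Field L] [NumberField L] [IsGalois ℚ L], ChebStatement L)
    (π : Γ →* G) (hsurj : Function.Surjective π)
    (hlev : ∃ L : IntermediateField ℚ Qb, FiniteDimensional ℚ L ∧
      ∀ σ : Γ, (∀ x ∈ L, σ x = x) → π σ = 1)
    (S : Finset ℕ) (X : Set G) (hconj : ∀ g x : G, x ∈ X → g * x * g⁻¹ ∈ X)
    (hinv : ∀ x ∈ X, x⁻¹ ∈ X) (ε : ℝ) (hε : 0 < ε) :
    ∃ C : ℝ, ∀ s : ℝ, 1 < s → s ≤ 2 →
      |DS (fun p => if p.Prime ∧ p ∉ S ∧ ∀ (A : ValuationSubring Qb) (σ : Γ),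
            A.LiesOverPrime p → A.IsFrobeniusAt σ p → π σ ∈ X then 1 else 0) s -
          (Nat.card X : ℝ) / (Nat.card G : ℝ) * Real.log (1 / (s - 1))| ≤
        ε * Real.log (1 / (s - 1)) + C := by
  obtain ⟨T, hT⟩ := exists_finset_frob_conj π hlev
  have hiff : ∀ p : ℕ, p.Prime → p ∉ S ∪ T →
      ((∃ (A : ValuationSubring Qb) (σ : Γ), A.LiesOverPrime p ∧ A.IsFrobeniusAt σ p ∧ π σ ∈ X) ↔
        ∀ (A : ValuationSubring Qb) (σ : Γ), A.LiesOverPrime p → A.IsFrobeniusAt σ p →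
          π σ ∈ X) := by
    intro p hp hpST
    rw [Finset.mem_union, not_or] at hpST
    constructor
    · rintro ⟨A, σ, hA, hσ, hX⟩ A' σ' hA' hσ'
      obtain ⟨γ, hγ⟩ := (hT p hp hpST.2).1 A σ A' σ' hA hσ hA' hσ'
      rw [hγ]
      exact hconj _ _ hX
    · intro h
      obtain ⟨A, σ, hA, hσ⟩ := Fermat.Agent.Lib.Frobenius.exists_frobenius hp
      exact ⟨A, σ, hA, hσ, h A σ hA hσ⟩
  refine chebotarev_Qb_coeff hCheb π hsurj hlev X hconj hinv (S ∪ T) _ ?_ ?_ ε hε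
  · intro p hpST hp h
    have hpS : p ∉ S := fun h' => hpST (Finset.mem_union_left _ h')
    rw [if_pos ⟨hp, hpS, (hiff p hp hpST).mp h⟩]
  · intro p hpST h
    rw [if_neg]
    rintro ⟨hp, -, h'⟩
    exact h ⟨hp, (hiff p hp hpST).mpr h'⟩

/-- **Chebotarev for `Gal(ℚ̄/ℚ)`, class function form.**  `f : G → ℝ` invariant under conjugation
and inversion, `c` a coefficient function supported on the primes outside a finite set `S` with
`c p = f (π σ)` for the Frobenius elements `σ` over `p ∉ S`.  Then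
`∑ c p p^(-s) = mean(f) log (1 / (s - 1)) + o(log (1 / (s - 1)))` on `(1, 2]`. -/
theorem chebotarev_Qb_classFun
    (hCheb : ∀ (L : Type) [Field L] [NumberField L] [IsGalois ℚ L], ChebStatement L)
    (π : Γ →* G) (hsurj : Function.Surjective π)
    (hlev : ∃ L : IntermediateField ℚ Qb, FiniteDimensional ℚ L ∧
      ∀ σ : Γ, (∀ x ∈ L, σ x = x) → π σ = 1)
    (f : G → ℝ) (hfconj : ∀ g x : G, f (g * x * g⁻¹) = f x) (hfinv : ∀ x : G, f x⁻¹ = f x)
    (S : Finset ℕ) (c : ℕ → ℝ)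
    (hc : ∀ p : ℕ, p ∉ S → p.Prime → ∀ (A : ValuationSubring Qb) (σ : Γ),
      A.LiesOverPrime p → A.IsFrobeniusAt σ p → c p = f (π σ))
    (hc0 : ∀ n : ℕ, n ∉ S → ¬ n.Prime → c n = 0)
    (ε : ℝ) (hε : 0 < ε) :
    ∃ C : ℝ, ∀ s : ℝ, 1 < s → s ≤ 2 →
      |DS c s - (∑ᶠ x : G, f x) / (Nat.card G : ℝ) * Real.log (1 / (s - 1))| ≤
        ε * Real.log (1 / (s - 1)) + C := by
  classical
  have := Fintype.ofFinite G
  obtain ⟨T, hT⟩ := exists_finset_frob_conj π hlev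
  set V : Finset ℝ := Finset.univ.image f with hV
  -- the indicator coefficients of the level sets
  set cv : ℝ → ℕ → ℝ := fun v p => if p.Prime ∧ p ∉ S ∪ T ∧ ∃ (A : ValuationSubring Qb) (σ : Γ),
      A.LiesOverPrime p ∧ A.IsFrobeniusAt σ p ∧ π σ ∈ f ⁻¹' {v} then 1 else 0 with hcv
  set ε' : ℝ := ε / (1 + ∑ v ∈ V, |v|) with hε'
  have hsum0 : 0 ≤ ∑ v ∈ V, |v| := Finset.sum_nonneg fun v _ => abs_nonneg v
  have hε'pos : 0 < ε' := div_pos hε (by linarith)
  have hX : ∀ v : ℝ, ∃ C : ℝ, ∀ s : ℝ, 1 < s → s ≤ 2 →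
      |DS (cv v) s - (Nat.card (f ⁻¹' {v}) : ℝ) / (Nat.card G : ℝ) * Real.log (1 / (s - 1))| ≤
        ε' * Real.log (1 / (s - 1)) + C := by
    intro v
    refine chebotarev_Qb hCheb π hsurj hlev (S ∪ T) (f ⁻¹' {v}) ?_ ?_ ε' hε'pos
    · intro g x hx
      show f (g * x * g⁻¹) = v
      rw [hfconj]
      exact hx
    · intro x hx
      show f x⁻¹ = v
      rw [hfinv]
      exact hx
  choose Cv hCv using hX
  have hcvb : ∀ v n, |cv v n| ≤ 1 := by
    intro v n
    rw [hcv]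
    simp only
    split_ifs <;> simp
  -- `c` agrees with `∑ v, v * cv v` outside `S ∪ T`
  have hagree : ∀ n, n ∉ S ∪ T → c n = ∑ v ∈ V, v * cv v n := by
    intro n hn
    have hn' := hn
    rw [Finset.mem_union, not_or] at hn'
    by_cases hp : n.Prime
    · obtain ⟨A₀, σ₀, hA₀, hσ₀⟩ := Fermat.Agent.Lib.Frobenius.exists_frobenius hp
      have hv₀ : f (π σ₀) ∈ V := Finset.mem_image_of_mem f (Finset.mem_univ _)
      have hval : ∀ (A : ValuationSubring Qb) (σ : Γ), A.LiesOverPrime n →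
          A.IsFrobeniusAt σ n → f (π σ) = f (π σ₀) := by
        intro A σ hA hσ
        obtain ⟨γ, hγ⟩ := (hT n hp hn'.2).1 A₀ σ₀ A σ hA₀ hσ₀ hA hσ
        rw [hγ, hfconj]
      rw [Finset.sum_eq_single_of_mem (f (π σ₀)) hv₀]
      · have h1 : cv (f (π σ₀)) n = 1 := by
          rw [hcv]
          simp only
          rw [if_pos ⟨hp, hn, A₀, σ₀, hA₀, hσ₀, rfl⟩]
        rw [h1, mul_one]
        exact hc n hn'.1 hp A₀ σ₀ hA₀ hσ₀
      · intro v _ hv
        have h1 : cv v n = 0 := by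
          rw [hcv]
          simp only
          rw [if_neg]
          rintro ⟨-, -, A, σ, hA, hσ, h⟩
          exact hv (h.symm.trans (hval A σ hA hσ))
        rw [h1, mul_zero]
    · rw [hc0 n hn'.1 hp]
      symm
      refine Finset.sum_eq_zero fun v _ => ?_
      have h1 : cv v n = 0 := by
        rw [hcv]
        simp only
        rw [if_neg fun h => hp h.1]
      rw [h1, mul_zero]
  have hb₂ : ∀ n, |∑ v ∈ V, v * cv v n| ≤ ∑ v ∈ V, |v| := by
    intro n
    refine (Finset.abs_sum_le_sum_abs _ _).trans (Finset.sum_le_sum fun v _ => ?_)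
    rw [abs_mul]
    calc |v| * |cv v n| ≤ |v| * 1 := mul_le_mul_of_nonneg_left (hcvb v n) (abs_nonneg v)
      _ = |v| := mul_one _
  obtain ⟨B, hB⟩ : ∃ B, ∀ n, |c n| ≤ B := by
    refine exists_bound_of_finset (S ∪ T) (B := ∑ v ∈ V, |v|) fun n hn => ?_
    rw [hagree n hn]
    exact hb₂ n
  -- the mean of `f` as a sum over the values
  have hmean : (∑ᶠ x : G, f x) = ∑ v ∈ V, v * (Nat.card (f ⁻¹' {v}) : ℝ) := by
    rw [finsum_eq_sum_of_fintype]
    have h1 := Finset.sum_comp (s := (Finset.univ : Finset G)) (fun v : ℝ => v) f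
    rw [h1]
    refine Finset.sum_congr rfl fun v _ => ?_
    have h2 : Nat.card (f ⁻¹' {v}) = (Finset.univ.filter fun x => f x = v).card := by
      rw [Nat.card_eq_fintype_card, Fintype.card_subtype]
      rfl
    rw [h2, nsmul_eq_mul, mul_comm]
  refine ⟨(∑ n ∈ S ∪ T, |c n - ∑ v ∈ V, v * cv v n|) + ∑ v ∈ V, |v| * Cv v, fun s hs hs2 => ?_⟩
  have hlog : 0 ≤ Real.log (1 / (s - 1)) := by
    apply Real.log_nonneg
    rw [le_div_iff₀ (by linarith)]
    linarith
  have h1 := abs_DS_sub_le hB hb₂ (S ∪ T) hagree hs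
  have h2 : DS (fun n => ∑ v ∈ V, v * cv v n) s = ∑ v ∈ V, v * DS (cv v) s := by
    have h3 : ∀ v ∈ V, ∀ n, |v * cv v n| ≤ ∑ v ∈ V, |v| := by
      intro v hv n
      rw [abs_mul]
      calc |v| * |cv v n| ≤ |v| * 1 := mul_le_mul_of_nonneg_left (hcvb v n) (abs_nonneg v)
        _ = |v| := mul_one _
        _ ≤ ∑ v ∈ V, |v| := Finset.single_le_sum (f := fun v => |v|) (fun v _ => abs_nonneg v) hv
    rw [DS_sum V h3 hs]
    exact Finset.sum_congr rfl fun v _ => DS_const_mul v (cv v) s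
  have h4 : (∑ᶠ x : G, f x) / (Nat.card G : ℝ) * Real.log (1 / (s - 1)) =
      ∑ v ∈ V, v * ((Nat.card (f ⁻¹' {v}) : ℝ) / (Nat.card G : ℝ) * Real.log (1 / (s - 1))) := by
    rw [hmean, Finset.sum_div, Finset.sum_mul]
    exact Finset.sum_congr rfl fun v _ => by ring
  have h5 : |∑ v ∈ V, v * DS (cv v) s -
      ∑ v ∈ V, v * ((Nat.card (f ⁻¹' {v}) : ℝ) / (Nat.card G : ℝ) * Real.log (1 / (s - 1)))| ≤
      ∑ v ∈ V, |v| * (ε' * Real.log (1 / (s - 1)) + Cv v) := by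
    rw [← Finset.sum_sub_distrib]
    refine (Finset.abs_sum_le_sum_abs _ _).trans (Finset.sum_le_sum fun v _ => ?_)
    rw [← mul_sub, abs_mul]
    exact mul_le_mul_of_nonneg_left (hCv v s hs hs2) (abs_nonneg v)
  have h6 : ∑ v ∈ V, |v| * (ε' * Real.log (1 / (s - 1)) + Cv v) =
      (∑ v ∈ V, |v|) * ε' * Real.log (1 / (s - 1)) + ∑ v ∈ V, |v| * Cv v := by
    rw [Finset.sum_mul, Finset.sum_mul, ← Finset.sum_add_distrib]
    exact Finset.sum_congr rfl fun v _ => by ring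
  have h7 : (∑ v ∈ V, |v|) * ε' ≤ ε := by
    rw [hε', mul_div_assoc']
    rw [div_le_iff₀ (by linarith)]
    nlinarith
  have h8 : (∑ v ∈ V, |v|) * ε' * Real.log (1 / (s - 1)) ≤ ε * Real.log (1 / (s - 1)) :=
    mul_le_mul_of_nonneg_right h7 hlog
  have h9 : DS c s - (∑ᶠ x : G, f x) / (Nat.card G : ℝ) * Real.log (1 / (s - 1)) =
      (DS c s - DS (fun n => ∑ v ∈ V, v * cv v n) s) +
        (∑ v ∈ V, v * DS (cv v) s - ∑ v ∈ V, v * ((Nat.card (f ⁻¹' {v}) : ℝ) /
          (Nat.card G : ℝ) * Real.log (1 / (s - 1)))) := by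
    rw [h2, h4]
    ring
  rw [h9]
  refine (abs_add_le _ _).trans ?_
  linarith

end Main

section Range

variable {M : Type*} [Group M]

/-- A homomorphism from `Gal(ℚ̄/ℚ)` factoring through a finite level has finite range. -/
theorem finite_range (ρ : Γ →* M)
    (hlev : ∃ L : IntermediateField ℚ Qb, FiniteDimensional ℚ L ∧
      ∀ σ : Γ, (∀ x ∈ L, σ x = x) → ρ σ = 1) : Finite ρ.range := by
  obtain ⟨N, hNF, hGal, ρN, hρN⟩ := exists_descent ρ hlev
  have hmem : ∀ τ : N ≃ₐ[ℚ] N, ρN τ ∈ ρ.range := by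
    intro τ
    obtain ⟨σ, rfl⟩ := res_surjective N τ
    exact ⟨σ, (hρN σ).symm⟩
  refine Finite.of_surjective (fun τ : N ≃ₐ[ℚ] N => (⟨ρN τ, hmem τ⟩ : ρ.range)) ?_
  rintro ⟨_, σ, rfl⟩
  exact ⟨res N σ, Subtype.ext (hρN σ)⟩

theorem rangeRestrict_level (ρ : Γ →* M)
    (hlev : ∃ L : IntermediateField ℚ Qb, FiniteDimensional ℚ L ∧
      ∀ σ : Γ, (∀ x ∈ L, σ x = x) → ρ σ = 1) :
    ∃ L : IntermediateField ℚ Qb, FiniteDimensional ℚ L ∧
      ∀ σ : Γ, (∀ x ∈ L, σ x = x) → ρ.rangeRestrict σ = 1 := by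
  obtain ⟨L, hL, h⟩ := hlev
  exact ⟨L, hL, fun σ hσ => Subtype.ext (h σ hσ)⟩

open Classical in
/-- **Chebotarev for `Gal(ℚ̄/ℚ)`, set form, for a homomorphism `ρ` into any group** (finite
level, not necessarily surjective): `X` a set stable under conjugation by the image of `ρ` and
under inversion; the density is `|X ∩ im ρ| / |im ρ|`. -/
theorem chebotarev_Qb_range
    (hCheb : ∀ (L : Type) [Field L] [NumberField L] [IsGalois ℚ L], ChebStatement L)
    (ρ : Γ →* M)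
    (hlev : ∃ L : IntermediateField ℚ Qb, FiniteDimensional ℚ L ∧
      ∀ σ : Γ, (∀ x ∈ L, σ x = x) → ρ σ = 1)
    (S : Finset ℕ) (X : Set M) (hconj : ∀ g ∈ ρ.range, ∀ x ∈ X, g * x * g⁻¹ ∈ X)
    (hinv : ∀ x ∈ X, x⁻¹ ∈ X) (ε : ℝ) (hε : 0 < ε) :
    ∃ C : ℝ, ∀ s : ℝ, 1 < s → s ≤ 2 →
      |DS (fun p => if p.Prime ∧ p ∉ S ∧ ∃ (A : ValuationSubring Qb) (σ : Γ),
            A.LiesOverPrime p ∧ A.IsFrobeniusAt σ p ∧ ρ σ ∈ X then 1 else 0) s -
          (Nat.card (X ∩ (ρ.range : Set M) : Set M) : ℝ) / (Nat.card ρ.range : ℝ) *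
            Real.log (1 / (s - 1))| ≤
        ε * Real.log (1 / (s - 1)) + C := by
  have hfin := finite_range ρ hlev
  have hcard : Nat.card (Subtype.val ⁻¹' X : Set ρ.range) =
      Nat.card (X ∩ (ρ.range : Set M) : Set M) := by
    rw [Nat.card_coe_set_eq, Nat.card_coe_set_eq,
      ← Set.ncard_image_of_injective _ Subtype.val_injective]
    congr 1
    ext x
    constructor
    · rintro ⟨y, hy, rfl⟩
      exact ⟨hy, y.2⟩
    · rintro ⟨hx, hxr⟩
      exact ⟨⟨x, hxr⟩, hx, rfl⟩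
  have h := chebotarev_Qb hCheb ρ.rangeRestrict ρ.rangeRestrict_surjective
    (rangeRestrict_level ρ hlev) S (Subtype.val ⁻¹' X)
    (fun g x hx => hconj g.1 g.2 x.1 hx) (fun x hx => hinv x.1 hx) ε hε
  rw [hcard] at h
  exact h

end Range

section Character

/-- **Nontrivial characters have mean zero on Frobenius elements.**  For a nontrivial character
`ψ` of `Gal(ℚ̄/ℚ)` of finite level, `∑_p Re ψ(Frob_p) p^(-s) = o(log (1 / (s - 1)))`. -/
theorem chebotarev_Qb_char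
    (hCheb : ∀ (L : Type) [Field L] [NumberField L] [IsGalois ℚ L], ChebStatement L)
    (ψ : Γ →* ℂˣ)
    (hlev : ∃ L : IntermediateField ℚ Qb, FiniteDimensional ℚ L ∧
      ∀ σ : Γ, (∀ x ∈ L, σ x = x) → ψ σ = 1)
    (hψ : ψ ≠ 1) (S : Finset ℕ) (c : ℕ → ℝ)
    (hc : ∀ p : ℕ, p ∉ S → p.Prime → ∀ (A : ValuationSubring Qb) (σ : Γ),
      A.LiesOverPrime p → A.IsFrobeniusAt σ p → c p = ((ψ σ : ℂˣ) : ℂ).re)
    (hc0 : ∀ n : ℕ, n ∉ S → ¬ n.Prime → c n = 0)
    (ε : ℝ) (hε : 0 < ε) :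
    ∃ C : ℝ, ∀ s : ℝ, 1 < s → s ≤ 2 → |DS c s| ≤ ε * Real.log (1 / (s - 1)) + C := by
  classical
  have hfin := finite_range ψ hlev
  have := Fintype.ofFinite ψ.range
  have hnorm : ∀ z : ψ.range, ‖((z : ℂˣ) : ℂ)‖ = 1 := by
    intro z
    have h1 : z ^ orderOf z = 1 := pow_orderOf_eq_one z
    have h2 : ((z : ℂˣ) : ℂ) ^ orderOf z = 1 := by
      rw [← Units.val_pow_eq_pow_val, ← Subgroup.coe_pow, h1, Subgroup.coe_one, Units.val_one]
    exact Complex.norm_eq_one_of_pow_eq_one h2 (orderOf_pos z).ne'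
  have hmean : (∑ᶠ z : ψ.range, ((z : ℂˣ) : ℂ).re) = 0 := by
    rw [finsum_eq_sum_of_fintype, ← Complex.re_sum]
    have hne : ψ.range ≠ ⊥ := fun h => hψ (MonoidHom.range_eq_bot_iff.mp h)
    rw [FiniteField.sum_subgroup_units_eq_zero hne, Complex.zero_re]
  obtain ⟨C, hC⟩ := chebotarev_Qb_classFun hCheb ψ.rangeRestrict ψ.rangeRestrict_surjective
    (rangeRestrict_level ψ hlev) (fun z : ψ.range => ((z : ℂˣ) : ℂ).re)
    (fun g x => by rw [mul_inv_cancel_comm])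
    (fun x => by
      show (((x⁻¹ : ψ.range) : ℂˣ) : ℂ).re = ((x : ℂˣ) : ℂ).re
      rw [Subgroup.coe_inv, Units.val_inv_eq_inv_val, Complex.inv_eq_conj (hnorm x),
        Complex.conj_re])
    S c (fun p hpS hp A σ hA hσ => hc p hpS hp A σ hA hσ) hc0 ε hε
  refine ⟨C, fun s hs hs2 => ?_⟩
  have h := hC s hs hs2
  rw [hmean, zero_div, zero_mul, sub_zero] at h
  exact h

end Character

end Fermat.Agent.Lib.Chebotarev.LiftQbTransfer
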