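import Mathlib
import Fermat.Agent.Lib.Chebotarev.Core

/-!
# The pair estimate for a faithful cyclic subgroup (brick (G3) of Chebotarev)

`L/ℚ` finite Galois containing a primitive `m`-th root of unity `ζ`, `σ ∈ Gal(L/ℚ)` such that
`⟨σ⟩` acts faithfully on `ζ`.  Then
`frobDS σ s + frobDS σ⁻¹ s = (2 / ord σ) * log (1 / (s - 1)) + O(1)` on `(1, 2]`.

This file contains the reduction of that statement to the two inputs on degree-one primes of the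
fixed field of `⟨σ⟩` (taken here as hypotheses; they are supplied by the cyclotomic
degree-one density file).
-/

set_option autoImplicit false
set_option linter.unusedSectionVars false

open scoped NumberField Pointwise
open IsDedekindDomain

namespace Fermat.Agent.Lib.Chebotarev.CoreAlt

open Fermat.Agent.Lib.FrobDensity Fermat.Agent.Lib.Chebotarev

variable {L : Type*} [Field L] [NumberField L] [IsGalois ℚ L]

/-- `degOneCount` of the fixed field only depends on the subgroup. -/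
lemma degOneCount_fixedF_congr {H H' : Subgroup (L ≃ₐ[ℚ] L)} (h : H = H') (ℓ : ℕ) :
    degOneCount (fixedF L H) ℓ = degOneCount (fixedF L H') ℓ := by
  subst h
  rfl

/-- The pair estimate from its two inputs, for one element `g` with cyclotomic exponent `c`. -/
theorem pair_estimate_aux {m : ℕ} [NeZero m] (g : L ≃ₐ[ℚ] L) (c : (ZMod m)ˣ)
    (h1 : BddOn (fun s => DS (fun ℓ : ℕ =>
      ((if (ℓ : ZMod m) = (c : ZMod m) then (1 : ℝ) else 0) +
        (if (ℓ : ZMod m) = ((c⁻¹ : (ZMod m)ˣ) : ZMod m) then (1 : ℝ) else 0)) *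
        degOneCount (fixedF L (Subgroup.zpowers g)) ℓ) s -
      2 / (orderOf g : ℝ) * Real.log (1 / (s - 1))))
    (h2 : ∀ ℓ : ℕ, Good L ℓ → ¬ ℓ ∣ m → (Nat.card (frobSet g ℓ) : ℝ) =
      if (ℓ : ZMod m) = (c : ZMod m) then degOneCount (fixedF L (Subgroup.zpowers g)) ℓ else 0)
    (h3 : ∀ ℓ : ℕ, Good L ℓ → ¬ ℓ ∣ m → (Nat.card (frobSet g⁻¹ ℓ) : ℝ) =
      if (ℓ : ZMod m) = ((c⁻¹ : (ZMod m)ˣ) : ZMod m) then
        degOneCount (fixedF L (Subgroup.zpowers g⁻¹)) ℓ else 0) :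
    BddOn (fun s => frobDS g s + frobDS g⁻¹ s -
      2 / (orderOf g : ℝ) * Real.log (1 / (s - 1))) := by
  obtain ⟨T, hT⟩ := exists_finset_good L
  have hdeg : ∀ ℓ : ℕ, degOneCount (fixedF L (Subgroup.zpowers g⁻¹)) ℓ =
      degOneCount (fixedF L (Subgroup.zpowers g)) ℓ :=
    fun ℓ => degOneCount_fixedF_congr Subgroup.zpowers_inv ℓ
  have hd0 : ∀ ℓ : ℕ, 0 ≤ degOneCount (fixedF L (Subgroup.zpowers g)) ℓ :=
    fun ℓ => degOneCount_nonneg _ ℓ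
  have hd1 : ∀ ℓ : ℕ, degOneCount (fixedF L (Subgroup.zpowers g)) ℓ ≤
      (Module.finrank ℚ (fixedF L (Subgroup.zpowers g)) : ℝ) :=
    fun ℓ => degOneCount_le _ ℓ
  -- bounds on the two coefficient functions
  have hab : ∀ ℓ : ℕ, |((if (ℓ : ZMod m) = (c : ZMod m) then (1 : ℝ) else 0) +
        (if (ℓ : ZMod m) = ((c⁻¹ : (ZMod m)ˣ) : ZMod m) then (1 : ℝ) else 0)) *
        degOneCount (fixedF L (Subgroup.zpowers g)) ℓ| ≤
      2 * (Module.finrank ℚ (fixedF L (Subgroup.zpowers g)) : ℝ) := by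
    intro ℓ
    have e1 : (0 : ℝ) ≤ (if (ℓ : ZMod m) = (c : ZMod m) then (1 : ℝ) else 0) := by
      split_ifs <;> norm_num
    have e2 : (if (ℓ : ZMod m) = (c : ZMod m) then (1 : ℝ) else 0) ≤ 1 := by
      split_ifs <;> norm_num
    have e3 : (0 : ℝ) ≤ (if (ℓ : ZMod m) = ((c⁻¹ : (ZMod m)ˣ) : ZMod m) then (1 : ℝ) else 0) := by
      split_ifs <;> norm_num
    have e4 : (if (ℓ : ZMod m) = ((c⁻¹ : (ZMod m)ˣ) : ZMod m) then (1 : ℝ) else 0) ≤ 1 := by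
      split_ifs <;> norm_num
    rw [abs_of_nonneg (mul_nonneg (add_nonneg e1 e3) (hd0 ℓ))]
    exact mul_le_mul (by linarith) (hd1 ℓ) (hd0 ℓ) (by norm_num)
  have hbb : ∀ ℓ : ℕ, |frobCoef g ℓ + frobCoef g⁻¹ ℓ| ≤
      2 * (Nat.card (L ≃ₐ[ℚ] L) : ℝ) := by
    intro ℓ
    rw [abs_of_nonneg (add_nonneg (frobCoef_nonneg g ℓ) (frobCoef_nonneg g⁻¹ ℓ))]
    have := frobCoef_le g ℓ
    have := frobCoef_le g⁻¹ ℓ
    linarith
  -- the difference is finitely supported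
  have hsupp : ∀ ℓ : ℕ, ℓ ∉ T ∪ m.divisors →
      (frobCoef g ℓ + frobCoef g⁻¹ ℓ) -
        ((if (ℓ : ZMod m) = (c : ZMod m) then (1 : ℝ) else 0) +
          (if (ℓ : ZMod m) = ((c⁻¹ : (ZMod m)ˣ) : ZMod m) then (1 : ℝ) else 0)) *
          degOneCount (fixedF L (Subgroup.zpowers g)) ℓ = 0 := by
    intro ℓ hℓ
    rw [Finset.mem_union, not_or] at hℓ
    by_cases hp : ℓ.Prime
    · have hg : Good L ℓ := hT ℓ hp hℓ.1
      have hm : ¬ ℓ ∣ m := fun h => hℓ.2 (Nat.mem_divisors.2 ⟨h, NeZero.ne m⟩)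
      rw [frobCoef_of_good hg, frobCoef_of_good hg, h2 ℓ hg hm, h3 ℓ hg hm, hdeg ℓ]
      split_ifs <;> ring
    · have hg : ¬ Good L ℓ := fun h => hp h.1
      have hz : degOneCount (fixedF L (Subgroup.zpowers g)) ℓ = 0 := by
        unfold degOneCount
        rw [if_neg hp]
      rw [frobCoef_of_not_good hg, frobCoef_of_not_good hg, hz]
      ring
  have hD := bddOn_DS_of_support (T ∪ m.divisors) hsupp
  refine (h1.add hD).congr fun s hs _ => ?_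
  rw [DS_sub hbb hab hs]
  unfold frobDS
  rw [← DS_add (abs_frobCoef_le g) (abs_frobCoef_le g⁻¹) hs]
  ring

/-- **Pair estimate**, from the two cyclotomic degree-one inputs (as hypotheses). -/
theorem pair_estimate_of {m : ℕ} [NeZero m] {ζ : L} (hζ : IsPrimitiveRoot ζ m)
    (hA : ∀ (g : L ≃ₐ[ℚ] L) (c : (ZMod m)ˣ), g ζ = ζ ^ (c : ZMod m).val →
      (∀ k : ℕ, (g ^ k) ζ = ζ → g ^ k = 1) →
      BddOn (fun s => DS (fun ℓ : ℕ =>
        ((if (ℓ : ZMod m) = (c : ZMod m) then (1 : ℝ) else 0) +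
          (if (ℓ : ZMod m) = ((c⁻¹ : (ZMod m)ˣ) : ZMod m) then (1 : ℝ) else 0)) *
          degOneCount (fixedF L (Subgroup.zpowers g)) ℓ) s -
        2 / (orderOf g : ℝ) * Real.log (1 / (s - 1))))
    (hB : ∀ (g : L ≃ₐ[ℚ] L) (c : (ZMod m)ˣ), g ζ = ζ ^ (c : ZMod m).val →
      (∀ k : ℕ, (g ^ k) ζ = ζ → g ^ k = 1) →
      ∀ ℓ : ℕ, Good L ℓ → ¬ ℓ ∣ m → (Nat.card (frobSet g ℓ) : ℝ) =
        if (ℓ : ZMod m) = (c : ZMod m) then
          degOneCount (fixedF L (Subgroup.zpowers g)) ℓ else 0)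
    (σ : L ≃ₐ[ℚ] L) (hfaith : ∀ x ∈ Subgroup.zpowers σ, x ζ = ζ → x = 1) :
    BddOn (fun s => frobDS σ s + frobDS σ⁻¹ s -
      2 / (orderOf σ : ℝ) * Real.log (1 / (s - 1))) := by
  have hc : σ ζ = ζ ^ ((hζ.autToPow ℚ σ : (ZMod m)ˣ) : ZMod m).val :=
    (hζ.autToPow_spec ℚ σ).symm
  have hc' : σ⁻¹ ζ = ζ ^ (((hζ.autToPow ℚ σ)⁻¹ : (ZMod m)ˣ) : ZMod m).val := by
    rw [← map_inv]
    exact (hζ.autToPow_spec ℚ σ⁻¹).symm
  have hf : ∀ k : ℕ, (σ ^ k) ζ = ζ → σ ^ k = 1 :=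
    fun k hk => hfaith _ (Subgroup.npow_mem_zpowers σ k) hk
  have hf' : ∀ k : ℕ, (σ⁻¹ ^ k) ζ = ζ → σ⁻¹ ^ k = 1 := by
    intro k hk
    refine hfaith _ ?_ hk
    exact Subgroup.pow_mem _ (Subgroup.inv_mem _ (Subgroup.mem_zpowers σ)) k
  exact pair_estimate_aux σ (hζ.autToPow ℚ σ) (hA σ _ hc hf) (hB σ _ hc hf)
    (hB σ⁻¹ _ hc' hf')

end Fermat.Agent.Lib.Chebotarev.CoreAlt
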