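import Fermat.Agent.Lib.FrobDensity.DegOne
import Fermat.Agent.Lib.FrobDensity.Series

/-!
# The prime Dirichlet series

`∑_p p^(-s) = log (1 / (s - 1)) + O(1)` on `(1, 2]`, in the `DS` / `BddOn` vocabulary of
`Lib/FrobDensity`.  This is `DegOne.degOne_sum_bound` for the field `ℚ`, where there is exactly
one prime of norm `p` for every prime number `p`.
-/

set_option autoImplicit false

open scoped NumberField
open IsDedekindDomain

namespace Fermat.Agent.Lib.Chebotarev

open Fermat.Agent.Lib.FrobDensity

/-- Over `ℚ` there is exactly one prime of norm `p`, for every prime number `p`. -/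
theorem degOneCount_rat (n : ℕ) : degOneCount ℚ n = if n.Prime then (1 : ℝ) else 0 := by
  by_cases hp : n.Prime
  · rw [if_pos hp]
    apply le_antisymm
    · have h := degOneCount_le ℚ n
      rwa [Module.finrank_self, Nat.cast_one] at h
    · unfold degOneCount
      rw [if_pos hp]
      have hfin := finite_norm_eq ℚ n
      have hnorm : Ideal.absNorm (Ideal.span {((n : ℕ) : 𝓞 ℚ)}) = n := by
        rw [Ideal.absNorm_span_natCast, NumberField.RingOfIntegers.rank, Module.finrank_self, pow_one]
      have hprime : (Ideal.span {((n : ℕ) : 𝓞 ℚ)}).IsPrime :=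
        Ideal.isPrime_of_irreducible_absNorm (by rw [hnorm]; exact hp)
      have hne : Ideal.span {((n : ℕ) : 𝓞 ℚ)} ≠ ⊥ := by
        intro h
        rw [h, Ideal.absNorm_bot] at hnorm
        exact hp.ne_zero hnorm.symm
      have hne' : Nonempty {w : HeightOneSpectrum (𝓞 ℚ) // Ideal.absNorm w.asIdeal = n} :=
        ⟨⟨⟨_, hprime, hne⟩, hnorm⟩⟩
      have hpos : 0 < Nat.card {w : HeightOneSpectrum (𝓞 ℚ) // Ideal.absNorm w.asIdeal = n} :=
        Nat.card_pos
      exact_mod_cast hpos
  · rw [if_neg hp]
    unfold degOneCount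
    rw [if_neg hp]

/-- **The prime Dirichlet series**: `∑_p p^(-s) - log (1 / (s - 1))` is bounded on `(1, 2]`. -/
theorem bddOn_prime_DS :
    BddOn (fun s => DS (fun n => if n.Prime then (1 : ℝ) else 0) s -
      Real.log (1 / (s - 1))) := by
  obtain ⟨C, hC⟩ := degOne_sum_bound ℚ
  refine ⟨C, fun s hs1 hs2 => ?_⟩
  have e : DS (fun n => if n.Prime then (1 : ℝ) else 0) s =
      ∑' n : ℕ, degOneCount ℚ n * (n : ℝ) ^ (-s) := by
    unfold DS
    exact tsum_congr fun n => by rw [degOneCount_rat]
  change |DS (fun n => if n.Prime then (1 : ℝ) else 0) s - Real.log (1 / (s - 1))| ≤ C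
  rw [e]
  exact hC s hs1 hs2

/-- The same statement for an arbitrary decidability instance of `Nat.Prime`. -/
theorem bddOn_prime_DS_of_decidable (inst : DecidablePred Nat.Prime) :
    BddOn (fun s => DS (fun n => @ite ℝ (n.Prime) (inst n) 1 0) s -
      Real.log (1 / (s - 1))) := by
  have h : (fun n : ℕ => @ite ℝ (n.Prime) (inst n) 1 0) =
      fun n : ℕ => @ite ℝ (n.Prime) (Nat.decidablePrime n) 1 0 := by
    funext n
    congr
  rw [h]
  exact bddOn_prime_DS

end Fermat.Agent.Lib.Chebotarev
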