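/-
Taylor-Wiles primes from Chebotarev (exact existence form up to inversion).

`ρbar` a residual representation of `G_ℚ` (two-dimensional over a field `k`, of finite level),
unramified outside a finite set `T` of primes containing `p`; `f` any homomorphism of finite
level of `G_ℚ` to a group.  For every `σ ∈ G_ℚ` which is trivial on the `p ^ (n + 1)`-th roots of
unity and such that `ρbar σ` has two distinct eigenvalues in `k` there is a prime `q ∉ T` with
`q ≡ 1 mod p ^ (n + 1)` such that `ρbar φ` has two distinct eigenvalues in `k` for EVERY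
Frobenius element `φ` at EVERY place over `q`, and such that SOME Frobenius element `φ` over `q`
satisfies `f φ = f σ`, `ρbar φ = ρbar σ` or `f φ = (f σ)⁻¹`, `ρbar φ = ρbar σ⁻¹`.
`exists_tw_family` chooses such primes, pairwise distinct, for finitely many `σ i` at once.
-/
import Mathlib
import Fermat.Agent.Lib.Chebotarev.FrobExact
import Fermat.Agent.Lib.CycloChar
import Fermat.Agent.S55.Glue.PlacesAbove

set_option autoImplicit false

namespace Fermat.Agent.Lib.Chebotarev.TWPrime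

open Polynomial
open scoped Pointwise

local notation "Qb" => AlgebraicClosure ℚ
local notation "Γ" => (AlgebraicClosure ℚ ≃ₐ[ℚ] AlgebraicClosure ℚ)

/-! ### Two-dimensional linear algebra -/

section Lin

variable {k : Type} [Field k]

/-- The characteristic polynomial of the inverse of a `2 × 2` matrix with eigenvalues `α`, `β`. -/
theorem charpoly_of_mul_eq_one_matrix (M M' : Matrix (Fin 2) (Fin 2) k) (h : M' * M = 1)
    {α β : k} (hM : M.charpoly = (X - C α) * (X - C β)) :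
    M'.charpoly = (X - C α⁻¹) * (X - C β⁻¹) := by
  have e : ∀ a b : k, (X - C a) * (X - C b) = (X ^ 2 - C (a + b) * X + C (a * b) : k[X]) := by
    intro a b
    rw [C_add, C_mul]
    ring
  have h2 := Matrix.charpoly_fin_two M
  rw [hM, e] at h2
  have h0 := congrArg (Polynomial.eval (0 : k)) h2
  have h1 := congrArg (Polynomial.eval (1 : k)) h2
  simp only [eval_add, eval_sub, eval_mul, eval_pow, eval_X, eval_C] at h0 h1
  have hdet : M.det = α * β := by linear_combination -h0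
  have htr : M.trace = α + β := by linear_combination h1 - h0
  have hdd : M'.det * M.det = 1 := by rw [← Matrix.det_mul, h, Matrix.det_one]
  have hdet0 : M.det ≠ 0 := right_ne_zero_of_mul_eq_one hdd
  have hα : α ≠ 0 := by
    rintro rfl
    rw [zero_mul] at hdet
    exact hdet0 hdet
  have hβ : β ≠ 0 := by
    rintro rfl
    rw [mul_zero] at hdet
    exact hdet0 hdet
  have hinv : M⁻¹ = M' := Matrix.inv_eq_left_inv h
  have htr' : M'.trace = α⁻¹ + β⁻¹ := by
    rw [← hinv, Matrix.inv_def, Matrix.trace_smul, Matrix.adjugate_fin_two, Matrix.trace_fin_two]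
    simp only [Matrix.of_apply, Matrix.cons_val', Matrix.cons_val_zero, Matrix.cons_val_one,
      Matrix.empty_val', Matrix.cons_val_fin_one, smul_eq_mul]
    rw [Ring.inverse_eq_inv', hdet]
    have h4 : M 1 1 + M 0 0 = α + β := by
      rw [← htr, Matrix.trace_fin_two]
      ring
    rw [h4]
    field_simp
    ring
  have hdet' : M'.det = α⁻¹ * β⁻¹ := by
    have h5 : M'.det = (M.det)⁻¹ := eq_inv_of_mul_eq_one_left hdd
    rw [h5, hdet, mul_inv]
  rw [Matrix.charpoly_fin_two, htr', hdet', e]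

variable {V : Type} [AddCommGroup V] [Module k V]

/-- The characteristic polynomial of the inverse of an endomorphism of a plane with eigenvalues
`α`, `β`. -/
theorem charpoly_of_mul_eq_one [Module.Finite k V] (hV : Module.finrank k V = 2)
    (g g' : Module.End k V) (h : g' * g = 1) {α β : k}
    (hg : LinearMap.charpoly g = (X - C α) * (X - C β)) :
    LinearMap.charpoly g' = (X - C α⁻¹) * (X - C β⁻¹) := by
  let b : Module.Basis (Fin 2) k V := Module.finBasisOfFinrankEq k V hV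
  rw [← LinearMap.charpoly_toMatrix g' b]
  rw [← LinearMap.charpoly_toMatrix g b] at hg
  refine charpoly_of_mul_eq_one_matrix _ _ ?_ hg
  rw [← LinearMap.toMatrix_mul, h, LinearMap.toMatrix_one]

/-- Conjugate endomorphisms have the same characteristic polynomial. -/
theorem charpoly_conj_eq [Module.Finite k V] (a a' g : Module.End k V) (h1 : a * a' = 1)
    (h2 : a' * a = 1) : LinearMap.charpoly (a * g * a') = LinearMap.charpoly g := by
  let e : V ≃ₗ[k] V := LinearEquiv.ofLinearMap a a' h1 h2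
  have h3 : a * g * a' = e.conj g := by
    ext v
    rfl
  rw [h3, LinearEquiv.charpoly_conj]

end Lin

/-! ### Frobenius elements -/

section Frob

/-- Two Frobenius elements at `A` differ by an element of the inertia group. -/
theorem inv_mul_mem_inertia (A : ValuationSubring Qb) {σ₀ σ : Γ} {q : ℕ}
    (h₀ : A.IsFrobeniusAt σ₀ q) (h : A.IsFrobeniusAt σ q) :
    σ₀⁻¹ * σ ∈ A.inertiaSubgroupIn ℚ := by
  obtain ⟨h₀D, h₀x⟩ := h₀
  obtain ⟨hD, hx⟩ := h
  refine ⟨⟨σ₀, h₀D⟩⁻¹ * ⟨σ, hD⟩, ?_, rfl⟩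
  unfold ValuationSubring.inertiaSubgroup
  refine MonoidHom.mem_ker.mpr ?_
  ext x
  show (⟨σ₀, h₀D⟩⁻¹ * ⟨σ, hD⟩ : A.decompositionSubgroup ℚ) • x = x
  rw [mul_smul, hx, inv_smul_eq_iff, h₀x]

variable {k : Type} [Field k]

/-- For a residual representation unramified at `q`, all Frobenius elements at all places over
`q` have the same characteristic polynomial. -/
theorem charpoly_frob_eq (ρbar : ResidualGaloisRep k) {q : ℕ} (hq : q.Prime)
    (hunr : ρbar.IsUnramifiedAt q) {A : ValuationSubring Qb} (hA : A.LiesOverPrime q) {φ : Γ}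
    (hφ : A.IsFrobeniusAt φ q) {P : ValuationSubring Qb} (hP : P.LiesOverPrime q) {φ' : Γ}
    (hφ' : P.IsFrobeniusAt φ' q) :
    LinearMap.charpoly (ρbar.ρ φ') = LinearMap.charpoly (ρbar.ρ φ) := by
  obtain ⟨τ, hτ⟩ := Fermat.Agent.S55.Glue.PlacesAbove.exists_smul_eq hq hA hP
  have h1 : P.IsFrobeniusAt (τ * φ * τ⁻¹) q := by
    rw [← hτ]
    exact Fermat.Agent.S48.Dens.isFrobeniusAt_conj hφ τ
  have h2 := hunr P hP _ (inv_mul_mem_inertia P h1 hφ')
  have h3 : ρbar.ρ φ' = ρbar.ρ τ * ρbar.ρ φ * ρbar.ρ τ⁻¹ := by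
    have h4 : ρbar.ρ φ' = ρbar.ρ (τ * φ * τ⁻¹) * ρbar.ρ ((τ * φ * τ⁻¹)⁻¹ * φ') := by
      rw [← map_mul, mul_inv_cancel_left]
    rw [h4, h2, mul_one, map_mul, map_mul]
  rw [h3]
  refine charpoly_conj_eq _ _ _ ?_ ?_
  · rw [← map_mul, mul_inv_cancel, map_one]
  · rw [← map_mul, inv_mul_cancel, map_one]

end Frob

/-! ### Taylor-Wiles primes -/

section Main

open Fermat.Agent.Lib.Chebotarev.FrobExact

variable {k : Type} [Field k]

/-- The homomorphism to the units attached to a residual representation has finite level. -/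
theorem finiteLevel_toHomUnits (ρbar : ResidualGaloisRep k) :
    GaloisFactorsThroughFiniteLevel ρbar.ρ.toHomUnits := by
  obtain ⟨L, hL, h⟩ := ρbar.factorsThroughFiniteLevel
  refine ⟨L, hL, fun σ hσ => ?_⟩
  apply Units.ext
  rw [MonoidHom.coe_toHomUnits, h σ hσ, Units.val_one]

/-- **One Taylor-Wiles prime.**  See the file header. -/
theorem exists_tw_prime (p : ℕ) [Fact p.Prime] (ρbar : ResidualGaloisRep k)
    (T : Finset ℕ) (hpT : p ∈ T) (hunr : ∀ q : ℕ, q.Prime → q ∉ T → ρbar.IsUnramifiedAt q)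
    (n : ℕ) {H : Type} [Group H] (f : Γ →* H) (hf : GaloisFactorsThroughFiniteLevel f)
    (σ : Γ) (hcyc : ∀ z : Qb, z ^ p ^ (n + 1) = 1 → σ z = z)
    (hσ : ∃ α β : k, α ≠ β ∧ LinearMap.charpoly (ρbar.ρ σ) = (X - C α) * (X - C β)) :
    ∃ q : ℕ, q.Prime ∧ q ∉ T ∧ p ^ (n + 1) ∣ q - 1 ∧
      (∀ P : ValuationSubring Qb, P.LiesOverPrime q → ∀ φ : Γ, P.IsFrobeniusAt φ q →
        ∃ α β : k, α ≠ β ∧ LinearMap.charpoly (ρbar.ρ φ) = (X - C α) * (X - C β)) ∧
      ∃ (P : ValuationSubring Qb) (φ : Γ), P.LiesOverPrime q ∧ P.IsFrobeniusAt φ q ∧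
        ((f φ = f σ ∧ ρbar.ρ φ = ρbar.ρ σ) ∨ (f φ = (f σ)⁻¹ ∧ ρbar.ρ φ = ρbar.ρ σ⁻¹)) := by
  obtain ⟨α, β, hαβ, hch⟩ := hσ
  obtain ⟨ζ, hζ⟩ := Fermat.Agent.Lib.CycloChar.exists_primitiveRoot p (n + 1)
  have hpos : 0 < p ^ (n + 1) := pow_pos (Fact.out : p.Prime).pos _
  have : NeZero (p ^ (n + 1)) := ⟨hpos.ne'⟩
  have : FiniteDimensional ℚ (IntermediateField.adjoin ℚ {ζ}) :=
    IntermediateField.adjoin.finiteDimensional (hζ.isIntegral hpos).tower_top
  obtain ⟨N, hLN, hfd, hn⟩ :=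
    Fermat.Agent.Lib.FrobeniusDensity.exists_normal_finite_ge (IntermediateField.adjoin ℚ {ζ})
  have hζN : ζ ∈ N := hLN (IntermediateField.mem_adjoin_simple_self ℚ ζ)
  have hrN : GaloisFactorsThroughFiniteLevel
      (AlgEquiv.restrictNormalHom (F := ℚ) (K₁ := Qb) N) := by
    refine ⟨N, hfd, fun s hs => ?_⟩
    apply AlgEquiv.ext
    intro x
    apply Subtype.ext
    exact (AlgEquiv.restrictNormal_commutes s N x).trans (hs x x.2)
  have key : ∀ s t : Γ, AlgEquiv.restrictNormalHom (F := ℚ) (K₁ := Qb) N s =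
      AlgEquiv.restrictNormalHom (F := ℚ) (K₁ := Qb) N t → s ζ = t ζ := by
    intro s t h
    have h1 : algebraMap N Qb ((AlgEquiv.restrictNormalHom (F := ℚ) (K₁ := Qb) N s)
        ⟨ζ, hζN⟩) = s ζ := AlgEquiv.restrictNormal_commutes s N ⟨ζ, hζN⟩
    have h2 : algebraMap N Qb ((AlgEquiv.restrictNormalHom (F := ℚ) (K₁ := Qb) N t)
        ⟨ζ, hζN⟩) = t ζ := AlgEquiv.restrictNormal_commutes t N ⟨ζ, hζN⟩
    rw [← h1, ← h2, h]
  have hΦ := finiteLevel_prod _ _ hrN (finiteLevel_prod _ _ (finiteLevel_toHomUnits ρbar) hf)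
  obtain ⟨q, A, φ, hq, hqT, hA, hφ, hcase⟩ := exists_frobenius_map_eq_or_inv _ hΦ T σ
  have hqp : q ≠ p := fun h => hqT (h ▸ hpT)
  have hσζ : σ ζ = ζ := hcyc ζ hζ.pow_eq_one
  have hσinv : σ⁻¹ ζ = ζ := by
    conv_lhs => rw [← hσζ]
    rw [AlgEquiv.aut_inv, AlgEquiv.symm_apply_apply]
  -- `φ` agrees with `g = σ` or `g = σ⁻¹`
  obtain ⟨g, hg, hΦg⟩ : ∃ g : Γ, (g = σ ∨ g = σ⁻¹) ∧
      ((AlgEquiv.restrictNormalHom (F := ℚ) (K₁ := Qb) N).prod (ρbar.ρ.toHomUnits.prod f)) φ =
      ((AlgEquiv.restrictNormalHom (F := ℚ) (K₁ := Qb) N).prod (ρbar.ρ.toHomUnits.prod f)) g := by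
    rcases hcase with h | h
    · exact ⟨σ, Or.inl rfl, h⟩
    · exact ⟨σ⁻¹, Or.inr rfl, by rw [h, map_inv]⟩
  have h1 : AlgEquiv.restrictNormalHom (F := ℚ) (K₁ := Qb) N φ =
      AlgEquiv.restrictNormalHom (F := ℚ) (K₁ := Qb) N g := congrArg Prod.fst hΦg
  have h2 : ρbar.ρ.toHomUnits φ = ρbar.ρ.toHomUnits g := congrArg (fun x => x.2.1) hΦg
  have h3 : f φ = f g := congrArg (fun x => x.2.2) hΦg
  have hρ : ρbar.ρ φ = ρbar.ρ g := by
    have h4 := congrArg Units.val h2
    rwa [MonoidHom.coe_toHomUnits, MonoidHom.coe_toHomUnits] at h4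
  have hgζ : g ζ = ζ := by
    rcases hg with rfl | rfl
    · exact hσζ
    · exact hσinv
  have hφζ : φ ζ = ζ := by rw [key φ g h1, hgζ]
  have hcop : Nat.Coprime (p ^ (n + 1)) q :=
    Nat.Coprime.pow_left _ ((Nat.coprime_primes (Fact.out : p.Prime) hq).mpr (Ne.symm hqp))
  have hfr : φ ζ = ζ ^ q := Fermat.Agent.Lib.CycloChar.frob_root A hA φ hφ hcop hζ.pow_eq_one
  have hdvd : p ^ (n + 1) ∣ q - 1 := by
    apply hζ.dvd_of_pow_eq_one
    have hζ0 : ζ ≠ 0 := hζ.ne_zero hpos.ne'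
    have h4 : ζ ^ (q - 1) * ζ = 1 * ζ := by
      rw [← pow_succ, Nat.sub_add_cancel hq.one_le, ← hfr, hφζ, one_mul]
    exact mul_right_cancel₀ hζ0 h4
  have hchg : ∃ α' β' : k, α' ≠ β' ∧
      LinearMap.charpoly (ρbar.ρ g) = (X - C α') * (X - C β') := by
    rcases hg with rfl | rfl
    · exact ⟨α, β, hαβ, hch⟩
    · refine ⟨α⁻¹, β⁻¹, fun h => hαβ (inv_injective h), ?_⟩
      refine charpoly_of_mul_eq_one ρbar.finrank_eq (ρbar.ρ σ) (ρbar.ρ σ⁻¹) ?_ hch
      rw [← map_mul, inv_mul_cancel, map_one]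
  refine ⟨q, hq, hqT, hdvd, ?_, A, φ, hA, hφ, ?_⟩
  · intro P hP φ' hφ'
    obtain ⟨α', β', hne, hc⟩ := hchg
    refine ⟨α', β', hne, ?_⟩
    rw [charpoly_frob_eq ρbar hq (hunr q hq hqT) hA hφ hP hφ', hρ, hc]
  · rcases hg with rfl | rfl
    · exact Or.inl ⟨h3, hρ⟩
    · exact Or.inr ⟨by rw [h3, map_inv], hρ⟩

/-- **Finitely many Taylor-Wiles primes at once**, pairwise distinct. -/
theorem exists_tw_family (p : ℕ) [Fact p.Prime] (ρbar : ResidualGaloisRep k)
    (T : Finset ℕ) (hpT : p ∈ T) (hunr : ∀ q : ℕ, q.Prime → q ∉ T → ρbar.IsUnramifiedAt q)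
    (n : ℕ) {H : Type} [Group H] (f : Γ →* H) (hf : GaloisFactorsThroughFiniteLevel f) :
    ∀ (r : ℕ) (σ : Fin r → Γ), (∀ i, ∀ z : Qb, z ^ p ^ (n + 1) = 1 → σ i z = z) →
      (∀ i, ∃ α β : k, α ≠ β ∧ LinearMap.charpoly (ρbar.ρ (σ i)) = (X - C α) * (X - C β)) →
      ∃ qv : Fin r → ℕ, Function.Injective qv ∧
        (∀ i, (qv i).Prime ∧ qv i ∉ T ∧ p ^ (n + 1) ∣ qv i - 1) ∧
        (∀ i, ∀ P : ValuationSubring Qb, P.LiesOverPrime (qv i) → ∀ φ : Γ,
          P.IsFrobeniusAt φ (qv i) →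
            ∃ α β : k, α ≠ β ∧ LinearMap.charpoly (ρbar.ρ φ) = (X - C α) * (X - C β)) ∧
        ∀ i, ∃ (P : ValuationSubring Qb) (φ : Γ), P.LiesOverPrime (qv i) ∧
          P.IsFrobeniusAt φ (qv i) ∧
          ((f φ = f (σ i) ∧ ρbar.ρ φ = ρbar.ρ (σ i)) ∨
            (f φ = (f (σ i))⁻¹ ∧ ρbar.ρ φ = ρbar.ρ (σ i)⁻¹)) := by
  intro r
  induction r with
  | zero =>
    intro σ _ _
    exact ⟨Fin.elim0, fun i => i.elim0, fun i => i.elim0, fun i => i.elim0, fun i => i.elim0⟩
  | succ r ih =>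
    intro σ hcyc hσ
    obtain ⟨qv', hinj, h1, h2, h3⟩ :=
      ih (fun i => σ i.castSucc) (fun i => hcyc _) (fun i => hσ _)
    obtain ⟨q, hq, hqT, hdvd, hall, hex⟩ := exists_tw_prime p ρbar (T ∪ Finset.univ.image qv')
      (Finset.mem_union_left _ hpT)
      (fun q hq hqT => hunr q hq (fun h => hqT (Finset.mem_union_left _ h))) n f hf
      (σ (Fin.last r)) (hcyc _) (hσ _)
    have hqT' : q ∉ T := fun h => hqT (Finset.mem_union_left _ h)
    have hqv' : ∀ j, qv' j ≠ q := fun j h =>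
      hqT (Finset.mem_union_right _ (Finset.mem_image.mpr ⟨j, Finset.mem_univ _, h⟩))
    obtain ⟨qv, hlast, hcast⟩ : ∃ qv : Fin (r + 1) → ℕ, qv (Fin.last r) = q ∧
        ∀ j : Fin r, qv j.castSucc = qv' j :=
      ⟨Fin.snoc (α := fun _ => ℕ) qv' q, Fin.snoc_last _ _, fun j => Fin.snoc_castSucc _ _ _⟩
    refine ⟨qv, ?_, ?_, ?_, ?_⟩
    · intro i j hij
      induction i using Fin.lastCases with
      | last =>
        induction j using Fin.lastCases with
        | last => rfl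
        | cast j =>
          rw [hlast, hcast] at hij
          exact absurd hij.symm (hqv' j)
      | cast i =>
        induction j using Fin.lastCases with
        | last =>
          rw [hlast, hcast] at hij
          exact absurd hij (hqv' i)
        | cast j =>
          rw [hcast, hcast] at hij
          rw [hinj hij]
    · intro i
      induction i using Fin.lastCases with
      | last =>
        rw [hlast]
        exact ⟨hq, hqT', hdvd⟩
      | cast i =>
        rw [hcast]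
        exact h1 i
    · intro i
      induction i using Fin.lastCases with
      | last =>
        rw [hlast]
        exact hall
      | cast i =>
        rw [hcast]
        exact h2 i
    · intro i
      induction i using Fin.lastCases with
      | last =>
        rw [hlast]
        exact hex
      | cast i =>
        rw [hcast]
        exact h3 i

end Main

end Fermat.Agent.Lib.Chebotarev.TWPrime
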